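import Fermat.Agent.IwasawaGrowth.Classes

/-!
# Iwasawa's criterion for `μ = 0` in a `ℤ_p`-extension

The class group of the level `n` maps onto `Gal(L_n/F_n)` with kernel of order prime to `p`, so
both have as many elements killed by `p`. Hence `μ = 0` exactly when the `p`-ranks of the class
groups are bounded (`ZpTower.growth_mu_iff`), and a bound linear in `n` already gives `μ = 0`
(`ZpTower.mu_eq_zero_of_le`).
-/

set_option autoImplicit false
set_option linter.unusedSectionVars false
set_option linter.style.haveILetI false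

noncomputable section

open NumberField IsDedekindDomain
open Fermat.Agent.ClassFieldTower

namespace FA.IwasawaGrowth

/-- A surjection onto the `p`-part is bijective on the elements killed by `p`. -/
theorem card_torsion_eq_of_surjective {p : ℕ} [hp : Fact p.Prime] {C X : Type*} [CommGroup C]
    [Finite C] [CommGroup X] (f : C →* X) (hf : Function.Surjective f)
    (hX : Nat.card X = p ^ (Nat.card C).factorization p) :
    Nat.card (powMonoidHom p : C →* C).ker = Nat.card (powMonoidHom p : X →* X).ker := by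
  have hC : Nat.card C = p ^ (Nat.card C).factorization p * Nat.card f.ker := by
    rw [← hX, mul_comm, ← Subgroup.card_mul_index f.ker, Subgroup.index_ker,
      MonoidHom.range_eq_top.2 hf, Subgroup.card_top]
  have hco : (Nat.card f.ker).Coprime p := by
    refine Nat.Coprime.symm ((Nat.Prime.coprime_iff_not_dvd hp.out).2 fun hd => ?_)
    refine Nat.pow_succ_factorization_not_dvd (Nat.card_pos (α := C)).ne' hp.out ?_
    calc p ^ ((Nat.card C).factorization p + 1)
        = p ^ (Nat.card C).factorization p * p := pow_succ _ _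
      _ ∣ p ^ (Nat.card C).factorization p * Nat.card f.ker := Nat.mul_dvd_mul_left _ hd
      _ = Nat.card C := hC.symm
  let g : (powMonoidHom p : C →* C).ker → (powMonoidHom p : X →* X).ker := fun x =>
    ⟨f x.1, (map_pow f x.1 p).symm.trans ((congrArg f x.2).trans (map_one f))⟩
  refine Nat.card_eq_of_bijective g ⟨fun x y h => Subtype.ext ?_, fun y => ?_⟩
  · have h0 : x.1 * y.1⁻¹ ∈ f.ker := by
      rw [MonoidHom.mem_ker, map_mul, map_inv, show f x.1 = f y.1 from congrArg Subtype.val h,
        mul_inv_cancel]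
    have hxp : x.1 ^ p = 1 := x.2
    have hyp : y.1 ^ p = 1 := y.2
    have h1 : (x.1 * y.1⁻¹) ^ p = 1 := by rw [mul_pow, inv_pow, hxp, hyp, inv_one, mul_one]
    have h2 : (x.1 * y.1⁻¹) ^ Nat.card f.ker = 1 :=
      congrArg Subtype.val (pow_card_eq_one' (x := (⟨_, h0⟩ : f.ker)))
    refine mul_inv_eq_one.1 (orderOf_eq_one_iff.1 (Nat.eq_one_of_dvd_coprimes hco ?_ ?_))
    · exact orderOf_dvd_of_pow_eq_one h2
    · exact orderOf_dvd_of_pow_eq_one h1
  · obtain ⟨c, hc⟩ := hf y.1
    obtain ⟨s, -, hs⟩ := Nat.exists_mul_mod_eq_one_of_coprime hco hp.out.one_lt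
    have hy : y.1 ^ p = 1 := y.2
    refine ⟨⟨c ^ (Nat.card f.ker * s), ?_⟩, Subtype.ext ?_⟩
    · have h0 : c ^ p ∈ f.ker := by rw [MonoidHom.mem_ker, map_pow, hc, hy]
      have h2 : (c ^ p) ^ Nat.card f.ker = 1 :=
        congrArg Subtype.val (pow_card_eq_one' (x := (⟨_, h0⟩ : f.ker)))
      show (c ^ (Nat.card f.ker * s)) ^ p = 1
      rw [← pow_mul, mul_comm, pow_mul, pow_mul, h2, one_pow]
    · show f (c ^ (Nat.card f.ker * s)) = y.1
      rw [map_pow, hc, pow_eq_pow_mod _ hy, hs, pow_one]

variable {K : Type} [Field K] [NumberField K] {p : ℕ} [hp : Fact p.Prime]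

attribute [local instance] numberField_sub ZpTower.finite_level ZpTower.isGalois ZpTower.isCyclic

/-- The class group of the base maps onto the Galois group of its `p`-class field. -/
theorem IsClassField.exists_surjective {E L : IntermediateField K (AlgebraicClosure K)}
    [FiniteDimensional K E] [FiniteDimensional K L] [IsGalois K L] (h : IsClassField p E L) :
    ∃ f : ClassGroup (𝓞 E) →* sub h.le, Function.Surjective f := by
  set E' := IntermediateField.restrict h.le
  haveI : IsGalois E' L := IsGalois.tower_top_intermediateField E'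
  set e := E'.fixingSubgroupEquiv
  have hc : ∀ a b : L ≃ₐ[E'] L, a * b = b * a := fun a b => e.symm.injective (Subtype.ext (by
    rw [map_mul, map_mul]
    have h1 := Subgroup.mem_bot.1 (h.good.comm _ (e.symm a).2 _ (e.symm b).2)
    rwa [mul_inv_eq_one, mul_inv_eq_iff_eq_mul] at h1))
  have hone : ∀ s : L ≃ₐ[E'] L, ((e.symm s : E'.fixingSubgroup) : L ≃ₐ[K] L) = 1 → s = 1 :=
    fun s hs => e.symm.injective (Subtype.ext (by rw [map_one]; exact hs))
  have hu : UnrEverywhere E' L := by
    refine ⟨unramifiedPrimes_of_inertia_eq_bot fun P hP hP0 => ?_, ⟨fun w => ?_⟩⟩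
    · refine (Subgroup.eq_bot_iff_forall _).2 fun t ht => hone t ?_
      exact Subgroup.mem_bot.1
        (h.good.inertia ⟨P, hP, hP0⟩ _ (fun y => ht y) (e.symm t).2)
    · rw [InfinitePlace.isUnramified_iff_stabilizer_eq_bot, Subgroup.eq_bot_iff_forall]
      intro t ht
      exact hone t (Subgroup.mem_bot.1 (h.good.place w _ (by exact ht) (e.symm t).2))
  obtain ⟨f, hf⟩ := exists_classGroup_surjective hc hu
  let eE := ClassGroup.mulEquiv
    (RingOfIntegers.mapRingEquiv (IntermediateField.restrictAlgEquiv h.le).toRingEquiv)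
  exact ⟨(e.symm.toMonoidHom.comp f).comp eE.toMonoidHom,
    (e.symm.surjective.comp hf).comp eE.surjective⟩

namespace ZpTower

variable (T : ZpTower p K)

/-- The class group and `X n` have as many elements killed by `p`. -/
theorem card_torsion_classGroup (n : ℕ) :
    Nat.card (powMonoidHom p : ClassGroup (𝓞 (T.field n)) →* ClassGroup (𝓞 (T.field n))).ker =
      Nat.card (powMonoidHom p : T.X n →* T.X n).ker := by
  obtain ⟨f, hf⟩ := (T.cl_spec n).exists_surjective
  refine card_torsion_eq_of_surjective (X := T.X n) f hf ?_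
  rw [T.card_X, classNumber, Nat.card_eq_fintype_card]

/-- **Iwasawa: `μ = 0` exactly when the `p`-ranks are bounded.** -/
theorem growth_mu_iff : ∃ (mu lam : ℕ) (nu : ℤ) (n₀ : ℕ), (∀ n, n₀ ≤ n →
    (padicValNat p (classNumber (T.field n)) : ℤ) = mu * p ^ n + lam * n + nu) ∧
    (mu = 0 ↔ ∃ C, ∀ n, Nat.card (powMonoidHom p :
      ClassGroup (𝓞 (T.field n)) →* ClassGroup (𝓞 (T.field n))).ker ≤ C) := by
  obtain ⟨mu, lam, nu, n₀, h, h0, h1⟩ := T.growth_classNumber_mu
  refine ⟨mu, lam, nu, n₀, h, fun hz => ?_, fun hC => ?_⟩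
  · obtain ⟨C, hC⟩ := h0 hz
    exact ⟨C, fun n => (T.card_torsion_classGroup n).trans_le (hC n)⟩
  · by_contra hne
    obtain ⟨e, he⟩ := h1 hne
    obtain ⟨C, hC⟩ := hC
    have h2 := (he (C + 1)).trans ((T.card_torsion_classGroup _).symm.trans_le (hC (e + (C + 1))))
    have h3 : C + 1 ≤ p ^ (e + (C + 1)) - p ^ e := by
      have h4 : p ^ e * (C + 1 + 1) ≤ p ^ e * p ^ (C + 1) :=
        Nat.mul_le_mul_left _ (Nat.lt_pow_self hp.out.one_lt)
      have h5 : 1 * (C + 1) ≤ p ^ e * (C + 1) :=
        Nat.mul_le_mul_right _ (Nat.one_le_pow _ _ hp.out.pos)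
      rw [← pow_add, Nat.mul_succ] at h4
      omega
    have h4 := (Nat.lt_pow_self hp.out.one_lt).trans_le
      ((Nat.pow_le_pow_right hp.out.pos h3).trans h2)
    omega

/-- **A bound on the `p`-ranks linear in `n` gives `μ = 0`.** -/
theorem mu_eq_zero_of_le {a b n₁ : ℕ} (hab : ∀ n, n₁ ≤ n → Nat.card (powMonoidHom p :
      ClassGroup (𝓞 (T.field n)) →* ClassGroup (𝓞 (T.field n))).ker ≤ p ^ (a * n + b)) :
    ∃ (lam : ℕ) (nu : ℤ) (n₀ : ℕ), (∀ n, n₀ ≤ n →
      (padicValNat p (classNumber (T.field n)) : ℤ) = lam * n + nu) ∧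
      ∃ C, ∀ n, Nat.card (powMonoidHom p :
        ClassGroup (𝓞 (T.field n)) →* ClassGroup (𝓞 (T.field n))).ker ≤ C := by
  obtain ⟨mu, lam, nu, n₀, h, h0, h1⟩ := T.growth_classNumber_mu
  have hmu : mu = 0 := by
    by_contra hne
    obtain ⟨e, he⟩ := h1 hne
    have hr := nonpos_of_exp_le (p := p) (r := (p : ℤ) ^ e) (A := (a : ℤ))
      (B := a * e + b + (p : ℤ) ^ e) (k₀ := n₁) fun k hk => by
        have h2 := (he k).trans ((T.card_torsion_classGroup _).symm.trans_le
          (hab (e + k) (by omega)))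
        have h3 : p ^ e * p ^ k ≤ a * (e + k) + b + p ^ e := by
          have := (Nat.pow_le_pow_iff_right hp.out.one_lt).1 h2
          rw [← pow_add]
          omega
        have h4 : ((p ^ e * p ^ k : ℕ) : ℤ) ≤ ((a * (e + k) + b + p ^ e : ℕ) : ℤ) := by
          exact_mod_cast h3
        push_cast at h4
        linarith
    exact absurd hr (not_le.2 (pow_pos (by exact_mod_cast hp.out.pos) e))
  obtain ⟨C, hC⟩ := h0 hmu
  refine ⟨lam, nu, n₀, fun n hn => ?_, C, fun n => (T.card_torsion_classGroup n).trans_le (hC n)⟩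
  rw [h n hn, hmu, Nat.cast_zero, zero_mul, zero_add]

end ZpTower

end FA.IwasawaGrowth
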