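import Fermat.Agent.IwasawaGrowth.Series
import Fermat.Agent.IwasawaControl.Algebra

/-!
# Series acting through a nilpotent endomorphism

On a group killed by `p ^ N` with an endomorphism `T`, `T ^ b = 0`, the series `f` acts by the
truncation of `f` at `T` (`serAct`). The action commutes with intertwining homomorphisms
(`serAct_map`).
-/

set_option autoImplicit false
set_option linter.unusedSectionVars false
set_option linter.style.haveILetI false

noncomputable section

open PowerSeries

namespace FA.IwasawaGrowth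

open FA.IwasawaControl (polyAct polyAct_X polyAct_C polyAct_mul_apply)

variable {p : ℕ} [hp : Fact p.Prime] {N b : ℕ} {A : Type*} [AddCommGroup A]
  [Module (ZMod (p ^ N)) A] {T : AddMonoid.End A}

theorem polyAct_trunc (hT : T ^ b = 0) (P : Polynomial ℤ_[p]) {B : ℕ} (hB : b ≤ B) :
    polyAct p N T (trunc B (P : Lam p)) = polyAct p N T P := by
  obtain ⟨Q, hQ⟩ : Polynomial.X ^ B ∣ P - trunc B (P : Lam p) :=
    Polynomial.X_pow_dvd_iff.2 fun d hd => by
      rw [Polynomial.coeff_sub, coeff_trunc, if_pos hd, Polynomial.coeff_coe, sub_self]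
  refine (sub_eq_zero.1 ?_).symm
  rw [← map_sub, hQ, map_mul, map_pow, polyAct_X, ← Nat.add_sub_cancel' hB, pow_add, hT, zero_mul,
    zero_mul]

variable (N) in
/-- The action of a series. -/
def serAct (hT : T ^ b = 0) : Lam p →+* AddMonoid.End A where
  toFun f := polyAct p N T (trunc b f)
  map_one' := by
    show polyAct p N T (trunc b (1 : Lam p)) = 1
    rw [← Polynomial.coe_one, polyAct_trunc hT 1 le_rfl, map_one]
  map_mul' f g := by
    show polyAct p N T (trunc b (f * g)) = _
    rw [← trunc_trunc_mul_trunc, ← Polynomial.coe_mul, polyAct_trunc hT _ le_rfl, map_mul]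
  map_zero' := by
    show polyAct p N T (trunc b (0 : Lam p)) = 0
    rw [map_zero, map_zero]
  map_add' f g := by
    show polyAct p N T (trunc b (f + g)) = _
    rw [map_add, map_add]

theorem serAct_apply (hT : T ^ b = 0) (f : Lam p) :
    serAct N hT f = polyAct p N T (trunc b f) := rfl

theorem serAct_coe (hT : T ^ b = 0) (P : Polynomial ℤ_[p]) :
    serAct N hT (P : Lam p) = polyAct p N T P := polyAct_trunc hT P le_rfl

theorem serAct_X (hT : T ^ b = 0) : serAct N hT (X : Lam p) = T := by
  rw [← Polynomial.coe_X, serAct_coe, polyAct_X]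

theorem serAct_trunc (hT : T ^ b = 0) (f : Lam p) {B : ℕ} (hB : b ≤ B) :
    serAct N hT f = polyAct p N T (trunc B f) := by
  rw [← serAct_coe hT, serAct_apply, serAct_apply]
  refine congrArg _ ?_
  ext m
  rw [coeff_trunc, coeff_trunc]
  split_ifs with h
  · rw [Polynomial.coeff_coe, coeff_trunc, if_pos (h.trans_le hB)]
  · rfl

/-- A series with coefficients below `b` divisible by `p ^ N` acts as zero. -/
theorem serAct_eq_zero (hT : T ^ b = 0) {f : Lam p}
    (h : ∀ j, j < b → (p : ℤ_[p]) ^ N ∣ coeff j f) : serAct N hT f = 0 := by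
  obtain ⟨Q, hQ⟩ : Polynomial.C ((p : ℤ_[p]) ^ N) ∣ trunc b f :=
    Polynomial.C_dvd_iff_dvd_coeff _ _ |>.2 fun j => by
      rw [coeff_trunc]
      split_ifs with hj
      · exact h j hj
      · exact dvd_zero _
  rw [serAct_apply, hQ, map_mul, Polynomial.C_pow, map_natCast,
    FA.IwasawaControl.polyAct_natCast_pow, zero_mul]

variable {N' b' : ℕ} {A' : Type*} [AddCommGroup A'] [Module (ZMod (p ^ N')) A']
  {T' : AddMonoid.End A'}

/-- **The action commutes with intertwining maps.** -/
theorem serAct_map (hT : T ^ b = 0) (hT' : T' ^ b' = 0) (r : A →+ A')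
    (hr : ∀ x, r (T x) = T' (r x)) (f : Lam p) (x : A) :
    r (serAct N hT f x) = serAct N' hT' f (r x) := by
  haveI : NeZero (p ^ N) := ⟨pow_ne_zero _ hp.out.ne_zero⟩
  haveI : NeZero (p ^ N') := ⟨pow_ne_zero _ hp.out.ne_zero⟩
  rw [serAct_trunc hT f (le_max_left b b'), serAct_trunc hT' f (le_max_right b b')]
  generalize trunc (max b b') f = P
  induction P using Polynomial.induction_on generalizing x with
  | C a =>
    rw [polyAct_C, polyAct_C]
    set s := PadicInt.toZModPow N a
    set t := PadicInt.toZModPow N' a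
    rw [← ZMod.natCast_zmod_val s, ← ZMod.natCast_zmod_val t, Nat.cast_smul_eq_nsmul,
      Nat.cast_smul_eq_nsmul, map_nsmul]
    have hdiv : (p : ℤ_[p]) ^ min N N' ∣ (s.val : ℤ_[p]) - (t.val : ℤ_[p]) := by
      have hs : (p : ℤ_[p]) ^ N ∣ a - (s.val : ℤ_[p]) := by
        rw [← Ideal.mem_span_singleton, ← PadicInt.ker_toZModPow, RingHom.mem_ker, map_sub,
          map_natCast, ZMod.natCast_zmod_val, sub_self]
      have ht : (p : ℤ_[p]) ^ N' ∣ a - (t.val : ℤ_[p]) := by
        rw [← Ideal.mem_span_singleton, ← PadicInt.ker_toZModPow, RingHom.mem_ker, map_sub,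
          map_natCast, ZMod.natCast_zmod_val, sub_self]
      simpa using dvd_sub ((pow_dvd_pow _ (min_le_right N N')).trans ht)
        ((pow_dvd_pow _ (min_le_left N N')).trans hs)
    have hkill : p ^ min N N' • r x = 0 := by
      rcases le_total N N' with h | h
      · rw [min_eq_left h, ← map_nsmul, ← Nat.cast_smul_eq_nsmul (ZMod (p ^ N)), ZMod.natCast_self,
          zero_smul, map_zero]
      · rw [min_eq_right h, ← Nat.cast_smul_eq_nsmul (ZMod (p ^ N')), ZMod.natCast_self, zero_smul]
    have hmod : s.val ≡ t.val [MOD p ^ min N N'] := by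
      rw [← ZMod.natCast_eq_natCast_iff, ← map_natCast (PadicInt.toZModPow (p := p) (min N N')),
        ← map_natCast (PadicInt.toZModPow (p := p) (min N N')), ← sub_eq_zero, ← map_sub,
        ← RingHom.mem_ker, PadicInt.ker_toZModPow, Ideal.mem_span_singleton]
      exact hdiv
    rw [← Nat.mod_add_div s.val (p ^ min N N'), ← Nat.mod_add_div t.val (p ^ min N N'), hmod,
      add_nsmul, add_nsmul, mul_nsmul, mul_nsmul, hkill, smul_zero, smul_zero]
  | add P Q hP hQ =>
    rw [map_add, map_add]
    show r (polyAct p N T P x + polyAct p N T Q x) =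
      polyAct p N' T' P (r x) + polyAct p N' T' Q (r x)
    exact (map_add r _ _).trans (congrArg₂ _ (hP x) (hQ x))
  | monomial j a ih =>
    rw [pow_succ, ← mul_assoc, polyAct_mul_apply (T := T)]
    refine (ih _).trans ?_
    rw [polyAct_mul_apply T' (Polynomial.C a * Polynomial.X ^ j) Polynomial.X, polyAct_X, polyAct_X]
    exact congrArg _ (hr x)

end FA.IwasawaGrowth
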