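import Fermat.Agent.ClassFieldTower.PPart
import Fermat.Agent.ArtinReciprocity.Frobenius

/-!
# Subgroups cutting out unramified abelian `p`-extensions

In `G = Gal(N/K)` a subgroup `V` of `H = Gal(N/E)` is `Good` if it contains the commutators of `H`,
its inertia groups and its stabilisers of infinite places, and `H / V` is a `p`-group. Its index
then divides the class number of `E` (`Good.relIndex`), and equality with the `p`-part occurs
once `N` contains the Hilbert class field of `E` (`exists_good_of_algHom`), so the least good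
subgroup cuts out the `p`-class field.
-/

set_option autoImplicit false
set_option linter.unusedSectionVars false
set_option linter.style.haveILetI false

noncomputable section

open NumberField IsDedekindDomain
open FA.ArtinRec (belowP exists_belowP galPrime)
open Fermat.Agent.ClassFieldTower
open scoped Pointwise

namespace FA.IwasawaGrowth

variable {p : ℕ} {K N : Type} [Field K] [NumberField K] [Field N] [NumberField N] [Algebra K N]

/-! ### Restriction to a Galois subextension -/

section tower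

variable {E L : Type} [Field E] [NumberField E] [Field L] [NumberField L] [Algebra K E]
  [Algebra K L] [Algebra E L] [IsScalarTower K E L] [IsGalois K E] [IsGalois K L]

/-- Inertia groups map into the ones below. -/
theorem restrict_mem_inertia {Q : HeightOneSpectrum (𝓞 L)} {g : L ≃ₐ[K] L}
    (hg : g ∈ Q.asIdeal.inertia (L ≃ₐ[K] L)) :
    AlgEquiv.restrictNormalHom E g ∈ (belowP E Q).asIdeal.inertia (E ≃ₐ[K] E) := fun y => by
  show AlgEquiv.restrictNormalHom E g • y - y ∈ Q.asIdeal.under (𝓞 E)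
  rw [Ideal.mem_comap, map_sub, FA.ArtinL.algebraMap_restrictNormal_smul]
  exact hg _

/-- Stabilisers of infinite places map into the ones below. -/
theorem restrict_mem_stabilizer_place {u : InfinitePlace L} {g : L ≃ₐ[K] L}
    (hg : g ∈ MulAction.stabilizer (L ≃ₐ[K] L) u) :
    AlgEquiv.restrictNormalHom E g ∈
      MulAction.stabilizer (E ≃ₐ[K] E) (u.comap (algebraMap E L)) := by
  rw [MulAction.mem_stabilizer_iff] at hg ⊢
  refine InfinitePlace.ext _ _ fun x => ?_
  rw [InfinitePlace.smul_apply, InfinitePlace.comap_apply, InfinitePlace.comap_apply]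
  conv_rhs => rw [← hg, InfinitePlace.smul_apply]
  congr 1
  show algebraMap E L ((AlgEquiv.restrictNormalHom E g).symm x) = g.symm (algebraMap E L x)
  rw [show (AlgEquiv.restrictNormalHom E g).symm = AlgEquiv.restrictNormalHom E g.symm from
    (map_inv (AlgEquiv.restrictNormalHom E) g).symm]
  exact g.symm.restrictNormal_commutes E x

/-- The stabiliser of an infinite place maps onto the one below. -/
theorem exists_stabilizer_lift (u : InfinitePlace L) {t : E ≃ₐ[K] E}
    (ht : t ∈ MulAction.stabilizer (E ≃ₐ[K] E) (u.comap (algebraMap E L))) :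
    ∃ g ∈ MulAction.stabilizer (L ≃ₐ[K] L) u, AlgEquiv.restrictNormalHom E g = t := by
  haveI : IsGalois E L := IsGalois.tower_top_of_isGalois K E L
  obtain ⟨σ₀, hσ₀⟩ := AlgEquiv.restrictNormalHom_surjective (F := K) (K₁ := E) L t
  have hcomap : (σ₀ • u).comap (algebraMap E L) = u.comap (algebraMap E L) := by
    conv_rhs => rw [← MulAction.mem_stabilizer_iff.1 ht]
    refine InfinitePlace.ext _ _ fun x => ?_
    rw [InfinitePlace.smul_apply, InfinitePlace.comap_apply, InfinitePlace.comap_apply,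
      InfinitePlace.smul_apply]
    congr 1
    rw [show t.symm = AlgEquiv.restrictNormalHom E σ₀.symm from by
      rw [← hσ₀]; exact (map_inv (AlgEquiv.restrictNormalHom E) σ₀).symm]
    exact (σ₀.symm.restrictNormal_commutes E x).symm
  obtain ⟨h, hh⟩ := InfinitePlace.exists_smul_eq_of_comap_eq hcomap
  refine ⟨h.restrictScalars K * σ₀, ?_, by
    rw [map_mul, FA.ArtinL.restrictNormal_restrictScalars h, one_mul, hσ₀]⟩
  rw [MulAction.mem_stabilizer_iff, mul_smul]
  exact hh

end tower

/-! ### Good subgroups -/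

variable [IsGalois K N]


/-- `V` cuts out an abelian `p`-extension of the field of `H` unramified at every place. -/
structure Good (p : ℕ) (H V : Subgroup (N ≃ₐ[K] N)) : Prop where
  le : V ≤ H
  comm : ∀ a ∈ H, ∀ b ∈ H, a * b * a⁻¹ * b⁻¹ ∈ V
  inertia : ∀ Q : HeightOneSpectrum (𝓞 N), ∀ s ∈ Q.asIdeal.inertia (N ≃ₐ[K] N), s ∈ H → s ∈ V
  place : ∀ u : InfinitePlace N, ∀ s ∈ MulAction.stabilizer (N ≃ₐ[K] N) u, s ∈ H → s ∈ V
  ppow : ∀ h ∈ H, ∃ a : ℕ, h ^ p ^ a ∈ V

variable {H H' V W : Subgroup (N ≃ₐ[K] N)}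

theorem Good.inf (hV : Good p H V) (hW : Good p H W) : Good p H (V ⊓ W) where
  le := inf_le_left.trans hV.le
  comm a ha b hb := ⟨hV.comm a ha b hb, hW.comm a ha b hb⟩
  inertia Q s hs hH := ⟨hV.inertia Q s hs hH, hW.inertia Q s hs hH⟩
  place u s hs hH := ⟨hV.place u s hs hH, hW.place u s hs hH⟩
  ppow h hh := by
    obtain ⟨a, ha⟩ := hV.ppow h hh
    obtain ⟨b, hb⟩ := hW.ppow h hh
    refine ⟨a + b, ?_, ?_⟩
    · rw [pow_add, pow_mul]
      exact pow_mem ha _
    · rw [pow_add, mul_comm, pow_mul]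
      exact pow_mem hb _

theorem Good.inf_subgroup (hV : Good p H V) (hle : H' ≤ H) : Good p H' (V ⊓ H') where
  le := inf_le_right
  comm a ha b hb := ⟨hV.comm a (hle ha) b (hle hb),
    H'.mul_mem (H'.mul_mem (H'.mul_mem ha hb) (H'.inv_mem ha)) (H'.inv_mem hb)⟩
  inertia Q s hs hH := ⟨hV.inertia Q s hs (hle hH), hH⟩
  place u s hs hH := ⟨hV.place u s hs (hle hH), hH⟩
  ppow h hh := by
    obtain ⟨a, ha⟩ := hV.ppow h (hle hh)
    exact ⟨a, ha, pow_mem hh _⟩

theorem inertia_conj {Q : HeightOneSpectrum (𝓞 N)} {s : N ≃ₐ[K] N}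
    (hs : s ∈ Q.asIdeal.inertia (N ≃ₐ[K] N)) (g : N ≃ₐ[K] N) :
    g * s * g⁻¹ ∈ (galPrime g Q).asIdeal.inertia (N ≃ₐ[K] N) := fun y => by
  have h := Ideal.smul_mem_pointwise_smul g _ Q.asIdeal (hs (g⁻¹ • y))
  rw [smul_sub, ← mul_smul, ← mul_smul, smul_inv_smul] at h
  exact h

theorem stabilizer_conj {u : InfinitePlace N} {s : N ≃ₐ[K] N}
    (hs : s ∈ MulAction.stabilizer (N ≃ₐ[K] N) u) (g : N ≃ₐ[K] N) :
    g * s * g⁻¹ ∈ MulAction.stabilizer (N ≃ₐ[K] N) (g • u) := by
  rw [MulAction.mem_stabilizer_iff, mul_smul, mul_smul, inv_smul_smul,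
    MulAction.mem_stabilizer_iff.1 hs]

theorem Good.conj (hV : Good p H V) [hn : H.Normal] (g : N ≃ₐ[K] N) :
    Good p H (V.map (MulAut.conj g).toMonoidHom) := by
  have hmem : ∀ x, g⁻¹ * x * g ∈ V → x ∈ V.map (MulAut.conj g).toMonoidHom := fun x hx =>
    ⟨_, hx, by
      show g * (g⁻¹ * x * g) * g⁻¹ = x
      group⟩
  have hH : ∀ x ∈ H, g⁻¹ * x * g ∈ H := fun x hx => by simpa using hn.conj_mem x hx g⁻¹
  refine ⟨?_, fun a ha b hb => hmem _ ?_, fun Q s hs hsH => hmem _ ?_,
    fun u s hs hsH => hmem _ ?_, fun h hh => ?_⟩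
  · rintro _ ⟨x, hx, rfl⟩
    exact hn.conj_mem x (hV.le hx) g
  · convert hV.comm _ (hH a ha) _ (hH b hb) using 1
    group
  · have h := inertia_conj hs g⁻¹
    rw [inv_inv] at h
    exact hV.inertia _ _ h (hH s hsH)
  · have h := stabilizer_conj hs g⁻¹
    rw [inv_inv] at h
    exact hV.place _ _ h (hH s hsH)
  · obtain ⟨a, ha⟩ := hV.ppow _ (hH h hh)
    refine ⟨a, hmem _ ?_⟩
    have h1 : (g⁻¹ * h * g) ^ p ^ a = g⁻¹ * h ^ p ^ a * g := by
      have h2 := conj_pow (i := p ^ a) (a := g⁻¹) (b := h)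
      rwa [inv_inv] at h2
    rwa [h1] at ha

variable [hp : Fact p.Prime]

/-- **The index of a good subgroup divides the class number.** -/
theorem Good.relIndex (E : IntermediateField K N) [NumberField E]
    (h : Good p E.fixingSubgroup V) :
    (∃ a, V.relIndex E.fixingSubgroup = p ^ a) ∧
      V.relIndex E.fixingSubgroup ∣ classNumber E := by
  haveI : IsGalois E N := IsGalois.tower_top_intermediateField E
  set e := E.fixingSubgroupEquiv
  set V' : Subgroup (N ≃ₐ[E] N) := (V.subgroupOf E.fixingSubgroup).map e.toMonoidHom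
  have hmem : ∀ s : N ≃ₐ[E] N, (e.symm s : N ≃ₐ[K] N) ∈ V → s ∈ V' := fun s hs =>
    ⟨e.symm s, hs, e.apply_symm_apply s⟩
  haveI : V'.Normal := ⟨fun s hs g => by
    obtain ⟨x, hx, rfl⟩ := hs
    refine hmem _ ?_
    rw [map_mul, map_mul, map_inv, MulEquiv.coe_toMonoidHom, MulEquiv.symm_apply_apply]
    have h1 := mul_mem (h.comm _ (e.symm g).2 _ x.2) (show (x : N ≃ₐ[K] N) ∈ V from hx)
    rwa [inv_mul_cancel_right] at h1⟩
  set Y := IntermediateField.fixedField V'
  haveI : IsGalois E Y := IsGalois.of_fixedField_normal_subgroup V'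
  haveI : NumberField Y := NumberField.of_module_finite E Y
  let q : (N ≃ₐ[E] N) ⧸ V' ≃* (Y ≃ₐ[E] Y) := IsGalois.normalAutEquivQuotient V'
  have hq : ∀ s, AlgEquiv.restrictNormalHom Y s = 1 ↔ s ∈ V' := fun s => by
    rw [← MonoidHom.mem_ker, IntermediateField.restrictNormalHom_ker,
      IntermediateField.fixingSubgroup_fixedField]
  have hcomm : ∀ a b : Y ≃ₐ[E] Y, a * b = b * a := fun a b => by
    obtain ⟨a, rfl⟩ := AlgEquiv.restrictNormalHom_surjective (F := E) (K₁ := Y) N a
    obtain ⟨b, rfl⟩ := AlgEquiv.restrictNormalHom_surjective (F := E) (K₁ := Y) N b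
    rw [← commutatorElement_eq_one_iff_mul_comm, ← map_commutatorElement, hq]
    refine hmem _ ?_
    rw [commutatorElement_def, map_mul, map_mul, map_mul, map_inv, map_inv]
    exact h.comm _ (e.symm a).2 _ (e.symm b).2
  have hu : UnrEverywhere E Y := by
    refine ⟨unramifiedPrimes_of_inertia_eq_bot fun P hP hP0 => ?_, ⟨fun w => ?_⟩⟩
    · obtain ⟨Q, hQ⟩ := exists_belowP Y N (⟨P, hP, hP0⟩ : HeightOneSpectrum (𝓞 Y))
      haveI := Q.isMaximal
      refine (Subgroup.eq_bot_iff_forall _).2 fun t ht => ?_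
      have hQ' : Q.asIdeal.under (𝓞 Y) = P := congrArg HeightOneSpectrum.asIdeal hQ
      obtain ⟨s, hs, rfl⟩ := FA.ArtinL.exists_inertia_lift (K := E) Q.asIdeal
        (τ := t) (hQ'.symm ▸ ht)
      exact (hq s).2 (hmem s (h.inertia Q _ (fun y => hs y) (e.symm s).2))
    · rw [InfinitePlace.isUnramified_iff_stabilizer_eq_bot, Subgroup.eq_bot_iff_forall]
      intro t ht
      obtain ⟨u, rfl⟩ := InfinitePlace.comap_surjective (K := N) w
      obtain ⟨s, hs, rfl⟩ := exists_stabilizer_lift (K := E) u ht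
      refine (hq s).2 (hmem s (h.place u _ ?_ (e.symm s).2))
      exact hs
  have hp' : IsPGroup p ((N ≃ₐ[E] N) ⧸ V') := fun x => by
    obtain ⟨s, rfl⟩ := QuotientGroup.mk_surjective x
    obtain ⟨a, ha⟩ := h.ppow _ (e.symm s).2
    refine ⟨a, (QuotientGroup.eq_one_iff _).2 (hmem _ ?_)⟩
    rw [map_pow, Subgroup.coe_pow]
    exact ha
  have hidx : V.relIndex E.fixingSubgroup = Nat.card ((N ≃ₐ[E] N) ⧸ V') := by
    rw [← Subgroup.index_eq_card]
    exact (Subgroup.index_map_equiv _ e).symm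
  refine ⟨hidx ▸ IsPGroup.iff_card.1 hp', ?_⟩
  obtain ⟨f, hf⟩ := exists_classGroup_surjective hcomm hu
  rw [hidx, Nat.card_congr q.toEquiv, classNumber, ← Nat.card_eq_fintype_card]
  exact Subgroup.card_dvd_of_surjective f hf

/-- The index is at most the `p`-part of the class number. -/
theorem Good.relIndex_le (E : IntermediateField K N) [NumberField E]
    (h : Good p E.fixingSubgroup V) :
    V.relIndex E.fixingSubgroup ≤ p ^ (classNumber E).factorization p := by
  obtain ⟨⟨a, ha⟩, hd⟩ := h.relIndex E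
  rw [ha] at hd ⊢
  exact Nat.pow_le_pow_right hp.out.pos
    ((hp.out.pow_dvd_iff_le_factorization (classNumber_ne_zero E)).1 hd)

/-- **A good subgroup of the largest index is the least one.** -/
theorem Good.le_of_relIndex (E : IntermediateField K N) [NumberField E]
    (hV : Good p E.fixingSubgroup V)
    (hidx : V.relIndex E.fixingSubgroup = p ^ (classNumber E).factorization p)
    (hW : Good p E.fixingSubgroup W) : V ≤ W := by
  have h := (hV.inf hW).relIndex_le E
  have h0 : V.relIndex E.fixingSubgroup ≠ 0 := Subgroup.FiniteIndex.index_ne_zero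
  rw [← hidx, ← Subgroup.relIndex_mul_relIndex (V ⊓ W) V _ inf_le_left hV.le] at h
  have h1 : (V ⊓ W).relIndex V = 1 := by
    refine le_antisymm (Nat.le_of_mul_le_mul_right (by rwa [one_mul]) (Nat.pos_of_ne_zero h0)) ?_
    exact Nat.one_le_iff_ne_zero.2 Subgroup.FiniteIndex.index_ne_zero
  exact fun x hx => ((Subgroup.relIndex_eq_one.1 h1) hx).2

/-- Restriction to a Galois subextension maps good subgroups to good subgroups. -/
theorem Good.map_restrict {L : Type} [Field L] [NumberField L] [Algebra K L] [Algebra L N]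
    [IsScalarTower K L N] [IsGalois K L]
    (h : Good p H (AlgEquiv.restrictNormalHom (F := K) (K₁ := N) L).ker) :
    Good p (H.map (AlgEquiv.restrictNormalHom L)) ⊥ ∧
      Nat.card (H.map (AlgEquiv.restrictNormalHom (F := K) (K₁ := N) L)) =
        (AlgEquiv.restrictNormalHom (F := K) (K₁ := N) L).ker.relIndex H := by
  set r := AlgEquiv.restrictNormalHom (F := K) (K₁ := N) L
  have hmem : ∀ s, r s ∈ H.map r → s ∈ H := fun s ⟨y, hy, hys⟩ => by
    have h1 : y⁻¹ * s ∈ r.ker := by
      rw [MonoidHom.mem_ker, map_mul, map_inv, hys, inv_mul_cancel]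
    simpa using mul_mem hy (h.le h1)
  refine ⟨⟨bot_le, ?_, fun Q t ht htH => ?_, fun u t ht htH => ?_, ?_⟩, ?_⟩
  · rintro _ ⟨x, hx, rfl⟩ _ ⟨y, hy, rfl⟩
    rw [Subgroup.mem_bot, ← map_inv, ← map_inv, ← map_mul, ← map_mul, ← map_mul]
    exact h.comm x hx y hy
  · obtain ⟨Q', hQ'⟩ := exists_belowP L N Q
    haveI := Q'.isMaximal
    have hQ'' : Q'.asIdeal.under (𝓞 L) = Q.asIdeal := congrArg HeightOneSpectrum.asIdeal hQ'
    obtain ⟨s, hs, rfl⟩ := FA.ArtinL.exists_inertia_lift (K := K) Q'.asIdeal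
      (τ := t) (hQ''.symm ▸ ht)
    exact h.inertia Q' s hs (hmem s htH)
  · obtain ⟨w, rfl⟩ := InfinitePlace.comap_surjective (K := N) u
    obtain ⟨s, hs, rfl⟩ := exists_stabilizer_lift (K := K) w ht
    exact h.place w s hs (hmem s htH)
  · rintro _ ⟨x, hx, rfl⟩
    obtain ⟨a, ha⟩ := h.ppow x hx
    exact ⟨a, by rw [Subgroup.mem_bot, ← map_pow]; exact ha⟩
  · rw [Subgroup.relIndex_ker]

/-- The preimage of a good subgroup is good. -/
theorem Good.comap_restrict {L : Type} [Field L] [NumberField L] [Algebra K L] [Algebra L N]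
    [IsScalarTower K L N] [IsGalois K L] {H V : Subgroup (L ≃ₐ[K] L)} (h : Good p H V) :
    Good p (H.comap (AlgEquiv.restrictNormalHom (K₁ := N) L))
        (V.comap (AlgEquiv.restrictNormalHom L)) ∧
      (V.comap (AlgEquiv.restrictNormalHom (F := K) (K₁ := N) L)).relIndex
        (H.comap (AlgEquiv.restrictNormalHom L)) = V.relIndex H := by
  set r := AlgEquiv.restrictNormalHom (F := K) (K₁ := N) L
  refine ⟨⟨Subgroup.comap_mono h.le, fun x hx y hy => ?_, fun Q s hs hsH => ?_,
    fun u s hs hsH => ?_, fun x hx => ?_⟩, ?_⟩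
  · rw [Subgroup.mem_comap]
    simpa only [map_mul, map_inv] using h.comm _ hx _ hy
  · exact h.inertia _ _ (restrict_mem_inertia hs) hsH
  · exact h.place _ _ (restrict_mem_stabilizer_place hs) hsH
  · obtain ⟨a, ha⟩ := h.ppow _ hx
    exact ⟨a, by rw [Subgroup.mem_comap, map_pow]; exact ha⟩
  · rw [Subgroup.relIndex_comap,
      Subgroup.map_comap_eq_self_of_surjective (AlgEquiv.restrictNormalHom_surjective N)]

/-- **The `p`-class field inside a field containing the Hilbert class field.** -/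
theorem exists_good_of_algHom {E : Type} [Field E] [NumberField E] [Algebra K E] [Algebra E N]
    [IsScalarTower K E N] {X : Type} [Field X]
    [NumberField X] [Algebra E X] (hX : IsHilbertClassField E X) (f : X →ₐ[E] N) :
    ∃ V, Good p (IsScalarTower.toAlgHom K E N).fieldRange.fixingSubgroup V ∧
      V.relIndex (IsScalarTower.toAlgHom K E N).fieldRange.fixingSubgroup =
        p ^ (classNumber E).factorization p := by
  haveI : IsGalois E N := IsGalois.tower_top_of_isGalois K E N
  haveI := hX.isGalois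
  letI : Algebra X N := f.toRingHom.toAlgebra
  haveI : IsScalarTower E X N := IsScalarTower.of_algebraMap_eq fun x => (f.commutes x).symm
  let G := X ≃ₐ[E] X
  letI : CommGroup G := { (inferInstance : Group G) with mul_comm := hX.comm }
  obtain ⟨a, m, hm, hcard⟩ := Nat.exists_eq_pow_mul_and_not_dvd
    (classNumber_ne_zero E) p hp.out.ne_one
  have ha : (classNumber E).factorization p = a := by
    rw [hcard, Nat.factorization_mul (pow_ne_zero _ hp.out.ne_zero) (fun h => by simp [h] at hm),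
      Finsupp.add_apply, Nat.factorization_eq_zero_of_not_dvd hm, hp.out.factorization_pow,
      Finsupp.single_eq_same, add_zero]
  set H := (IsScalarTower.toAlgHom K E N).fieldRange.fixingSubgroup
  let e : H ≃* (N ≃ₐ[E] N) :=
    { toFun := fun s => { AlgEquiv.toRingEquiv (s : N ≃ₐ[K] N) with
        commutes' := fun x => (IntermediateField.mem_fixingSubgroup_iff _ _).1 s.2 _ ⟨x, rfl⟩ }
      invFun := fun t => ⟨t.restrictScalars K, (IntermediateField.mem_fixingSubgroup_iff _ _).2
        (by rintro _ ⟨x, rfl⟩; exact t.commutes x)⟩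
      left_inv := fun s => Subtype.ext (AlgEquiv.ext fun _ => rfl)
      right_inv := fun t => AlgEquiv.ext fun _ => rfl
      map_mul' := fun s t => AlgEquiv.ext fun _ => rfl }
  let r : H →* G := (AlgEquiv.restrictNormalHom X).comp e.toMonoidHom
  have hr : Function.Surjective r :=
    (AlgEquiv.restrictNormalHom_surjective N).comp e.surjective
  set V := (((powMonoidHom (α := G) m).ker).comap r).map H.subtype
  have hidx : V.relIndex H = p ^ a := by
    rw [Subgroup.relIndex, Subgroup.subgroupOf,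
      Subgroup.comap_map_eq_self_of_injective H.subtype_injective,
      Subgroup.index_comap_of_surjective _ hr,
      index_ker_powMonoidHom hm (by rw [IsGalois.card_aut_eq_finrank, hX.finrank_eq, hcard])]
  have hmem : ∀ s (hs : s ∈ H), r ⟨s, hs⟩ = 1 → s ∈ V := fun s hs h1 =>
    ⟨⟨s, hs⟩, by show r ⟨s, hs⟩ ^ m = 1; rw [h1, one_pow], rfl⟩
  refine ⟨V, ⟨Subgroup.map_subtype_le _, fun x hx y hy => ?_, fun Q s hs hsE => ?_,
    fun u s hs hsE => ?_, fun h hh => ⟨a, ?_⟩⟩, by rw [hidx, ha]⟩
  · refine hmem _ (mul_mem (mul_mem (mul_mem hx hy) (inv_mem hx)) (inv_mem hy)) ?_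
    show r (⟨x, hx⟩ * ⟨y, hy⟩ * ⟨x, hx⟩⁻¹ * ⟨y, hy⟩⁻¹) = 1
    simp only [map_mul, map_inv]
    rw [mul_comm (r ⟨x, hx⟩) (r ⟨y, hy⟩), mul_inv_cancel_right, mul_inv_cancel]
  · refine hmem s hsE ?_
    have h1 := restrict_mem_inertia (K := E) (E := X) (Q := Q)
      (g := e ⟨s, hsE⟩) (fun y => hs y)
    rwa [inertia_eq_bot hX.unr.1 _ (belowP X Q).isPrime (belowP X Q).ne_bot, Subgroup.mem_bot]
      at h1
  · refine hmem s hsE ?_
    have h1 := restrict_mem_stabilizer_place (K := E) (E := X) (u := u)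
      (g := e ⟨s, hsE⟩) hs
    haveI := hX.unr.2
    rwa [InfinitePlace.isUnramified_iff_stabilizer_eq_bot.1 (InfinitePlace.isUnramified E _),
      Subgroup.mem_bot] at h1
  · refine ⟨⟨h, hh⟩ ^ p ^ a, ?_, by rw [map_pow]; rfl⟩
    show r (⟨h, hh⟩ ^ p ^ a) ^ m = 1
    rw [map_pow, ← pow_mul, ← hcard, ← hX.finrank_eq, ← IsGalois.card_aut_eq_finrank,
      pow_card_eq_one']

end FA.IwasawaGrowth
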