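import Mathlib

/-!
# Iwasawa's lemma on a metabelian group

`X` is an abelian normal subgroup, `τ` meets it trivially, and subgroups `T i` meeting `X` trivially
contain elements `t i ≡ τ` modulo `X`. With `Hq q = X ⊔ ⟨τ ^ q⟩` and `Uq q` generated by the
commutators of `Hq q` and all `T i ⊓ Hq q`, the elements of `X` in `Uq q` are the norms
`(y τ) ^ q τ ^ (-q)` of those in `Uq 1` (`mem_Uq_iff`).
-/

set_option autoImplicit false
set_option linter.unusedSectionVars false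

noncomputable section

namespace FA.IwasawaGrowth

variable {G : Type*} [Group G] (X : Subgroup G) (τ : G) {ι : Type*} (T : ι → Subgroup G)

/-- `X ⊔ ⟨τ ^ q⟩`. -/
def Hq (q : ℕ) : Subgroup G := X ⊔ Subgroup.zpowers (τ ^ q)

/-- Generated by commutators and inertia. -/
def Uq (q : ℕ) : Subgroup G :=
  Subgroup.closure {g | ∃ a ∈ Hq X τ q, ∃ b ∈ Hq X τ q, g = a * b * a⁻¹ * b⁻¹} ⊔
    ⨆ i, T i ⊓ Hq X τ q

/-- The norm. -/
def normQ (q : ℕ) (x : G) : G := (x * τ) ^ q * (τ ^ q)⁻¹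

theorem normQ_zero (x : G) : normQ τ 0 x = 1 := by simp [normQ]

theorem normQ_one (x : G) : normQ τ 1 x = x := by simp [normQ]

theorem normQ_succ (q : ℕ) (x : G) :
    normQ τ (q + 1) x = normQ τ q x * (τ ^ q * x * (τ ^ q)⁻¹) := by
  simp only [normQ, pow_succ]
  group

variable {X τ T} [hXn : X.Normal]

theorem normQ_mem {x : G} (hx : x ∈ X) (q : ℕ) : normQ τ q x ∈ X := by
  induction q with
  | zero => rw [normQ_zero]; exact one_mem _
  | succ q ih => rw [normQ_succ]; exact mul_mem ih (hXn.conj_mem x hx _)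

variable (hX : ∀ a ∈ X, ∀ b ∈ X, a * b = b * a)
include hX

theorem normQ_mul {x y : G} (hx : x ∈ X) (hy : y ∈ X) (q : ℕ) :
    normQ τ q (x * y) = normQ τ q x * normQ τ q y := by
  induction q with
  | zero => simp [normQ_zero]
  | succ q ih =>
    rw [normQ_succ, normQ_succ, normQ_succ, ih,
      show τ ^ q * (x * y) * (τ ^ q)⁻¹ = τ ^ q * x * (τ ^ q)⁻¹ * (τ ^ q * y * (τ ^ q)⁻¹) by group]
    rw [mul_assoc (normQ τ q x), ← mul_assoc (normQ τ q y),
      hX _ (normQ_mem hy q) _ (hXn.conj_mem x hx _)]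
    simp only [mul_assoc]

theorem normQ_commutator {x : G} (hx : x ∈ X) (q : ℕ) :
    normQ τ q (τ * x * τ⁻¹ * x⁻¹) = τ ^ q * x * (τ ^ q)⁻¹ * x⁻¹ := by
  induction q with
  | zero => simp [normQ_zero]
  | succ q ih =>
    rw [normQ_succ, ih, hX _ (mul_mem (hXn.conj_mem x hx _) (inv_mem hx)) _
      (hXn.conj_mem _ (mul_mem (hXn.conj_mem x hx _) (inv_mem hx)) _), pow_succ]
    group

/-- The norm on `X`. -/
def nrm (q : ℕ) : X →* G := MonoidHom.mk' (fun x => normQ τ q x) fun x y => normQ_mul hX x.2 y.2 q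

omit hX in
/-- An element of `Hq q` is a product. -/
theorem exists_of_mem_Hq {q : ℕ} {g : G} (hg : g ∈ Hq X τ q) :
    ∃ x ∈ X, ∃ j : ℤ, g = x * (τ ^ q) ^ j := by
  obtain ⟨x, hx, z, hz, rfl⟩ := Subgroup.mem_sup_of_normal_left.1 hg
  obtain ⟨j, rfl⟩ := Subgroup.mem_zpowers_iff.1 hz
  exact ⟨x, hx, j, rfl⟩

variable {t : ι → G} (htT : ∀ i, t i ∈ T i) (hta : ∀ i, t i * τ⁻¹ ∈ X)
  (hTX : ∀ i, ∀ g ∈ T i, g ∈ X → g = 1) (hτX : ∀ j : ℤ, τ ^ j ∈ X → τ ^ j = 1)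
  (hτ : τ = 1 ∨ ∃ i, t i = τ)

omit hX in
theorem pow_mem_Uq (hτ : τ = 1 ∨ ∃ i, t i = τ) (htT : ∀ i, t i ∈ T i) (q : ℕ) :
    τ ^ q ∈ Uq X τ T q := by
  rcases hτ with h | ⟨i, h⟩
  · rw [h, one_pow]; exact one_mem _
  · exact Subgroup.mem_sup_right (Subgroup.mem_iSup_of_mem i
      ⟨h ▸ pow_mem (htT i) q, Subgroup.mem_sup_right (Subgroup.mem_zpowers _)⟩)

include htT hta hTX hτX hτ

/-- The elements of `X` in `Uq q` are the norms of the subgroup of the commutators with `τ` and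
the `t i τ⁻¹`. -/
theorem mem_Uq_iff_closure {q : ℕ} {z : G} (hz : z ∈ X) :
    z ∈ Uq X τ T q ↔ ∃ y ∈ X, y ∈ Subgroup.closure
      ({g | ∃ a ∈ X, g = τ * a * τ⁻¹ * a⁻¹} ∪ Set.range fun i => t i * τ⁻¹) ∧
        normQ τ q y = z := by
  set Y := Subgroup.closure
      ({g | ∃ a ∈ X, g = τ * a * τ⁻¹ * a⁻¹} ∪ Set.range fun i => t i * τ⁻¹) with hY
  set NY := (Y.subgroupOf X).map (nrm hX (τ := τ) q) with hNY
  have hmemNY : ∀ {g}, g ∈ NY ↔ ∃ y ∈ X, y ∈ Y ∧ normQ τ q y = g := fun {g} => by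
    constructor
    · rintro ⟨y, hy, rfl⟩
      exact ⟨y.1, y.2, hy, rfl⟩
    · rintro ⟨y, hy, hy', rfl⟩
      exact ⟨⟨y, hy⟩, hy', rfl⟩
  rw [← hmemNY]
  have hNX : NY ≤ X := fun g hg => by
    obtain ⟨y, hy, -, rfl⟩ := hmemNY.1 hg
    exact normQ_mem hy q
  -- commutators with `X`
  let C : Subgroup G :=
    { carrier := {g | ∀ a ∈ X, g * a * g⁻¹ * a⁻¹ ∈ NY}
      one_mem' := fun a _ => by simp
      mul_mem' := fun {g h} hg hh a ha => by
        have h1 := mul_mem (hg _ (hXn.conj_mem a ha h)) (hh a ha)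
        convert h1 using 1
        group
      inv_mem' := fun {g} hg a ha => by
        have h1 := inv_mem (hg _ (hXn.conj_mem a ha g⁻¹))
        convert h1 using 1
        group }
  have hHC : Hq X τ q ≤ C := by
    refine sup_le (fun g hg a ha => ?_) ?_
    · rw [hX g hg a ha]
      simp
    · rw [Subgroup.zpowers_le]
      intro a ha
      rw [← normQ_commutator hX ha q]
      exact hmemNY.2 ⟨_, mul_mem (hXn.conj_mem a ha τ) (inv_mem ha),
        Subgroup.subset_closure (Or.inl ⟨a, ha, rfl⟩), rfl⟩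
  have hnorm : ∀ g ∈ Hq X τ q, ∀ y ∈ NY, g * y * g⁻¹ ∈ NY := fun g hg y hy => by
    simpa using mul_mem (hHC hg y (hNX hy)) hy
  have hcomm : ∀ a ∈ Hq X τ q, ∀ b ∈ Hq X τ q, a * b * a⁻¹ * b⁻¹ ∈ NY := by
    intro a ha b hb
    obtain ⟨y, hy, j, rfl⟩ := exists_of_mem_Hq hb
    obtain ⟨w, hw, i, rfl⟩ := exists_of_mem_Hq ha
    have hz : ∀ l : ℤ, (τ ^ q) ^ l ∈ Hq X τ q := fun l =>
      Subgroup.mem_sup_right (Subgroup.zpow_mem_zpowers _ l)
    have h1 := mul_mem (hHC ha y hy)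
      (hnorm y (Subgroup.mem_sup_left hy) _ (inv_mem (hHC (hz j) w hw)))
    convert h1 using 1
    group
  -- the subgroup `NY ⟨τ ^ q⟩`
  let S : Subgroup G :=
    { carrier := {g | ∃ y ∈ NY, ∃ j : ℤ, g = y * (τ ^ q) ^ j}
      one_mem' := ⟨1, one_mem _, 0, by simp⟩
      mul_mem' := by
        rintro _ _ ⟨y, hy, i, rfl⟩ ⟨y', hy', j, rfl⟩
        refine ⟨y * ((τ ^ q) ^ i * y' * ((τ ^ q) ^ i)⁻¹), mul_mem hy
          (hnorm _ (Subgroup.mem_sup_right (Subgroup.zpow_mem_zpowers _ i)) _ hy'), i + j, ?_⟩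
        rw [zpow_add]
        group
      inv_mem' := by
        rintro _ ⟨y, hy, i, rfl⟩
        refine ⟨(τ ^ q) ^ (-i) * y⁻¹ * ((τ ^ q) ^ (-i))⁻¹,
          hnorm _ (Subgroup.mem_sup_right (Subgroup.zpow_mem_zpowers _ _)) _ (inv_mem hy), -i, ?_⟩
        rw [zpow_neg]
        group }
  have hSq : τ ^ q ∈ S := ⟨1, one_mem _, 1, by simp⟩
  have hle : Uq X τ T q ≤ S := by
    refine sup_le ((Subgroup.closure_le _).2 ?_) (iSup_le fun i g hg => ?_)
    · rintro _ ⟨a, ha, b, hb, rfl⟩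
      exact ⟨_, hcomm a ha b hb, 0, by simp⟩
    · obtain ⟨hgT, hgH⟩ := hg
      obtain ⟨a, ha, j, rfl⟩ := exists_of_mem_Hq hgH
      have htq : t i ^ q ∈ S := ⟨normQ τ q (t i * τ⁻¹),
        hmemNY.2 ⟨_, hta i, Subgroup.subset_closure (Or.inr ⟨i, rfl⟩), rfl⟩, 1, by
          rw [normQ, inv_mul_cancel_right, zpow_one, inv_mul_cancel_right]⟩
      have hquot : ((t i : G) : G ⧸ X) = (τ : G ⧸ X) := by
        rw [QuotientGroup.eq_iff_div_mem, div_eq_mul_inv]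
        exact hta i
      have h1 : a * (τ ^ q) ^ j * ((t i ^ q) ^ j)⁻¹ = 1 := by
        refine hTX i _ (mul_mem hgT (inv_mem (zpow_mem (pow_mem (htT i) q) j))) ?_
        rw [← QuotientGroup.eq_one_iff]
        simp only [QuotientGroup.mk_mul, QuotientGroup.mk_inv, QuotientGroup.mk_zpow,
          QuotientGroup.mk_pow, hquot, (QuotientGroup.eq_one_iff a).2 ha, one_mul, mul_inv_cancel]
      rw [mul_inv_eq_one] at h1
      rw [h1]
      exact zpow_mem htq j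
  have hge : NY ≤ Uq X τ T q := by
    intro g hg
    obtain ⟨y, hyX, hy, rfl⟩ := hmemNY.1 hg
    clear hg
    suffices h : Y ≤ ((Uq X τ T q).comap (nrm hX (τ := τ) q)).map X.subtype by
      obtain ⟨w, hw, rfl⟩ := h hy
      exact hw
    rw [hY, Subgroup.closure_le]
    rintro _ (⟨a, ha, rfl⟩ | ⟨i, rfl⟩)
    · refine ⟨⟨_, mul_mem (hXn.conj_mem a ha τ) (inv_mem ha)⟩, ?_, rfl⟩
      show normQ τ q _ ∈ Uq X τ T q
      rw [normQ_commutator hX ha q]
      exact Subgroup.mem_sup_left (Subgroup.subset_closure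
        ⟨_, Subgroup.mem_sup_right (Subgroup.mem_zpowers _), a, Subgroup.mem_sup_left ha, rfl⟩)
    · refine ⟨⟨_, hta i⟩, ?_, rfl⟩
      show normQ τ q _ ∈ Uq X τ T q
      rw [normQ, inv_mul_cancel_right]
      refine mul_mem (Subgroup.mem_sup_right (Subgroup.mem_iSup_of_mem i
        ⟨pow_mem (htT i) q, ?_⟩)) (inv_mem (pow_mem_Uq hτ htT q))
      have h1 : t i ^ q = normQ τ q (t i * τ⁻¹) * τ ^ q := by
        rw [normQ, inv_mul_cancel_right, inv_mul_cancel_right]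
      rw [h1]
      exact mul_mem (Subgroup.mem_sup_left (normQ_mem (hta i) q))
        (Subgroup.mem_sup_right (Subgroup.mem_zpowers _))
  refine ⟨fun h => ?_, fun h => hge h⟩
  obtain ⟨y, hy, j, rfl⟩ := hle h
  have h1 : (τ ^ q) ^ j ∈ X := by simpa using mul_mem (inv_mem (hNX hy)) hz
  rw [← zpow_natCast, ← zpow_mul] at h1 ⊢
  rwa [hτX _ h1, mul_one]

/-- **The elements of `X` in `Uq q` are norms.** -/
theorem mem_Uq_iff {q : ℕ} {x : G} (hx : x ∈ X) :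
    x ∈ Uq X τ T q ↔ ∃ y ∈ X, y ∈ Uq X τ T 1 ∧ normQ τ q y = x := by
  rw [mem_Uq_iff_closure hX htT hta hTX hτX hτ hx]
  constructor
  · rintro ⟨y, hy, hy', rfl⟩
    exact ⟨y, hy, (mem_Uq_iff_closure hX htT hta hTX hτX hτ hy).2 ⟨y, hy, hy', normQ_one τ y⟩, rfl⟩
  · rintro ⟨y, hy, hy', rfl⟩
    obtain ⟨w, hw, hw', hwy⟩ := (mem_Uq_iff_closure hX htT hta hTX hτX hτ hy).1 hy'
    rw [normQ_one] at hwy
    exact ⟨y, hy, hwy ▸ hw', rfl⟩

omit hta hTX hτX in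
/-- `X` and `Uq q` generate `Hq q`. -/
theorem Hq_le_sup (q : ℕ) : Hq X τ q ≤ X ⊔ Uq X τ T q :=
  sup_le le_sup_left (Subgroup.zpowers_le.2 (Subgroup.mem_sup_right (pow_mem_Uq hτ htT q)))

end FA.IwasawaGrowth
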