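import Fermat.Agent.IwasawaGrowth.MuModule
import Fermat.Agent.IwasawaGrowth.Action

/-!
# Growth of a tower of finite groups

`A k` are finite abelian `p`-groups with nilpotent endomorphisms `D k` and surjective transition
maps commuting with them, such that the kernel of `A m → A k` is the image under `ν_(e+k,e)` of the
kernel of `A m → A 0`, and boundedly many elements generate every `A m` over `ℤ[D m]`. Then the
exponent of `p` in the order of `A k` is `μ p ^ (e + k) + λ k + ν` for large `k`
(`growth_of_system`). Moreover `μ = 0` as soon as, and only if, the groups `A k [p]` are bounded.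

The compatible generators present each `A k` as a quotient `Λ ^ c / K k`, and compactness of
`Λ ^ c` gives `K k = R + ν K 0` with `R` the intersection of all `K k`.
-/

set_option autoImplicit false
set_option linter.unusedSectionVars false
set_option linter.style.haveILetI false

noncomputable section

open PowerSeries

namespace FA.IwasawaGrowth

variable {p : ℕ} [hp : Fact p.Prime] {c : ℕ}

section One

variable {N b : ℕ} {A : Type*} [AddCommGroup A] [Module (ZMod (p ^ N)) A] {T : AddMonoid.End A}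

/-- The map on `Λ ^ c` given by a tuple. -/
def piMap (hT : T ^ b = 0) (g : Fin c → A) : (Fin c → Lam p) →+ A where
  toFun v := ∑ i, serAct N hT (v i) (g i)
  map_zero' := Finset.sum_eq_zero fun i _ => by rw [Pi.zero_apply, map_zero]; rfl
  map_add' v w := by
    rw [← Finset.sum_add_distrib]
    exact Finset.sum_congr rfl fun i _ => by rw [Pi.add_apply, map_add]; rfl

theorem piMap_apply (hT : T ^ b = 0) (g : Fin c → A) (v : Fin c → Lam p) :
    piMap (N := N) hT g v = ∑ i, serAct N hT (v i) (g i) := rfl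

theorem piMap_smul (hT : T ^ b = 0) (g : Fin c → A) (f : Lam p) (v : Fin c → Lam p) :
    piMap (N := N) hT g (f • v) = serAct N hT f (piMap (N := N) hT g v) := by
  rw [piMap_apply, piMap_apply, map_sum]
  exact Finset.sum_congr rfl fun i _ => by rw [Pi.smul_apply, smul_eq_mul, map_mul]; rfl

/-- Its kernel. -/
def piKer (hT : T ^ b = 0) (g : Fin c → A) : Submodule (Lam p) (Fin c → Lam p) where
  carrier := {v | piMap (N := N) hT g v = 0}
  add_mem' {v w} hv hw := by
    show piMap (N := N) hT g (v + w) = 0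
    rw [map_add, show piMap (N := N) hT g v = 0 from hv, show piMap (N := N) hT g w = 0 from hw,
      add_zero]
  zero_mem' := map_zero _
  smul_mem' f v hv := by
    show piMap (N := N) hT g (f • v) = 0
    rw [piMap_smul, show piMap (N := N) hT g v = 0 from hv, map_zero]

theorem mem_piKer (hT : T ^ b = 0) (g : Fin c → A) {v : Fin c → Lam p} :
    v ∈ piKer (N := N) hT g ↔ piMap (N := N) hT g v = 0 := Iff.rfl

theorem piMap_surjective (hT : T ^ b = 0) (g : Fin c → A)
    (hg : ∀ H : AddSubgroup A, (∀ i, g i ∈ H) → (∀ x ∈ H, T x ∈ H) → H = ⊤) :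
    Function.Surjective (piMap (p := p) (N := N) hT g) := by
  rw [← AddMonoidHom.range_eq_top]
  refine hg _ (fun i => ?_) ?_
  · refine ⟨Pi.single i 1, ?_⟩
    rw [piMap_apply, Finset.sum_eq_single i, Pi.single_eq_same, map_one]
    · rfl
    · intro j _ hj
      rw [Pi.single_eq_of_ne hj, map_zero]
      rfl
    · exact fun h => absurd (Finset.mem_univ _) h
  · rintro _ ⟨v, rfl⟩
    exact ⟨(X : Lam p) • v, by rw [piMap_smul, serAct_X]⟩

/-- `piMap` sees finitely many digits. -/
theorem piMap_congr (hT : T ^ b = 0) (g : Fin c → A) {v w : Fin c → Lam p}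
    (h : ∀ i j, j < b → (p : ℤ_[p]) ^ N ∣ coeff j (v i) - coeff j (w i)) :
    piMap (N := N) hT g v = piMap (N := N) hT g w := by
  rw [← sub_eq_zero, ← map_sub, piMap_apply]
  refine Finset.sum_eq_zero fun i _ => ?_
  rw [serAct_eq_zero hT fun j hj => by rw [Pi.sub_apply, map_sub]; exact h i j hj]
  rfl

/-- The coordinate set on which `piMap` takes a given value is clopen. -/
theorem isClosed_piMap_eq (hT : T ^ b = 0) (g : Fin c → A)
    (F : (Fin c → Lam p) → (Fin c → Lam p)) (P : Set A)
    (hF : ∀ v w : Fin c → ℕ → ℤ_[p], (∀ i j, j < b → (p : ℤ_[p]) ^ N ∣ v i j - w i j) →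
      piMap (N := N) hT g (F fun i => mk (v i)) = piMap (N := N) hT g (F fun i => mk (w i))) :
    IsClosed {v : Fin c → ℕ → ℤ_[p] | piMap (N := N) hT g (F fun i => mk (v i)) ∈ P} := by
  rw [← isOpen_compl_iff, isOpen_iff_forall_mem_open]
  intro v hv
  refine ⟨⋂ i : Fin c, ⋂ j : Fin b, (fun w : Fin c → ℕ → ℤ_[p] => w i j) ⁻¹'
      Metric.ball (v i j) ((p : ℝ) ^ (-(N : ℤ))), fun w hw => ?_, ?_, ?_⟩
  · rw [Set.mem_compl_iff, Set.mem_ofPred_eq] at hv ⊢
    rwa [hF w v fun i j hj => ?_]
    have h := Set.mem_iInter.1 (Set.mem_iInter.1 hw i) ⟨j, hj⟩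
    rw [Set.mem_preimage, Metric.mem_ball, dist_eq_norm] at h
    rw [← Ideal.mem_span_singleton, ← PadicInt.norm_le_pow_iff_mem_span_pow]
    exact h.le
  · exact isOpen_iInter_of_finite fun i => isOpen_iInter_of_finite fun j =>
      Metric.isOpen_ball.preimage ((continuous_apply (j : ℕ)).comp (continuous_apply i))
  · refine Set.mem_iInter.2 fun i => Set.mem_iInter.2 fun j => Metric.mem_ball_self ?_
    exact zpow_pos (by exact_mod_cast hp.out.pos) _

end One

/-- **Growth in a tower of finite groups.** -/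
theorem growth_of_system {A : ℕ → Type*} [∀ k, AddCommGroup (A k)] [∀ k, Finite (A k)] (e : ℕ)
    (D : ∀ k, AddMonoid.End (A k)) (hnil : ∀ k, ∃ b, D k ^ b = 0)
    (hkill : ∀ k, ∃ N, ∀ x : A k, p ^ N • x = 0)
    (res : ∀ k m, k ≤ m → A m →+ A k) (hrefl : ∀ k x, res k k le_rfl x = x)
    (htrans : ∀ k l m (hkl : k ≤ l) (hlm : l ≤ m) x,
      res k l hkl (res l m hlm x) = res k m (hkl.trans hlm) x)
    (hsurj : ∀ k m hkm, Function.Surjective (res k m hkm))
    (hcomm : ∀ k m hkm x, res k m hkm (D m x) = D k (res k m hkm x))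
    (hker : ∀ k m hkm x, res k m hkm x = 0 ↔ ∃ y, res 0 m (Nat.zero_le m) y = 0 ∧
      (∑ i ∈ Finset.range (p ^ k), (1 + D m) ^ (i * p ^ e) : AddMonoid.End (A m)) y = x)
    (hgen : ∃ c : ℕ, ∀ m, ∃ g : Fin c → A m,
      ∀ H : AddSubgroup (A m), (∀ i, g i ∈ H) → (∀ x ∈ H, D m x ∈ H) → H = ⊤) :
    ∃ (mu lam : ℕ) (nu : ℤ) (k₀ : ℕ), (∀ k, k₀ ≤ k →
      (padicValNat p (Nat.card (A k)) : ℤ) = mu * p ^ (e + k) + lam * k + nu) ∧
      (mu = 0 → ∃ (C k₁ : ℕ), ∀ k, k₁ ≤ k →
        Nat.card (nsmulAddMonoidHom p : A k →+ A k).ker ≤ C) ∧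
      (mu ≠ 0 → ∀ k, p ^ degS p e k ≤
        Nat.card (nsmulAddMonoidHom p : A k →+ A k).ker) := by
  choose b hb using hnil
  choose N hN using hkill
  letI : ∀ k, Module (ZMod (p ^ N k)) (A k) := fun k => AddCommGroup.zmodModule (hN k)
  obtain ⟨c, hc⟩ := hgen
  -- compatible generators
  let G := fun m => {g : Fin c → A m //
    ∀ H : AddSubgroup (A m), (∀ i, g i ∈ H) → (∀ x ∈ H, D m x ∈ H) → H = ⊤}
  haveI : ∀ m, Nonempty (G m) := fun m => ⟨⟨(hc m).choose, (hc m).choose_spec⟩⟩
  haveI : ∀ m, Finite (G m) := fun m => Subtype.finite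
  let tr : ∀ {k m : ℕ}, k ≤ m → G m → G k := fun {k m} hkm g =>
    ⟨fun i => res k m hkm (g.1 i), fun H hH hD => by
      rw [eq_top_iff]
      intro y _
      obtain ⟨x, rfl⟩ := hsurj k m hkm y
      have h := g.2 (H.comap (res k m hkm)) hH fun x hx => by
        rw [AddSubgroup.mem_comap, hcomm]
        exact hD _ hx
      exact AddSubgroup.mem_comap.1 (h ▸ AddSubgroup.mem_top x)⟩
  obtain ⟨g, hg⟩ := exists_seq_forall_proj_of_forall_finite (α := G) tr
    (fun k a => Subtype.ext (funext fun i => hrefl k _))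
    (fun i j k hij hjk a => Subtype.ext (funext fun l => htrans i j k hij hjk _))
    (fun i a => Set.toFinite _)
  have hg' : ∀ {k m} (hkm : k ≤ m) i, res k m hkm ((g m).1 i) = (g k).1 i := fun {k m} hkm i =>
    congrFun (congrArg Subtype.val (hg hkm)) i
  set π := fun k => piMap (p := p) (N := N k) (hb k) (g k).1 with hπ
  set K := fun k => piKer (p := p) (N := N k) (hb k) (g k).1 with hK
  have hresπ : ∀ {k m} (hkm : k ≤ m) v, res k m hkm (π m v) = π k v := fun {k m} hkm v => by
    simp only [hπ, piMap_apply, map_sum]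
    exact Finset.sum_congr rfl fun i _ => by
      rw [serAct_map (N := N m) (N' := N k) (hb m) (hb k) _ (hcomm k m hkm), hg']
  have hmem : ∀ {k v}, v ∈ K k ↔ π k v = 0 := Iff.rfl
  have hmono : ∀ {k m}, k ≤ m → K m ≤ K k := fun {k m} hkm v hv => by
    rw [hmem] at hv ⊢
    rw [← hresπ hkm, hv, map_zero]
  have hnu : ∀ m k, serAct (N m) (hb m) (nuS p e k) =
      ∑ i ∈ Finset.range (p ^ k), (1 + D m) ^ (i * p ^ e) := fun m k => by
    rw [nuS, map_sum]
    exact Finset.sum_congr rfl fun i _ => by rw [map_pow, uS, map_add, map_one, serAct_X]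
  set R := ⨅ k, K k with hR
  -- `K k = R + ν K 0`
  have hKk : ∀ k v, v ∈ K k ↔ ∃ w ∈ K 0, v - nuS p e k • w ∈ R := by
    intro k v
    constructor
    · intro hv
      set S := fun m : ℕ => {w : Fin c → ℕ → ℤ_[p] |
        π 0 (fun i => mk (w i)) = 0 ∧
          π (k + m) (nuS p e k • fun i => mk (w i)) = π (k + m) v}
      have hne : ∀ m, (S m).Nonempty := fun m => by
        obtain ⟨y, hy0, hy⟩ := (hker k (k + m) (Nat.le_add_right _ _) (π (k + m) v)).1
          (by rw [hresπ]; exact hv)
        obtain ⟨w, hwy⟩ :=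
          piMap_surjective (p := p) (N := N (k + m)) (hb (k + m)) (g (k + m)).1 (g (k + m)).2 y
        subst hwy
        have hw : (fun i => mk fun j => coeff j (w i)) = w :=
          funext fun i => PowerSeries.ext fun j => coeff_mk _ _
        refine ⟨fun i j => coeff j (w i), ?_, ?_⟩
        · simp only [hw]
          rwa [← hresπ (Nat.zero_le _)]
        · simp only [hw]
          show piMap (hb _) (g (k + m)).1 (nuS p e k • w) = _
          rw [piMap_smul, hnu]
          exact hy
      have hcl : ∀ m, IsClosed (S m) := fun m => by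
        refine IsClosed.inter ?_ ?_
        · exact isClosed_piMap_eq (hb 0) (g 0).1 id {0} fun v w h => piMap_congr (hb 0) _
            fun i j hj => by simpa only [id_eq, coeff_mk] using h i j hj
        · refine isClosed_piMap_eq (hb (k + m)) (g (k + m)).1 (nuS p e k • ·) {π (k + m) v}
            fun v w h => ?_
          rw [piMap_smul, piMap_smul]
          exact congrArg _ (piMap_congr (hb _) _ fun i j hj => by
            simpa only [coeff_mk] using h i j hj)
      have hdec : ∀ m, S (m + 1) ⊆ S m := fun m w hw => ⟨hw.1, by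
        have hle : k + m ≤ k + (m + 1) := Nat.le_succ _
        rw [← hresπ hle, ← hresπ hle v, hw.2]⟩
      obtain ⟨w, hw⟩ := IsCompact.nonempty_iInter_of_sequence_nonempty_isCompact_isClosed S hdec
        hne (hcl 0).isCompact hcl
      rw [Set.mem_iInter] at hw
      refine ⟨fun i => mk (w i), hmem.2 (hw 0).1, (Submodule.mem_iInf _).2 fun m => ?_⟩
      refine hmono (Nat.le_add_left m k) (hmem.2 ?_)
      rw [map_sub, (hw m).2, sub_self]
    · rintro ⟨w, hw, hv⟩
      have h := hmem.1 ((Submodule.mem_iInf _).1 hv k)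
      rw [map_sub, sub_eq_zero] at h
      rw [hmem, h, ← hrefl k (π k _), hker k k le_rfl]
      refine ⟨π k w, by rw [hresπ]; exact hw, ?_⟩
      simp only [hπ]
      rw [piMap_smul, hnu]
  -- the module
  haveI : Module.Finite (Lam p) (K 0) := Module.Finite.of_fg (IsNoetherian.noetherian _)
  set R₀ := R.comap (K 0).subtype
  set M := K 0 ⧸ R₀
  have hcard : ∀ k, Nat.card (A k) = Nat.card (A 0) * cokCard M (nuS p e k) := fun k => by
    have hidx : ∀ j, (K j).toAddSubgroup.index = Nat.card (A j) := fun j => by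
      rw [show (K j).toAddSubgroup = (π j).ker from AddSubgroup.ext fun _ => Iff.rfl,
        AddSubgroup.index_ker,
        AddMonoidHom.range_eq_top.2 (piMap_surjective (N := N j) (hb j) _ (g j).2)]
      exact Nat.card_congr AddSubgroup.topEquiv.toEquiv
    have hrel : ((K k).toAddSubgroup.addSubgroupOf (K 0).toAddSubgroup) =
        (smulHom M (nuS p e k)).range.comap R₀.mkQ.toAddMonoidHom := by
      refine AddSubgroup.ext fun x => ?_
      rw [AddSubgroup.mem_addSubgroupOf, AddSubgroup.mem_comap]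
      refine (hKk k x.1).trans ⟨?_, ?_⟩
      · rintro ⟨w, hw, hx⟩
        refine ⟨R₀.mkQ ⟨w, hw⟩, ?_⟩
        rw [smulHom_apply, ← map_smul]
        exact ((Submodule.Quotient.eq R₀).2 hx).symm
      · rintro ⟨y, hy⟩
        obtain ⟨w, rfl⟩ := R₀.mkQ_surjective y
        rw [smulHom_apply, ← map_smul] at hy
        exact ⟨w.1, w.2, (Submodule.Quotient.eq R₀).1 hy.symm⟩
    rw [← hidx, ← hidx, cokCard, ← AddSubgroup.relIndex_mul_index
      (show (K k).toAddSubgroup ≤ (K 0).toAddSubgroup from hmono (Nat.zero_le k)),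
      AddSubgroup.relIndex, hrel, mul_comm]
    congr 1
    exact AddSubgroup.index_comap_of_surjective _ R₀.mkQ_surjective
  have hfin : ∀ k, 1 ≤ k → cokCard M (nuS p e k) ≠ 0 := fun k _ h0 =>
    Nat.card_pos.ne' ((hcard k).trans (by rw [h0, mul_zero]))
  obtain ⟨mu, lam, nu, k₀, h, h0, h1⟩ := growth_mu (M := M) e hfin
  -- the quotient by `p`, seen in the kernel `B` of `A k → A 0`
  set pM := LinearMap.range (LinearMap.lsmul (Lam p) M (p : Lam p))
  let B := fun k => (res 0 k (Nat.zero_le k)).ker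
  have hB : ∀ k, cokCard (M ⧸ pM) (nuS p e k) =
      Nat.card (nsmulAddMonoidHom p : B k →+ B k).ker := fun k => by
    let f : (K 0).toAddSubgroup →+ B k :=
      ((π k).comp (K 0).toAddSubgroup.subtype).codRestrict (B k) fun v => by
        show res 0 k (Nat.zero_le k) (π k v.1) = 0
        rw [hresπ]
        exact v.2
    have hf : Function.Surjective f := fun y => by
      obtain ⟨v, hv⟩ := piMap_surjective (p := p) (N := N k) (hb k) (g k).1 (g k).2 y.1
      refine ⟨⟨v, hmem.2 ?_⟩, Subtype.ext hv⟩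
      rw [← hresπ (Nat.zero_le k), hπ]
      simp only [hv]
      exact y.2
    set pB := (nsmulAddMonoidHom p : B k →+ B k).range
    have hker' : (smulHom (M ⧸ pM) (nuS p e k)).range.comap
        (pM.mkQ.comp R₀.mkQ).toAddMonoidHom = pB.comap f := by
      refine AddSubgroup.ext fun v => ?_
      rw [AddSubgroup.mem_comap, AddSubgroup.mem_comap]
      constructor
      · rintro ⟨z, hz⟩
        obtain ⟨z, rfl⟩ := pM.mkQ_surjective z
        obtain ⟨u, rfl⟩ := R₀.mkQ_surjective z
        rw [smulHom_apply, ← map_smul, ← map_smul] at hz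
        obtain ⟨w, hw⟩ := (Submodule.Quotient.eq pM).1 hz
        obtain ⟨w, rfl⟩ := R₀.mkQ_surjective w
        rw [LinearMap.lsmul_apply, ← map_smul] at hw
        have hR' : nuS p e k • u.1 - v.1 - (p : Lam p) • w.1 ∈ R := by
          have h3 : R₀.mkQ (nuS p e k • u - v - (p : Lam p) • w) = 0 := by
            rw [map_sub, hw, map_sub, sub_self]
          exact (Submodule.Quotient.mk_eq_zero R₀).1 h3
        refine ⟨-f w, Subtype.ext ?_⟩
        show p • -π k w.1 = π k v.1
        have hm : v.1 + (p : Lam p) • w.1 ∈ K k := (hKk k _).2 ⟨u.1, u.2, by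
          rw [show v.1 + (p : Lam p) • w.1 - nuS p e k • u.1 =
            -(nuS p e k • u.1 - v.1 - (p : Lam p) • w.1) by abel]
          exact R.neg_mem hR'⟩
        rw [hmem, map_add, Nat.cast_smul_eq_nsmul, map_nsmul] at hm
        rw [smul_neg, neg_eq_iff_add_eq_zero, add_comm]
        exact hm
      · rintro ⟨b, hb'⟩
        obtain ⟨w, rfl⟩ := hf b
        have hm : v.1 - (p : Lam p) • w.1 ∈ K k := by
          rw [hmem, map_sub, sub_eq_zero, Nat.cast_smul_eq_nsmul, map_nsmul]
          exact (congrArg Subtype.val hb').symm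
        obtain ⟨u, hu, hu'⟩ := (hKk k _).1 hm
        refine ⟨pM.mkQ (R₀.mkQ ⟨u, hu⟩), ?_⟩
        rw [smulHom_apply, ← map_smul, ← map_smul]
        refine (Submodule.Quotient.eq pM).2 ⟨R₀.mkQ (-w), ?_⟩
        rw [LinearMap.lsmul_apply, ← map_smul, ← map_sub]
        refine (Submodule.Quotient.eq R₀).2 ?_
        show (p : Lam p) • -w.1 - (nuS p e k • u - v.1) ∈ R
        rw [show (p : Lam p) • -w.1 - (nuS p e k • u - v.1) =
          v.1 - (p : Lam p) • w.1 - nuS p e k • u by rw [smul_neg]; abel]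
        exact hu'
    have hidx := congrArg AddSubgroup.index hker'
    rw [AddSubgroup.index_comap_of_surjective _ hf, AddSubgroup.index_comap_of_surjective _
      (pM.mkQ_surjective.comp R₀.mkQ_surjective)] at hidx
    rw [cokCard, hidx]
    exact AddSubgroup.index_range
  have hBA : ∀ k, Nat.card (nsmulAddMonoidHom p : B k →+ B k).ker ≤
      Nat.card (nsmulAddMonoidHom p : A k →+ A k).ker ∧
      Nat.card (nsmulAddMonoidHom p : A k →+ A k).ker ≤
        Nat.card (A 0) * Nat.card (nsmulAddMonoidHom p : B k →+ B k).ker := fun k => by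
    let i : (nsmulAddMonoidHom p : B k →+ B k).ker → (nsmulAddMonoidHom p : A k →+ A k).ker :=
      fun x => ⟨x.1.1, congrArg Subtype.val x.2⟩
    have hi : Function.Injective i := fun x y h =>
      Subtype.ext (Subtype.ext (congrArg (fun a => a.1) h))
    refine ⟨Nat.card_le_card_of_injective i hi, ?_⟩
    set q := (res 0 k (Nat.zero_le k)).comp (nsmulAddMonoidHom p : A k →+ A k).ker.subtype
    rw [← AddSubgroup.card_mul_index q.ker, AddSubgroup.index_ker, mul_comm]
    refine Nat.mul_le_mul (Nat.card_le_card_of_injective _ Subtype.val_injective) ?_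
    let j : q.ker → (nsmulAddMonoidHom p : B k →+ B k).ker :=
      fun x => ⟨⟨x.1.1, x.2⟩, Subtype.ext x.1.2⟩
    exact Nat.card_le_card_of_injective j fun x y h =>
      Subtype.ext (Subtype.ext (congrArg (fun a => a.1.1) h))
  refine ⟨mu, lam, nu + padicValNat p (Nat.card (A 0)), max k₀ 1, fun k hk => ?_,
    fun hz => ?_, fun hne k => ?_⟩
  · rw [hcard, padicValNat.mul Nat.card_pos.ne' (hfin k ((le_max_right _ _).trans hk)),
      Nat.cast_add, h k ((le_max_left _ _).trans hk)]
    ring
  · obtain ⟨C, k₁, hC⟩ := h0 hz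
    exact ⟨Nat.card (A 0) * C, k₁, fun k hk =>
      (hBA k).2.trans (Nat.mul_le_mul_left _ ((hB k).symm.trans_le (hC k hk)))⟩
  · exact ((h1 hne k).trans_eq (hB k)).trans (hBA k).1

end FA.IwasawaGrowth
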