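import Fermat.Agent.IwasawaGrowth.Tower
import Fermat.Agent.IwasawaGrowth.Group
import Fermat.Agent.IwasawaGrowth.Limit

/-!
# The `p`-class groups along a `ℤ_p`-extension

`X n = Gal(L_n/F_n)` for the `p`-class fields `L_n`. Above the level `e` where all ramified primes
are totally ramified, the group lemma applied to `Gal(L_m/K)` gives the hypotheses of
`growth_of_system`: the restrictions are surjective, their kernels are norms, and the number of
generators is bounded.
-/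

set_option autoImplicit false
set_option linter.unusedSectionVars false
set_option linter.style.haveILetI false

noncomputable section

open NumberField IsDedekindDomain
open FA.ArtinRec (belowP galPrime)
open scoped Pointwise

namespace FA.IwasawaGrowth

/-- An endomorphism of a finite `p`-group which is `1` after a power of `p` steps is unipotent. -/
theorem exists_pow_eq_zero {p : ℕ} [hp : Fact p.Prime] {A : Type*} [AddCommGroup A]
    {E : AddMonoid.End A} {r N : ℕ} (hE : (1 + E) ^ p ^ r = 1)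
    (hN : ∀ x : A, p ^ N • x = 0) : ∃ b, E ^ b = 0 := by
  obtain ⟨R, hR⟩ := Commute.exists_add_pow_prime_pow_eq hp.out
    (Commute.one_left (Polynomial.X : Polynomial ℤ)) r
  have h := congrArg (Polynomial.aeval E) hR
  simp only [map_add, map_mul, map_pow, map_natCast, map_one, Polynomial.aeval_X, one_pow,
    hE] at h
  set Q := -Polynomial.aeval E (1 * Polynomial.X * R) with hQ
  refine ⟨p ^ r * N, ?_⟩
  have h2 : E ^ p ^ r = (p : AddMonoid.End A) * Q := by
    rw [hQ, map_mul, map_mul, map_one, Polynomial.aeval_X, one_mul, mul_neg]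
    rw [mul_one, mul_assoc, add_assoc, left_eq_add] at h
    rw [eq_neg_iff_add_eq_zero]
    exact h
  have hpN : (p : AddMonoid.End A) ^ N = 0 := AddMonoidHom.ext fun x => by
    rw [← Nat.cast_pow]
    exact (AddMonoid.End.natCast_apply _ _).trans (hN x)
  rw [pow_mul, h2, (Nat.cast_commute p Q).mul_pow, hpN, zero_mul]

variable {K : Type} [Field K] [NumberField K] {p : ℕ} [hp : Fact p.Prime]

attribute [local instance] numberField_sub ZpTower.finite_level ZpTower.isGalois ZpTower.isCyclic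

namespace ZpTower

variable (T : ZpTower p K)

/-- The `p`-class field of the level `n`. -/
def cl (n : ℕ) : IntermediateField K (AlgebraicClosure K) :=
  (exists_isClassField (p := p) (T.field n)).choose

instance finite_cl (n : ℕ) : FiniteDimensional K (T.cl n) :=
  (exists_isClassField (p := p) (T.field n)).choose_spec.choose

instance isGalois_cl (n : ℕ) : IsGalois K (T.cl n) :=
  (exists_isClassField (p := p) (T.field n)).choose_spec.choose_spec.choose

theorem cl_spec (n : ℕ) : IsClassField p (T.field n) (T.cl n) :=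
  (exists_isClassField (p := p) (T.field n)).choose_spec.choose_spec.choose_spec

theorem field_le_cl (n : ℕ) : T.field n ≤ T.cl n := (T.cl_spec n).le

theorem cl_mono {n m : ℕ} (h : n ≤ m) : T.cl n ≤ T.cl m :=
  (T.cl_spec n).mono (T.cl_spec m) (T.mono h)

/-- `Gal(L_n/F_n)`. -/
def X (n : ℕ) : Subgroup (T.cl n ≃ₐ[K] T.cl n) := sub (T.field_le_cl n)

instance X_normal (n : ℕ) : (T.X n).Normal := sub_normal (T.field_le_cl n)

theorem X_comm {n : ℕ} (a b : T.cl n ≃ₐ[K] T.cl n) (ha : a ∈ T.X n) (hb : b ∈ T.X n) :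
    a * b = b * a := by
  have h := Subgroup.mem_bot.1 ((T.cl_spec n).good.comm a ha b hb)
  rwa [mul_inv_eq_one, mul_inv_eq_iff_eq_mul] at h

instance commGroupX (n : ℕ) : CommGroup (T.X n) :=
  { (inferInstance : Group (T.X n)) with
    mul_comm := fun a b => Subtype.ext (T.X_comm a.1 b.1 a.2 b.2) }

theorem card_X (n : ℕ) : Nat.card (T.X n) = p ^ (classNumber (T.field n)).factorization p :=
  (T.cl_spec n).card

/-- Restriction to the tower. -/
abbrev toF {n m : ℕ} (h : n ≤ m) : (T.cl m ≃ₐ[K] T.cl m) →* (T.field n ≃ₐ[K] T.field n) :=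
  res ((T.mono h).trans (T.field_le_cl m))

theorem card_cl (m : ℕ) :
    Nat.card (T.cl m ≃ₐ[K] T.cl m) = p ^ ((classNumber (T.field m)).factorization p + m) := by
  rw [← Subgroup.card_mul_index (T.X m), T.card_X, X, ← ker_res, Subgroup.index_ker,
    MonoidHom.range_eq_top.2 (res_surjective (T.field_le_cl m)), Subgroup.card_top, T.card_gal,
    pow_add]

theorem mem_X_iff {m : ℕ} {g : T.cl m ≃ₐ[K] T.cl m} : g ∈ T.X m ↔ T.toF le_rfl g = 1 := by
  rw [X, ← ker_res, MonoidHom.mem_ker]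

theorem conj_congr {m : ℕ} {g g' y : T.cl m ≃ₐ[K] T.cl m} (h : T.toF le_rfl g = T.toF le_rfl g')
    (hy : y ∈ T.X m) : g * y * g⁻¹ = g' * y * g'⁻¹ := by
  have h1 : g'⁻¹ * g ∈ T.X m := T.mem_X_iff.2 (by rw [map_mul, map_inv, h, inv_mul_cancel])
  have h2 := T.X_comm _ _ h1 hy
  calc g * y * g⁻¹ = g' * ((g'⁻¹ * g) * y) * g⁻¹ := by group
    _ = g' * y * g'⁻¹ := by rw [h2]; group

/-- Restriction of `X m` to `X n`. -/
def resX {n m : ℕ} (h : n ≤ m) : T.X m →* T.X n :=
  ((res (T.cl_mono h)).comp (T.X m).subtype).codRestrict (T.X n) fun x => by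
    show res (T.cl_mono h) x.1 ∈ sub (T.field_le_cl n)
    rw [← Subgroup.mem_comap, comap_sub]
    exact sub_le_sub (T.mono h) (T.field_le_cl m) x.2

theorem coe_resX {n m : ℕ} (h : n ≤ m) (x : T.X m) :
    (T.resX h x).1 = res (T.cl_mono h) x.1 := rfl

/-- Conjugation on `X n`. -/
def conjEnd (n : ℕ) : (T.cl n ≃ₐ[K] T.cl n) →* AddMonoid.End (Additive (T.X n)) :=
  { toFun := fun g => MonoidHom.toAdditive (MulAut.conjNormal g : MulAut (T.X n)).toMonoidHom
    map_one' := AddMonoidHom.ext fun a => by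
      show Additive.ofMul ((MulAut.conjNormal 1 : MulAut (T.X n)) a.toMul) = a
      rw [map_one]
      rfl
    map_mul' := fun g h => AddMonoidHom.ext fun a => by
      show Additive.ofMul ((MulAut.conjNormal (g * h) : MulAut (T.X n)) a.toMul) = _
      rw [map_mul]
      rfl }

theorem coe_conjEnd {n : ℕ} (g : T.cl n ≃ₐ[K] T.cl n) (a : Additive (T.X n)) :
    ((T.conjEnd n g a).toMul : T.cl n ≃ₐ[K] T.cl n) =
      g * (a.toMul : T.cl n ≃ₐ[K] T.cl n) * g⁻¹ := rfl

/-- A compatible generator and a level above which the ramified primes are totally ramified. -/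
structure Setup where
  /-- An automorphism generating every level. -/
  σ : AlgebraicClosure K ≃ₐ[K] AlgebraicClosure K
  gen : ∀ n, Subgroup.zpowers (AlgEquiv.restrictNormalHom (T.field n) σ) = ⊤
  /-- The level. -/
  e : ℕ
  total : ∀ m (h : e ≤ m) (Q : HeightOneSpectrum (𝓞 (T.field m))),
    Q.asIdeal.inertia (T.field m ≃ₐ[K] T.field m) = ⊥ ∨
      T.step h ≤ Q.asIdeal.inertia (T.field m ≃ₐ[K] T.field m)
  ram : ∀ m, e < m → ∃ Q : HeightOneSpectrum (𝓞 (T.field m)),
    Q.asIdeal.inertia (T.field m ≃ₐ[K] T.field m) ≠ ⊥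

theorem nonempty_setup : Nonempty T.Setup := by
  obtain ⟨e, h1, h2⟩ := T.exists_ramification
  obtain ⟨g, hg⟩ := IsCyclic.exists_generator (α := T.field 1 ≃ₐ[K] T.field 1)
  obtain ⟨σ, hσ⟩ := AlgEquiv.restrictNormalHom_surjective (F := K) (K₁ := T.field 1)
    (AlgebraicClosure K) g
  refine ⟨⟨σ, fun n => ?_, e, h1, fun m hm => h2 m hm.le⟩⟩
  rcases Nat.eq_zero_or_pos n with rfl | hn
  · haveI : Subsingleton (T.field 0 ≃ₐ[K] T.field 0) :=
      (Nat.card_eq_one_iff_unique.1 ((T.card_gal 0).trans (pow_zero p))).1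
    exact Subgroup.ext fun x => by
      simp [Subsingleton.elim x 1]
  set γ := AlgEquiv.restrictNormalHom (T.field n) σ
  have hres : res (T.mono (show 1 ≤ n from hn)) γ = g := by
    rw [← hσ]
    refine AlgEquiv.ext fun x => Subtype.ext ((coe_res _ γ x).trans ?_)
    exact (σ.restrictNormal_commutes (T.field n) ⟨(x : AlgebraicClosure K), _⟩).trans
      (σ.restrictNormal_commutes (T.field 1) x).symm
  have hg1 : g ≠ 1 := fun h => by
    have h3 := orderOf_eq_card_of_forall_mem_zpowers hg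
    rw [h, orderOf_one, T.card_gal, pow_one] at h3
    exact hp.out.ne_one h3.symm
  have hle := T.step_le_of_not_le (show 1 ≤ n from hn) (J := Subgroup.zpowers γ) fun hle => hg1 (by
    have h3 := hle (Subgroup.mem_zpowers γ)
    rwa [step, ← ker_res, MonoidHom.mem_ker, hres] at h3)
  rw [eq_top_iff]
  intro x _
  obtain ⟨i, hi⟩ := Subgroup.mem_zpowers_iff.1 (hg (res (T.mono (show 1 ≤ n from hn)) x))
  have h3 : x * (γ ^ i)⁻¹ ∈ T.step (show 1 ≤ n from hn) := by
    rw [step, ← ker_res, MonoidHom.mem_ker, map_mul, map_inv, map_zpow, hres, hi, mul_inv_cancel]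
  simpa using mul_mem (hle h3) (Subgroup.zpow_mem_zpowers γ i)

namespace Setup

variable {T} (S : T.Setup)

/-- The generator of the level `n`. -/
def gam (n : ℕ) : T.field n ≃ₐ[K] T.field n := AlgEquiv.restrictNormalHom (T.field n) S.σ

/-- Its lift to the class field. -/
def sig (n : ℕ) : T.cl n ≃ₐ[K] T.cl n := AlgEquiv.restrictNormalHom (T.cl n) S.σ

theorem res_gam {n m : ℕ} (h : n ≤ m) : res (T.mono h) (S.gam m) = S.gam n :=
  AlgEquiv.ext fun x => Subtype.ext ((coe_res _ (S.gam m) x).trans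
    ((S.σ.restrictNormal_commutes (T.field m) ⟨(x : AlgebraicClosure K), _⟩).trans
      (S.σ.restrictNormal_commutes (T.field n) x).symm))

theorem res_sig {n m : ℕ} (h : n ≤ m) : res (T.cl_mono h) (S.sig m) = S.sig n :=
  AlgEquiv.ext fun x => Subtype.ext ((coe_res _ (S.sig m) x).trans
    ((S.σ.restrictNormal_commutes (T.cl m) ⟨(x : AlgebraicClosure K), _⟩).trans
      (S.σ.restrictNormal_commutes (T.cl n) x).symm))

theorem toF_sig (m : ℕ) : T.toF le_rfl (S.sig m) = S.gam m :=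
  AlgEquiv.ext fun x => Subtype.ext ((coe_res _ (S.sig m) x).trans
    ((S.σ.restrictNormal_commutes (T.cl m) ⟨(x : AlgebraicClosure K), _⟩).trans
      (S.σ.restrictNormal_commutes (T.field m) x).symm))

theorem orderOf_gam (m : ℕ) : orderOf (S.gam m) = p ^ m := by
  refine (orderOf_eq_card_of_forall_mem_zpowers fun x => ?_).trans (T.card_gal m)
  exact (S.gen m).ge (Subgroup.mem_top x)

theorem step_eq {n m : ℕ} (h : n ≤ m) : T.step h = Subgroup.zpowers (S.gam m ^ p ^ n) := by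
  have hc : Nat.card (Subgroup.zpowers (S.gam m ^ p ^ n)) = p ^ (m - n) := by
    rw [Nat.card_zpowers, orderOf_pow_of_dvd (pow_ne_zero _ hp.out.ne_zero)
      (by rw [S.orderOf_gam]; exact pow_dvd_pow p h), S.orderOf_gam, Nat.pow_div h hp.out.pos]
  exact le_antisymm (le_of_card_dvd (by rw [hc, T.card_step h]))
    (le_of_card_dvd (by rw [hc, T.card_step h]))

variable {m : ℕ} (hm : S.e ≤ m)

/-- The primes of `L_m` ramified in the tower. -/
abbrev Ram (_S : T.Setup) (m : ℕ) : Type :=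
  {Q : HeightOneSpectrum (𝓞 (T.cl m)) //
    (under' (T.field_le_cl m) Q).asIdeal.inertia (T.field m ≃ₐ[K] T.field m) ≠ ⊥}

include hm

theorem exists_inert (Q : S.Ram m) :
    ∃ t ∈ Q.1.asIdeal.inertia (T.cl m ≃ₐ[K] T.cl m),
      T.toF le_rfl t = S.gam m ^ p ^ S.e := by
  have h := (S.total m hm (under' (T.field_le_cl m) Q.1)).resolve_left Q.2
  exact exists_res_inertia (T.field_le_cl m)
    (h (S.step_eq hm ▸ Subgroup.mem_zpowers _))

/-- The element of inertia over the generator of the level `e`. -/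
def inert (Q : S.Ram m) : T.cl m ≃ₐ[K] T.cl m := (S.exists_inert hm Q).choose

theorem inert_mem (Q : S.Ram m) :
    S.inert hm Q ∈ Q.1.asIdeal.inertia (T.cl m ≃ₐ[K] T.cl m) :=
  (S.exists_inert hm Q).choose_spec.1

theorem toF_inert (Q : S.Ram m) : T.toF le_rfl (S.inert hm Q) = S.gam m ^ p ^ S.e :=
  (S.exists_inert hm Q).choose_spec.2

theorem nonempty_ram (hlt : S.e < m) : Nonempty (S.Ram m) := by
  obtain ⟨Q, hQ⟩ := S.ram m hlt
  obtain ⟨Q', rfl⟩ := exists_under'_eq (T.field_le_cl m) Q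
  exact ⟨⟨Q', hQ⟩⟩

/-- The chosen one; trivial if nothing ramifies, which happens only at the level `e`. -/
def tau : T.cl m ≃ₐ[K] T.cl m :=
  haveI := Classical.propDecidable (Nonempty (S.Ram m))
  if h : Nonempty (S.Ram m) then S.inert hm h.some else 1

theorem tau_eq : S.tau hm = 1 ∨ ∃ Q, S.inert hm Q = S.tau hm := by
  rw [tau]
  split_ifs with h
  · exact Or.inr ⟨_, rfl⟩
  · exact Or.inl rfl

theorem toF_tau : T.toF le_rfl (S.tau hm) = S.gam m ^ p ^ S.e := by
  rw [tau]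
  split_ifs with h
  · exact S.toF_inert hm _
  · have he : S.e = m := le_antisymm hm (not_lt.1 fun hlt => h (S.nonempty_ram hm hlt))
    rw [map_one, he, ← S.orderOf_gam m, pow_orderOf_eq_one]

theorem toF_tau_pow (k : ℕ) :
    T.toF le_rfl (S.tau hm ^ p ^ k) = S.gam m ^ p ^ (S.e + k) := by
  rw [map_pow, S.toF_tau hm, ← pow_mul, ← pow_add]

omit hm in
/-- Inertia meets `X` trivially. -/
theorem inertia_inf_X {Q : HeightOneSpectrum (𝓞 (T.cl m))} {g : T.cl m ≃ₐ[K] T.cl m}
    (hg : g ∈ Q.asIdeal.inertia (T.cl m ≃ₐ[K] T.cl m)) (hgX : g ∈ T.X m) : g = 1 :=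
  Subgroup.mem_bot.1 ((T.cl_spec m).good.inertia Q g hg hgX)

theorem inert_mul_inv_tau (Q : S.Ram m) : S.inert hm Q * (S.tau hm)⁻¹ ∈ T.X m :=
  T.mem_X_iff.2 (by rw [map_mul, map_inv, S.toF_tau hm, S.toF_inert, mul_inv_cancel])

theorem tau_zpow_eq_one (j : ℤ) (h : S.tau hm ^ j ∈ T.X m) : S.tau hm ^ j = 1 := by
  rcases S.tau_eq hm with h1 | ⟨Q, hQ⟩
  · rw [h1, one_zpow]
  · rw [← hQ] at h ⊢
    exact inertia_inf_X (zpow_mem (S.inert_mem hm Q) j) h

omit hm in
theorem X_mul_comm : ∀ a ∈ T.X m, ∀ b ∈ T.X m, a * b = b * a := fun a ha b hb =>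
  T.X_comm a b ha hb

/-- The inertia subgroups. -/
abbrev fam (Q : S.Ram m) : Subgroup (T.cl m ≃ₐ[K] T.cl m) :=
  Q.1.asIdeal.inertia (T.cl m ≃ₐ[K] T.cl m)

/-- `Gal(L_m/F_(e+k)) = X ⊔ ⟨τ ^ (p ^ k)⟩`. -/
theorem Hq_eq {k : ℕ} (hk : S.e + k ≤ m) :
    Hq (T.X m) (S.tau hm) (p ^ k) = sub ((T.mono hk).trans (T.field_le_cl m)) := by
  rw [← comap_sub (T.mono hk) (T.field_le_cl m)]
  change Hq (T.X m) (S.tau hm) (p ^ k) = (T.step hk).comap (T.toF le_rfl)
  rw [S.step_eq hk]
  refine le_antisymm (sup_le (fun g hg => ?_) (Subgroup.zpowers_le.2 ?_)) fun g hg => ?_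
  · rw [Subgroup.mem_comap, T.mem_X_iff.1 hg]
    exact one_mem _
  · rw [Subgroup.mem_comap, S.toF_tau_pow]
    exact Subgroup.mem_zpowers _
  · obtain ⟨i, hi⟩ := Subgroup.mem_zpowers_iff.1 (Subgroup.mem_comap.1 hg)
    have h : g * ((S.tau hm ^ p ^ k) ^ i)⁻¹ ∈ T.X m := T.mem_X_iff.2 (by
      rw [map_mul, map_inv, map_zpow, S.toF_tau_pow, hi, mul_inv_cancel])
    have h2 : g * ((S.tau hm ^ p ^ k) ^ i)⁻¹ * (S.tau hm ^ p ^ k) ^ i ∈
        Hq (T.X m) (S.tau hm) (p ^ k) :=
      Subgroup.mul_mem _ (Subgroup.mem_sup_left h)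
        (Subgroup.mem_sup_right (Subgroup.zpow_mem_zpowers _ i))
    rwa [inv_mul_cancel_right] at h2

/-- **`Gal(L_m/L_(e+k))` is generated by commutators and inertia.** -/
theorem Uq_eq {k : ℕ} (hk : S.e + k ≤ m) :
    Uq (T.X m) (S.tau hm) (S.fam) (p ^ k) = sub (T.cl_mono hk) := by
  set U := sub (T.cl_mono hk)
  obtain ⟨hU, hidx⟩ := (T.cl_spec (S.e + k)).good_comap (T.cl_mono hk)
  change Good p (sub ((T.field_le_cl (S.e + k)).trans (T.cl_mono hk))) U at hU
  have hH := S.Hq_eq hm hk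
  set Hm := Hq (T.X m) (S.tau hm) (p ^ k)
  refine le_antisymm (sup_le ((Subgroup.closure_le _).2 ?_) (iSup_le fun Q g hg => ?_)) ?_
  · rintro _ ⟨a, ha, b, hb, rfl⟩
    exact hU.comm a (hH ▸ ha) b (hH ▸ hb)
  · exact hU.inertia Q.1 g hg.1 (hH ▸ hg.2)
  have hgood : Good p Hm (Uq (T.X m) (S.tau hm) (S.fam) (p ^ k)) := by
    refine ⟨sup_le ((Subgroup.closure_le _).2 ?_) (iSup_le fun Q => inf_le_right),
      fun a ha b hb => Subgroup.mem_sup_left (Subgroup.subset_closure ⟨a, ha, b, hb, rfl⟩),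
      fun Q s hs hsH => ?_, fun u s hs hsH => ?_, fun h _ => ?_⟩
    · rintro _ ⟨a, ha, b, hb, rfl⟩
      exact Subgroup.mul_mem _ (Subgroup.mul_mem _ (Subgroup.mul_mem _ ha hb)
        (Subgroup.inv_mem _ ha)) (Subgroup.inv_mem _ hb)
    · by_cases hQ : (under' (T.field_le_cl m) Q).asIdeal.inertia
          (T.field m ≃ₐ[K] T.field m) = ⊥
      · have h1 := res_mem_inertia (T.field_le_cl m) hs
        rw [hQ, Subgroup.mem_bot] at h1
        rw [inertia_inf_X hs (T.mem_X_iff.2 h1)]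
        exact one_mem _
      · exact Subgroup.mem_sup_right
          (Subgroup.mem_iSup_of_mem (⟨Q, hQ⟩ : S.Ram m) ⟨hs, hsH⟩)
    · obtain ⟨w, hw⟩ := res_mem_stabilizer (T.field_le_cl m) hs
      rw [T.stabilizer_eq_bot, Subgroup.mem_bot] at hw
      rw [Subgroup.mem_bot.1 ((T.cl_spec m).good.place u s hs (T.mem_X_iff.2 hw))]
      exact one_mem _
    · refine ⟨(classNumber (T.field m)).factorization p + m, ?_⟩
      rw [← T.card_cl, pow_card_eq_one']
      exact one_mem _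
  rw [hH] at hgood
  exact hU.le_of_relIndex (IntermediateField.restrict
    ((T.field_le_cl (S.e + k)).trans (T.cl_mono hk))) hidx hgood

/-- **The elements of `X m` in `Gal(L_m/L_(e+k))`.** -/
theorem mem_sub_cl_iff {k : ℕ} (hk : S.e + k ≤ m) {x : T.cl m ≃ₐ[K] T.cl m} (hx : x ∈ T.X m) :
    x ∈ sub (T.cl_mono hk) ↔
      ∃ y ∈ T.X m, y ∈ sub (T.cl_mono hm) ∧ normQ (S.tau hm) (p ^ k) y = x := by
  have h0 := S.Uq_eq hm (k := 0) hm
  rw [pow_zero] at h0
  rw [← S.Uq_eq hm hk, mem_Uq_iff X_mul_comm (S.inert_mem hm) (S.inert_mul_inv_tau hm)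
    (fun Q g hg hgX => inertia_inf_X hg hgX) (S.tau_zpow_eq_one hm)
    (S.tau_eq hm) hx, h0]

/-- `X m` maps onto `X (e + k)`. -/
theorem resX_surjective {k : ℕ} (hk : S.e + k ≤ m) : Function.Surjective (T.resX hk) := by
  intro y
  obtain ⟨g, hg⟩ := res_surjective (T.cl_mono hk) y.1
  have h1 : g ∈ Hq (T.X m) (S.tau hm) (p ^ k) := by
    rw [S.Hq_eq hm hk]
    have h2 : g ∈ (sub (T.field_le_cl (S.e + k))).comap (res (T.cl_mono hk)) := by
      rw [Subgroup.mem_comap, hg]
      exact y.2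
    rwa [comap_sub] at h2
  have h3 := Hq_le_sup (X := T.X m) (T := S.fam) X_mul_comm (S.inert_mem hm)
    (S.tau_eq hm) (p ^ k) h1
  obtain ⟨x, hx, u, hu, rfl⟩ := Subgroup.mem_sup_of_normal_left.1 h3
  rw [S.Uq_eq hm hk, ← ker_res, MonoidHom.mem_ker] at hu
  refine ⟨⟨x, hx⟩, Subtype.ext ?_⟩
  rw [coe_resX, ← hg, map_mul, hu, mul_one]

/-- The norm as an endomorphism. -/
theorem normQ_eq (y : T.X m) (q : ℕ) :
    normQ (S.tau hm) q y.1 = (((∑ i ∈ Finset.range q, T.conjEnd m (S.sig m) ^ (i * p ^ S.e) :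
      AddMonoid.End (Additive (T.X m))) (Additive.ofMul y)).toMul : T.cl m ≃ₐ[K] T.cl m) := by
  induction q with
  | zero =>
    rw [normQ_zero, Finset.range_zero, Finset.sum_empty]
    rfl
  | succ q ih =>
    rw [normQ_succ, Finset.sum_range_succ, ih]
    refine congrArg (_ * ·) ?_
    rw [← map_pow]
    refine T.conj_congr (g' := S.sig m ^ (q * p ^ S.e)) ?_ y.2
    rw [map_pow, map_pow, S.toF_tau hm, S.toF_sig, ← pow_mul, mul_comm]

/-- Commutators lie in the image of `σ - 1`. -/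
theorem commutator_mem (g h : T.cl m ≃ₐ[K] T.cl m) :
    ∃ z : T.X m, z.1 = g * h * g⁻¹ * h⁻¹ ∧
      Additive.ofMul z ∈ AddMonoidHom.range
        (T.conjEnd m (S.sig m) - 1 : AddMonoid.End (Additive (T.X m))) := by
  set s := S.sig m
  set E := T.conjEnd m s
  have key : ∀ g : T.cl m ≃ₐ[K] T.cl m, ∃ (x : T.X m) (i : ℕ), g = x.1 * s ^ i := fun g => by
    obtain ⟨i, hi⟩ := Submonoid.mem_powers_iff _ _ |>.1 ((mem_powers_iff_mem_zpowers).2
      ((S.gen m).ge (Subgroup.mem_top (T.toF le_rfl g))))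
    refine ⟨⟨g * (s ^ i)⁻¹, T.mem_X_iff.2 ?_⟩, i, by simp⟩
    rw [map_mul, map_inv, map_pow, S.toF_sig]
    show T.toF le_rfl g * ((S.gam m) ^ i)⁻¹ = 1
    rw [show S.gam m ^ i = T.toF le_rfl g from hi, mul_inv_cancel]
  obtain ⟨x, i, rfl⟩ := key g
  obtain ⟨y, j, rfl⟩ := key h
  refine ⟨Additive.toMul ((E ^ i - 1 : AddMonoid.End _) (Additive.ofMul y) -
    (E ^ j - 1 : AddMonoid.End _) (Additive.ofMul x)), ?_, ?_⟩
  · rw [← map_pow, ← map_pow]
    show ((s ^ i * y.1 * (s ^ i)⁻¹) * y.1⁻¹) * ((s ^ j * x.1 * (s ^ j)⁻¹) * x.1⁻¹)⁻¹ = _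
    have hi : s ^ i * y.1 * (s ^ i)⁻¹ ∈ T.X m := (T.X_normal m).conj_mem _ y.2 _
    have hj : s ^ j * x.1⁻¹ * (s ^ j)⁻¹ ∈ T.X m := (T.X_normal m).conj_mem _ (inv_mem x.2) _
    calc _ = ((s ^ i * y.1 * (s ^ i)⁻¹) * y.1⁻¹) * (x.1 * (s ^ j * x.1⁻¹ * (s ^ j)⁻¹)) := by group
      _ = (x.1 * (s ^ j * x.1⁻¹ * (s ^ j)⁻¹)) * ((s ^ i * y.1 * (s ^ i)⁻¹) * y.1⁻¹) :=
        X_mul_comm _ (mul_mem hi (inv_mem y.2)) _ (mul_mem x.2 hj)
      _ = x.1 * ((s ^ j * x.1⁻¹ * (s ^ j)⁻¹) * (s ^ i * y.1 * (s ^ i)⁻¹)) * y.1⁻¹ := by group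
      _ = x.1 * ((s ^ i * y.1 * (s ^ i)⁻¹) * (s ^ j * x.1⁻¹ * (s ^ j)⁻¹)) * y.1⁻¹ := by
        rw [X_mul_comm _ hj _ hi]
      _ = _ := by group
  · have hgeom : ∀ (i : ℕ) (a : Additive (T.X m)),
        (E ^ i - 1 : AddMonoid.End _) a ∈ AddMonoidHom.range (E - 1 : AddMonoid.End _) :=
      fun i a => ⟨(∑ l ∈ Finset.range i, E ^ l : AddMonoid.End _) a, by
        rw [← mul_geom_sum E i]; rfl⟩
    exact sub_mem (hgeom i _) (hgeom j _)

/-- **A bounded number of generators.** -/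
theorem exists_generators :
    ∃ g : {v : HeightOneSpectrum (𝓞 K) // (p : 𝓞 K) ∈ v.asIdeal} ⊕ T.X S.e → Additive (T.X m),
      ∀ H : AddSubgroup (Additive (T.X m)), (∀ i, g i ∈ H) →
        (∀ a ∈ H, (T.conjEnd m (S.sig m) - 1 : AddMonoid.End _) a ∈ H) → H = ⊤ := by
  classical
  let a : S.Ram m → Additive (T.X m) := fun Q =>
    Additive.ofMul ⟨_, S.inert_mul_inv_tau hm Q⟩
  let g₁ : {v : HeightOneSpectrum (𝓞 K) // (p : 𝓞 K) ∈ v.asIdeal} → Additive (T.X m) := fun v =>
    if h : ∃ Q : S.Ram m, belowP K Q.1 = v.1 then a h.choose else 0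
  have hsurj := S.resX_surjective hm (k := 0) hm
  refine ⟨Sum.elim g₁ fun y => Additive.ofMul (hsurj y).choose, fun H hg hD => ?_⟩
  set E := T.conjEnd m (S.sig m)
  set D : AddMonoid.End (Additive (T.X m)) := E - 1 with hDdef
  set W := H ⊔ AddMonoidHom.range D
  -- all the inertia elements
  have ha : ∀ Q : S.Ram m, a Q ∈ W := fun Q => by
    have hpv : (p : 𝓞 K) ∈ (belowP K Q.1).asIdeal := by
      rw [← belowP_under' (T.field_le_cl m) Q.1]
      show (p : 𝓞 K) ∈ (under' (T.field_le_cl m) Q.1).asIdeal.under (𝓞 K)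
      rw [Ideal.mem_comap, map_natCast]
      by_contra hpQ
      exact Q.2 (T.inertia_eq_bot_of_not_mem hpQ)
    have hex : ∃ Q' : S.Ram m, belowP K Q'.1 = belowP K Q.1 := ⟨Q, rfl⟩
    have h1 : a hex.choose ∈ W := by
      refine AddSubgroup.mem_sup_left ?_
      have h2 := hg (Sum.inl ⟨_, hpv⟩)
      simp only [Sum.elim_inl, g₁, dif_pos hex] at h2
      exact h2
    set Q' := hex.choose
    obtain ⟨g, hgQ⟩ := Algebra.IsInvariant.exists_smul_of_under_eq (𝓞 K) (𝓞 (T.cl m))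
      (T.cl m ≃ₐ[K] T.cl m) Q'.1.asIdeal Q.1.asIdeal
      (congrArg HeightOneSpectrum.asIdeal hex.choose_spec)
    set t := S.inert hm Q'
    have ht : g * t * g⁻¹ ∈ Q.1.asIdeal.inertia (T.cl m ≃ₐ[K] T.cl m) := by
      have h2 := inertia_conj (S.inert_mem hm Q') g
      rwa [show galPrime g Q'.1 = Q.1 from HeightOneSpectrum.ext hgQ.symm] at h2
    have hFt : T.toF le_rfl (g * t * g⁻¹) = S.gam m ^ p ^ S.e := by
      rw [map_mul, map_mul, map_inv, T.comm, inv_mul_cancel_left, S.toF_inert]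
    have heq : S.inert hm Q = g * t * g⁻¹ := mul_inv_eq_one.1
      (inertia_inf_X (mul_mem (S.inert_mem hm Q) (inv_mem ht))
        (T.mem_X_iff.2 (by rw [map_mul, map_inv, hFt, S.toF_inert, mul_inv_cancel])))
    obtain ⟨z, hz, hzD⟩ := S.commutator_mem hm g t
    have h3 : a Q = Additive.ofMul z + a Q' := by
      refine congrArg Additive.ofMul (Subtype.ext ?_)
      show S.inert hm Q * (S.tau hm)⁻¹ = z.1 * (t * (S.tau hm)⁻¹)
      rw [hz, heq]
      group
    rw [h3]
    exact add_mem (AddSubgroup.mem_sup_right hzD) h1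
  -- the kernel of the restriction to the level `e`
  have hker : ∀ x : T.X m, T.resX hm x = 1 → Additive.ofMul x ∈ W := fun x hx => by
    have hxU : x.1 ∈ Uq (T.X m) (S.tau hm) (S.fam) 1 := by
      rw [← pow_zero p, S.Uq_eq hm (k := 0) hm, ← ker_res, MonoidHom.mem_ker]
      exact congrArg Subtype.val hx
    obtain ⟨y, -, hy, hyx⟩ := (mem_Uq_iff_closure X_mul_comm (S.inert_mem hm)
      (S.inert_mul_inv_tau hm) (fun Q g hg hgX => inertia_inf_X hg hgX)
      (S.tau_zpow_eq_one hm) (S.tau_eq hm) x.2).1 hxU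
    rw [normQ_one] at hyx
    subst hyx
    let W' : Subgroup (T.X m) :=
      { carrier := {x | Additive.ofMul x ∈ W}
        one_mem' := W.zero_mem
        mul_mem' := fun ha hb => W.add_mem ha hb
        inv_mem' := fun ha => W.neg_mem ha }
    obtain ⟨w, hw, hwy⟩ : x.1 ∈ W'.map (T.X m).subtype := by
      refine (Subgroup.closure_le _).2 ?_ hy
      rintro _ (⟨b, hb, rfl⟩ | ⟨Q, rfl⟩)
      · refine ⟨⟨_, mul_mem ((T.X_normal m).conj_mem b hb _) (inv_mem hb)⟩, ?_, rfl⟩
        obtain ⟨z, hz, hzD⟩ := S.commutator_mem hm (S.tau hm) b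
        rw [show (⟨_, mul_mem ((T.X_normal m).conj_mem b hb _) (inv_mem hb)⟩ : T.X m) = z from
          Subtype.ext hz.symm]
        show Additive.ofMul z ∈ W
        exact AddSubgroup.mem_sup_right hzD
      · exact ⟨⟨_, S.inert_mul_inv_tau hm Q⟩, ha Q, rfl⟩
    rw [show x = w from Subtype.ext hwy.symm]
    exact hw
  have htop : ∀ b, b ∈ W := fun b => by
    obtain ⟨x, rfl⟩ : ∃ x, Additive.ofMul x = b := ⟨b.toMul, rfl⟩
    set l := (hsurj (T.resX hm x)).choose
    have hl : T.resX hm l = T.resX hm x := (hsurj (T.resX hm x)).choose_spec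
    have h1 : Additive.ofMul (x * l⁻¹) ∈ W :=
      hker _ (by rw [map_mul, map_inv, hl, mul_inv_cancel])
    have h2 : Additive.ofMul l ∈ W := AddSubgroup.mem_sup_left (hg (Sum.inr (T.resX hm x)))
    have h3 := add_mem h1 h2
    rwa [← ofMul_mul, inv_mul_cancel_right] at h3
  have hiter : ∀ (i : ℕ) (x : Additive (T.X m)), ∃ z, x - (D ^ i) z ∈ H := fun i x => by
    induction i with
    | zero => exact ⟨x, by rw [pow_zero]; exact (sub_self x).symm ▸ zero_mem H⟩
    | succ i ih =>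
      obtain ⟨z, hz⟩ := ih
      obtain ⟨h, hh, _, ⟨z', rfl⟩, rfl⟩ := AddSubgroup.mem_sup.1 (htop z)
      refine ⟨z', ?_⟩
      have hDi : ∀ j, (D ^ j) h ∈ H := fun j => by
        induction j with
        | zero => rw [pow_zero]; exact hh
        | succ j ihj => rw [pow_succ']; exact hD _ ihj
      have h4 := add_mem hz (hDi i)
      rw [map_add, sub_add_eq_sub_sub, sub_right_comm, sub_add_cancel] at h4
      rw [pow_succ]
      exact h4
  have hpN : ∀ x : Additive (T.X m), p ^ (classNumber (T.field m)).factorization p • x = 0 :=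
    fun x => by
      have h := pow_card_eq_one' (x := x.toMul)
      rw [T.card_X] at h
      exact congrArg Additive.ofMul h
  obtain ⟨b, hb⟩ := exists_pow_eq_zero (E := D) (r := (classNumber (T.field m)).factorization p + m)
    (by rw [hDdef, add_sub_cancel, ← map_pow, ← T.card_cl, pow_card_eq_one', map_one]) hpN
  rw [eq_top_iff]
  intro x _
  obtain ⟨z, hz⟩ := hiter b x
  rw [hb] at hz
  change x - 0 ∈ H at hz
  rwa [sub_zero] at hz

end Setup

/-- **Growth of the `p`-parts of the class numbers, with Iwasawa's criterion.** -/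
theorem growth_classNumber_mu : ∃ (mu lam : ℕ) (nu : ℤ) (n₀ : ℕ), (∀ n, n₀ ≤ n →
    (padicValNat p (classNumber (T.field n)) : ℤ) = mu * p ^ n + lam * n + nu) ∧
    (mu = 0 → ∃ C, ∀ n, Nat.card (powMonoidHom p : T.X n →* T.X n).ker ≤ C) ∧
    (mu ≠ 0 → ∃ e, ∀ k, p ^ (p ^ (e + k) - p ^ e) ≤
      Nat.card (powMonoidHom p : T.X (e + k) →* T.X (e + k)).ker) := by
  classical
  obtain ⟨S⟩ := T.nonempty_setup
  set e := S.e
  have hpow : ∀ j, ∀ x : Additive (T.X (e + j)),
      p ^ (classNumber (T.field (e + j))).factorization p • x = 0 := fun j x => by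
    have h := pow_card_eq_one' (x := x.toMul)
    rw [T.card_X] at h
    exact congrArg Additive.ofMul h
  let D : ∀ j, AddMonoid.End (Additive (T.X (e + j))) := fun j =>
    T.conjEnd (e + j) (S.sig (e + j)) - 1
  let r : ∀ k j, k ≤ j → Additive (T.X (e + j)) →+ Additive (T.X (e + k)) := fun k j h =>
    MonoidHom.toAdditive (T.resX (Nat.add_le_add_left h e))
  have hS : {v : HeightOneSpectrum (𝓞 K) | (p : 𝓞 K) ∈ v.asIdeal}.Finite := by
    refine (Ideal.finite_factors (I := Ideal.span {(p : 𝓞 K)}) (by simp [hp.out.ne_zero])).subset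
      fun v hv => ?_
    show v.asIdeal ∣ Ideal.span {(p : 𝓞 K)}
    rw [Ideal.dvd_iff_le, Ideal.span_singleton_le_iff_mem]
    exact hv
  haveI : Finite {v : HeightOneSpectrum (𝓞 K) // (p : 𝓞 K) ∈ v.asIdeal} := hS.to_subtype
  obtain ⟨mu, lam, nu, k₀, h, h0, h1⟩ := growth_of_system (p := p) e D
    (fun j => exists_pow_eq_zero (r := (classNumber (T.field (e + j))).factorization p + (e + j))
      (by rw [add_sub_cancel, ← map_pow, ← T.card_cl, pow_card_eq_one', map_one]) (hpow j))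
    (fun j => ⟨_, hpow j⟩) r
    (fun k x => congrArg Additive.ofMul (Subtype.ext (res_refl _ _)))
    (fun k l j hkl hlj x => congrArg Additive.ofMul (Subtype.ext (res_trans _ _ _)))
    (fun k j hkj => fun y => by
      obtain ⟨x, hx⟩ := S.resX_surjective (m := e + j) (Nat.le_add_right e j) (k := k)
        (Nat.add_le_add_left hkj e) y.toMul
      exact ⟨Additive.ofMul x, congrArg Additive.ofMul hx⟩)
    (fun k j hkj x => by
      refine (map_sub (r k j hkj) _ _).trans (congrArg₂ (· - ·) ?_ rfl)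
      refine congrArg Additive.ofMul (Subtype.ext ?_)
      show res _ (S.sig (e + j) * (x.toMul : T.cl (e + j) ≃ₐ[K] T.cl (e + j)) *
        (S.sig (e + j))⁻¹) = S.sig (e + k) * res _ _ * (S.sig (e + k))⁻¹
      rw [map_mul, map_mul, map_inv, S.res_sig]
      · rfl
      · exact Nat.add_le_add_left hkj e)
    (fun k j hkj x => by
      simp only [D, add_sub_cancel]
      have hm : e ≤ e + j := Nat.le_add_right e j
      have h := S.mem_sub_cl_iff hm (Nat.add_le_add_left hkj e) (x := x.toMul.1) x.toMul.2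
      rw [← ker_res, ← ker_res, MonoidHom.mem_ker] at h
      refine ⟨fun hx => ?_, ?_⟩
      · obtain ⟨y, hy, hy0, hyx⟩ := h.1 (congrArg (fun a => (Additive.toMul a).1) hx)
        rw [MonoidHom.mem_ker] at hy0
        rw [show y = ((⟨y, hy⟩ : T.X (e + j)) : T.cl (e + j) ≃ₐ[K] T.cl (e + j)) from rfl,
          S.normQ_eq hm] at hyx
        exact ⟨Additive.ofMul ⟨y, hy⟩, congrArg Additive.ofMul (Subtype.ext hy0),
          congrArg Additive.ofMul (Subtype.ext hyx)⟩
      · rintro ⟨y, hy0, rfl⟩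
        refine congrArg Additive.ofMul (Subtype.ext (h.2 ⟨y.toMul.1, y.toMul.2,
          MonoidHom.mem_ker.2 (congrArg (fun a => (Additive.toMul a).1) hy0), ?_⟩))
        exact S.normQ_eq hm y.toMul (p ^ k))
    (by
      refine ⟨Nat.card ({v : HeightOneSpectrum (𝓞 K) // (p : 𝓞 K) ∈ v.asIdeal} ⊕ T.X e),
        fun j => ?_⟩
      obtain ⟨g, hg⟩ := S.exists_generators (m := e + j) (Nat.le_add_right e j)
      refine ⟨g ∘ (Finite.equivFin _).symm, fun H hH hD => hg H (fun i => ?_) hD⟩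
      simpa using hH (Finite.equivFin _ i))
  have hcard : ∀ n, Nat.card (nsmulAddMonoidHom p : Additive (T.X n) →+ Additive (T.X n)).ker =
      Nat.card (powMonoidHom p : T.X n →* T.X n).ker := fun n => Nat.card_congr
    { toFun := fun x => ⟨x.1.toMul, congrArg Additive.toMul x.2⟩
      invFun := fun x => ⟨Additive.ofMul x.1, congrArg Additive.ofMul x.2⟩
      left_inv := fun _ => rfl
      right_inv := fun _ => rfl }
  refine ⟨mu, lam, nu - lam * e, e + k₀, fun n hn => ?_, fun hz => ?_,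
    fun hne => ⟨e, fun k => (h1 hne k).trans_eq (hcard (e + k))⟩⟩
  swap
  · obtain ⟨C, k₁, hC⟩ := h0 hz
    refine ⟨C + ∑ n ∈ Finset.range (e + k₁), Nat.card (powMonoidHom p : T.X n →* T.X n).ker,
      fun n => ?_⟩
    rcases lt_or_ge n (e + k₁) with hn | hn
    · exact le_add_left (Finset.single_le_sum
        (f := fun n => Nat.card (powMonoidHom p : T.X n →* T.X n).ker) (fun _ _ => Nat.zero_le _)
        (Finset.mem_range.2 hn))
    · obtain ⟨k, rfl⟩ := Nat.exists_eq_add_of_le ((Nat.le_add_right e k₁).trans hn)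
      exact le_add_right ((hcard (e + k)).symm.trans_le (hC k (by omega)))
  obtain ⟨k, rfl⟩ := Nat.exists_eq_add_of_le ((Nat.le_add_right e k₀).trans hn)
  have hk := h k (by omega)
  rw [Nat.card_congr Additive.toMul, T.card_X, padicValNat.prime_pow,
    Nat.factorization_def _ hp.out] at hk
  rw [hk]
  push_cast
  ring

/-- **Growth of the `p`-parts of the class numbers.** -/
theorem growth_classNumber : ∃ (mu lam : ℕ) (nu : ℤ) (n₀ : ℕ), ∀ n, n₀ ≤ n →
    (padicValNat p (classNumber (T.field n)) : ℤ) = mu * p ^ n + lam * n + nu :=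
  let ⟨mu, lam, nu, n₀, h, _⟩ := T.growth_classNumber_mu
  ⟨mu, lam, nu, n₀, h⟩

end ZpTower

end FA.IwasawaGrowth
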