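import Fermat.Agent.IwasawaGrowth.Tower
import Fermat.Agent.Root.SummaryZpExtensions

/-!
# Every number field has a `ℤ_p`-extension

A continuous homomorphism from the Galois group to `ℤ_p` with image of finite index cuts out a
`ℤ_p`-extension (`exists_zpTower_of_hom`), and the restriction of the cyclotomic one of `ℚ` is such
a homomorphism (`exists_zpTower`).
-/

set_option autoImplicit false
set_option linter.unusedSectionVars false
set_option linter.style.haveILetI false

noncomputable section

namespace FA.IwasawaGrowth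

variable {K : Type} [Field K] [NumberField K] {p : ℕ} [hp : Fact p.Prime]

/-- Reduction modulo `p ^ n`. -/
def redMul (p : ℕ) [Fact p.Prime] (n : ℕ) :
    Multiplicative ℤ_[p] →* Multiplicative (ZMod (p ^ n)) :=
  AddMonoidHom.toMultiplicative (PadicInt.toZModPow n).toAddMonoidHom

theorem redMul_eq_one {n : ℕ} {z : Multiplicative ℤ_[p]} :
    redMul p n z = 1 ↔ (p : ℤ_[p]) ^ n ∣ z.toAdd := by
  rw [← Ideal.mem_span_singleton, ← PadicInt.ker_toZModPow, RingHom.mem_ker]
  exact ⟨fun h => congrArg Multiplicative.toAdd h, fun h => congrArg Multiplicative.ofAdd h⟩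

theorem redMul_surjective (n : ℕ) : Function.Surjective (redMul p n) := fun z => by
  obtain ⟨x, hx⟩ := ZMod.ringHom_surjective (PadicInt.toZModPow n) z.toAdd
  exact ⟨Multiplicative.ofAdd x, congrArg Multiplicative.ofAdd hx⟩

/-- A subgroup of `ℤ_p` of finite index is `p ^ c ℤ_p`. -/
theorem exists_index_eq_pow {R : Subgroup (Multiplicative ℤ_[p])} (hR : R.index ≠ 0) :
    ∃ c, R.index = p ^ c ∧ ∀ n, c ≤ n → (redMul p n).ker ≤ R := by
  obtain ⟨a, m, hm, hN⟩ := Nat.exists_eq_pow_mul_and_not_dvd hR p hp.out.ne_one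
  obtain ⟨u, hu⟩ : IsUnit (m : ℤ_[p]) := by
    rw [PadicInt.isUnit_iff]
    exact le_antisymm (PadicInt.norm_le_one _) (not_lt.1 fun hlt => hm (by
      rw [← ZMod.natCast_eq_zero_iff, ← map_natCast (PadicInt.toZMod (p := p)), ← RingHom.mem_ker,
        PadicInt.ker_toZMod, IsLocalRing.mem_maximalIdeal, PadicInt.mem_nonunits]
      exact hlt))
  have hle : ∀ n, a ≤ n → (redMul p n).ker ≤ R := fun n hn z hz => by
    haveI : R.FiniteIndex := ⟨hR⟩
    obtain ⟨w, hw⟩ := (pow_dvd_pow (p : ℤ_[p]) hn).trans (redMul_eq_one.1 hz)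
    have h := R.pow_index_mem (Multiplicative.ofAdd ((↑u⁻¹ : ℤ_[p]) * w))
    rw [hN, ← ofAdd_nsmul, nsmul_eq_mul, Nat.cast_mul, Nat.cast_pow, mul_assoc, ← mul_assoc
      (m : ℤ_[p]), ← hu, Units.mul_inv, one_mul, ← hw, ofAdd_toAdd] at h
    exact h
  have hidx : R.index = (R.map (redMul p a)).index := by
    rw [← Subgroup.index_comap_of_surjective _ (redMul_surjective a), Subgroup.comap_map_eq,
      sup_eq_left.2 (hle a le_rfl)]
  have hd : R.index ∣ p ^ a := by
    haveI : NeZero (p ^ a) := ⟨pow_ne_zero _ hp.out.ne_zero⟩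
    rw [hidx]
    have h := Subgroup.index_dvd_card (R.map (redMul p a))
    rwa [Nat.card_congr Multiplicative.toAdd, Nat.card_zmod] at h
  obtain ⟨c, hc, hc'⟩ := (Nat.dvd_prime_pow hp.out).1 hd
  refine ⟨c, hc', fun n hn => hle n (le_trans ?_ hn)⟩
  rw [hc'] at hN
  exact (Nat.pow_dvd_pow_iff_le_right hp.out.one_lt).1 (hN ▸ dvd_mul_right _ _)

variable {η : (AlgebraicClosure K ≃ₐ[K] AlgebraicClosure K) →* Multiplicative ℤ_[p]}

/-- **A homomorphism to `ℤ_p` cuts out a `ℤ_p`-extension.** -/
theorem exists_zpTower_of_hom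
    (hopen : ∀ n, IsOpen (((redMul p n).comp η).ker :
      Set (AlgebraicClosure K ≃ₐ[K] AlgebraicClosure K))) (hfin : η.range.index ≠ 0) :
    Nonempty (ZpTower p K) := by
  haveI : IsGalois K (AlgebraicClosure K) := inferInstance
  obtain ⟨c, hc, hker⟩ := exists_index_eq_pow hfin
  set ψ := fun n => (redMul p (n + c)).comp η
  have hclosed : ∀ n, IsClosed
      ((ψ n).ker : Set (AlgebraicClosure K ≃ₐ[K] AlgebraicClosure K)) := fun n =>
    Subgroup.isClosed_of_isOpen _ (hopen (n + c))
  have hfix : ∀ n, (IntermediateField.fixedField (ψ n).ker).fixingSubgroup = (ψ n).ker := fun n =>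
    InfiniteGalois.fixingSubgroup_fixedField ⟨(ψ n).ker, hclosed n⟩
  have hgal : ∀ n, IsGalois K (IntermediateField.fixedField (ψ n).ker) := fun n =>
    (InfiniteGalois.normal_iff_isGalois _).1 (by rw [hfix]; infer_instance)
  have hfd : ∀ n, FiniteDimensional K (IntermediateField.fixedField (ψ n).ker) := fun n =>
    (InfiniteGalois.isOpen_iff_finite _).1 (by rw [hfix]; exact hopen (n + c))
  let e : ∀ n, (ψ n).range ≃*
      (IntermediateField.fixedField (ψ n).ker ≃ₐ[K] IntermediateField.fixedField (ψ n).ker) :=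
    fun n => (QuotientGroup.quotientKerEquivRange (ψ n)).symm.trans
      (QuotientGroup.liftEquiv _ (AlgEquiv.restrictNormalHom_surjective (AlgebraicClosure K))
        (by rw [IntermediateField.restrictNormalHom_ker, hfix]))
  refine ⟨⟨fun n => IntermediateField.fixedField (ψ n).ker, hgal, fun n => ?_, fun n => ?_,
    fun n m h => IntermediateField.fixedField_antitone fun σ hσ => ?_⟩⟩
  · exact (e n).isCyclic.1 inferInstance
  · haveI := hgal n
    haveI := hfd n
    haveI : NeZero (p ^ (n + c)) := ⟨pow_ne_zero _ hp.out.ne_zero⟩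
    rw [← IsGalois.card_aut_eq_finrank, ← Nat.card_congr (e n).toEquiv]
    have hrange : (ψ n).range = η.range.map (redMul p (n + c)) := MonoidHom.range_comp _ _
    have hidx : (ψ n).range.index = p ^ c := by
      rw [hrange, ← Subgroup.index_comap_of_surjective _ (redMul_surjective (n + c)),
        Subgroup.comap_map_eq, sup_eq_left.2 (hker _ (Nat.le_add_left c n)), hc]
    have h := Subgroup.card_mul_index (ψ n).range
    rw [hidx, Nat.card_congr Multiplicative.toAdd, Nat.card_zmod] at h
    exact Nat.eq_of_mul_eq_mul_right (pow_pos hp.out.pos c) (h.trans (pow_add p n c))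
  · rw [MonoidHom.mem_ker] at hσ ⊢
    exact redMul_eq_one.2 ((pow_dvd_pow _ (Nat.add_le_add_right h c)).trans (redMul_eq_one.1 hσ))

variable (p K)

/-- **Every number field has a `ℤ_p`-extension.** -/
theorem exists_zpTower : Nonempty (ZpTower p K) := by
  obtain ⟨η₀, hc, hs, -, -⟩ := FA.Summary.exists_zpExtension (p := p)
  haveI : IsAlgClosure ℚ (AlgebraicClosure K) :=
    ⟨inferInstance, Algebra.IsAlgebraic.trans ℚ K (AlgebraicClosure K)⟩
  let e : AlgebraicClosure K ≃ₐ[ℚ] AlgebraicClosure ℚ :=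
    IsAlgClosure.equiv ℚ (AlgebraicClosure K) (AlgebraicClosure ℚ)
  let θ : (AlgebraicClosure K ≃ₐ[K] AlgebraicClosure K) →*
      (AlgebraicClosure ℚ ≃ₐ[ℚ] AlgebraicClosure ℚ) :=
    (e.autCongr.toMonoidHom).comp
      (MonoidHom.mk' (fun σ => σ.restrictScalars ℚ) fun _ _ => rfl)
  have hθ : ∀ σ x, θ σ x = e (σ (e.symm x)) := fun σ x => rfl
  refine exists_zpTower_of_hom (η := η₀.comp θ) (fun n => ?_) ?_
  · obtain ⟨E, hE, hEn⟩ := (krullTopology_mem_nhds_one_iff ℚ (AlgebraicClosure ℚ) _).1
      (((FA.ZpHom.isOpen_setOf_pow_dvd (p := p) n).preimage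
        (continuous_toAdd.comp hc)).mem_nhds (x := 1) (by simp))
    haveI := hE
    let b := Module.finBasis ℚ E
    let S : Set (AlgebraicClosure K) := Set.range fun i => e.symm (b i : AlgebraicClosure ℚ)
    haveI : Finite S := (Set.finite_range _).to_subtype
    haveI : FiniteDimensional K (IntermediateField.adjoin K S) :=
      IntermediateField.finiteDimensional_adjoin fun x _ =>
        (Algebra.IsAlgebraic.isAlgebraic x).isIntegral
    refine Subgroup.isOpen_mono (H₁ := (IntermediateField.adjoin K S).fixingSubgroup)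
      (fun σ hσ => ?_) (IntermediateField.fixingSubgroup_isOpen _)
    rw [MonoidHom.mem_ker]
    refine redMul_eq_one.2 (hEn ((IntermediateField.mem_fixingSubgroup_iff _ _).2 fun x hx => ?_))
    have h1 : ((θ σ).toAlgHom.comp E.val).toLinearMap = E.val.toLinearMap :=
      b.ext fun i => by
        show θ σ (b i : AlgebraicClosure ℚ) = (b i : AlgebraicClosure ℚ)
        rw [hθ, (IntermediateField.mem_fixingSubgroup_iff _ _).1 hσ _
          (IntermediateField.subset_adjoin K S ⟨i, rfl⟩), AlgEquiv.apply_symm_apply]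
    exact LinearMap.congr_fun h1 ⟨x, hx⟩
  · let f : K →ₐ[ℚ] AlgebraicClosure ℚ :=
      e.toAlgHom.comp (IsScalarTower.toAlgHom ℚ K (AlgebraicClosure K))
    haveI : FiniteDimensional ℚ f.fieldRange :=
      (AlgEquiv.ofInjectiveField f).toLinearEquiv.finiteDimensional
    have hopen := IntermediateField.fixingSubgroup_isOpen f.fieldRange
    haveI := Subgroup.quotient_finite_of_isOpen _ hopen
    have hfi : f.fieldRange.fixingSubgroup.index ≠ 0 := by
      rw [Subgroup.index_eq_card]
      exact Nat.card_pos.ne'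
    have hle : f.fieldRange.fixingSubgroup ≤ θ.range := fun τ hτ => by
      refine ⟨AlgEquiv.ofRingEquiv (f := (e.toRingEquiv.trans τ.toRingEquiv).trans
        e.symm.toRingEquiv) (fun x => ?_), AlgEquiv.ext fun x => ?_⟩
      · show e.symm (τ (e (algebraMap K (AlgebraicClosure K) x))) = _
        rw [show τ (e (algebraMap K (AlgebraicClosure K) x)) =
            e (algebraMap K (AlgebraicClosure K) x) from
          (IntermediateField.mem_fixingSubgroup_iff _ _).1 hτ _ ⟨x, rfl⟩,
          AlgEquiv.symm_apply_apply]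
      · rw [hθ]
        show e (e.symm (τ (e (e.symm x)))) = τ x
        rw [AlgEquiv.apply_symm_apply, AlgEquiv.apply_symm_apply]
    have h2 := (Subgroup.index_map_dvd (H := f.fieldRange.fixingSubgroup) hs).trans dvd_rfl
    intro h0
    have h3 : (η₀.comp θ).range.index ∣ (f.fieldRange.fixingSubgroup.map η₀).index := by
      rw [MonoidHom.range_comp]
      exact Subgroup.index_dvd_of_le (Subgroup.map_mono hle)
    rw [h0, zero_dvd_iff] at h3
    rw [h3, zero_dvd_iff] at h2
    exact hfi h2

end FA.IwasawaGrowth
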