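import Fermat.Agent.IwasawaGrowth.Bridge
import Fermat.Agent.ClassFieldTower.Tower

/-!
# `p`-class fields inside an algebraic closure

Every finite Galois subextension `E` of `K̄/K` lies in a finite Galois extension `L/K` such that
`Gal(L/E)` is abelian of order the `p`-part of the class number of `E` and `L/E` is unramified at
every place (`exists_isClassField`); `L` grows with `E` (`IsClassField.mono`).
-/

set_option autoImplicit false
set_option linter.unusedSectionVars false
set_option linter.style.haveILetI false

noncomputable section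

open NumberField
open Fermat.Agent.ClassFieldTower

namespace FA.IwasawaGrowth

variable {K : Type} [Field K] [NumberField K]

local notation "Ω" => AlgebraicClosure K

/-- A finite subextension is a number field. -/
theorem numberField_sub (E : IntermediateField K Ω) [FiniteDimensional K E] : NumberField E :=
  NumberField.of_module_finite K E

attribute [local instance] numberField_sub

/-- `Gal(L/E)` inside `Gal(L/K)`. -/
def sub {E L : IntermediateField K Ω} (h : E ≤ L) : Subgroup (L ≃ₐ[K] L) :=
  (IntermediateField.restrict h).fixingSubgroup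

theorem mem_sub {E L : IntermediateField K Ω} (h : E ≤ L) {g : L ≃ₐ[K] L} :
    g ∈ sub h ↔ ∀ x : L, (x : Ω) ∈ E → g x = x := by
  rw [sub, IntermediateField.mem_fixingSubgroup_iff]
  exact forall_congr' fun x => by rw [IntermediateField.mem_restrict]

/-- Restriction to a Galois subextension. -/
def res {L N : IntermediateField K Ω} (h : L ≤ N) [Normal K L] :
    (N ≃ₐ[K] N) →* (L ≃ₐ[K] L) :=
  letI : Algebra L N := (IntermediateField.inclusion h).toRingHom.toAlgebra
  haveI : IsScalarTower K L N := IsScalarTower.of_algebraMap_eq fun _ => rfl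
  AlgEquiv.restrictNormalHom L

theorem coe_res {L N : IntermediateField K Ω} (h : L ≤ N) [Normal K L] (g : N ≃ₐ[K] N) (x : L) :
    ((res h g x : L) : Ω) = (g ⟨x, h x.2⟩ : N) := by
  letI : Algebra L N := (IntermediateField.inclusion h).toRingHom.toAlgebra
  haveI : IsScalarTower K L N := IsScalarTower.of_algebraMap_eq fun _ => rfl
  exact congrArg (fun z : N => (z : Ω)) (g.restrictNormal_commutes L x)

theorem ker_res {L N : IntermediateField K Ω} (h : L ≤ N) [Normal K L] :
    (res h).ker = sub h := by
  ext g
  rw [MonoidHom.mem_ker, mem_sub]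
  constructor
  · intro hg x hx
    have h1 := coe_res h g ⟨x, hx⟩
    rw [hg] at h1
    exact Subtype.ext h1.symm
  · intro hg
    exact AlgEquiv.ext fun x => Subtype.ext ((coe_res h g x).trans
      (congrArg (fun z : N => (z : Ω)) (hg ⟨x, h x.2⟩ x.2)))

theorem res_surjective {L N : IntermediateField K Ω} (h : L ≤ N) [Normal K L] [Normal K N] :
    Function.Surjective (res h) := by
  letI : Algebra L N := (IntermediateField.inclusion h).toRingHom.toAlgebra
  haveI : IsScalarTower K L N := IsScalarTower.of_algebraMap_eq fun _ => rfl
  exact AlgEquiv.restrictNormalHom_surjective N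

theorem res_trans {E L N : IntermediateField K Ω} (h : E ≤ L) (h' : L ≤ N) [Normal K E]
    [Normal K L] (g : N ≃ₐ[K] N) : res h (res h' g) = res (h.trans h') g :=
  AlgEquiv.ext fun x => Subtype.ext (by rw [coe_res, coe_res, coe_res])

theorem res_refl {L : IntermediateField K Ω} (h : L ≤ L) [Normal K L] (g : L ≃ₐ[K] L) :
    res h g = g :=
  AlgEquiv.ext fun x => Subtype.ext (coe_res h g x)

theorem comap_sub {E L N : IntermediateField K Ω} (h : E ≤ L) (h' : L ≤ N) [Normal K L] :
    (sub h).comap (res h') = sub (h.trans h') := by
  ext g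
  rw [Subgroup.mem_comap, mem_sub, mem_sub]
  constructor
  · intro hg x hx
    have h1 := coe_res h' g ⟨x, h hx⟩
    rw [hg ⟨x, h hx⟩ hx] at h1
    exact Subtype.ext h1.symm
  · exact fun hg x hx => Subtype.ext ((coe_res h' g x).trans
      (congrArg (fun z : N => (z : Ω)) (hg ⟨x, h' x.2⟩ hx)))

theorem map_sub_eq {E L N : IntermediateField K Ω} (h : E ≤ L) (h' : L ≤ N) [Normal K L]
    [Normal K N] : (sub (h.trans h')).map (res h') = sub h := by
  rw [← comap_sub h h', Subgroup.map_comap_eq_self_of_surjective (res_surjective h')]

theorem sub_le_sub {E E' L : IntermediateField K Ω} (h : E ≤ E') (h' : E' ≤ L) :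
    sub h' ≤ sub (h.trans h') := fun g hg => by
  rw [mem_sub] at hg ⊢
  exact fun x hx => hg x (h hx)

theorem le_of_sub_le {E E' L : IntermediateField K Ω} (h : E ≤ L) (h' : E' ≤ L)
    [FiniteDimensional K L] [IsGalois K L] (hle : sub h' ≤ sub h) : E ≤ E' := by
  have h1 : IntermediateField.restrict h ≤ IntermediateField.restrict h' := by
    rw [← IsGalois.fixedField_fixingSubgroup (IntermediateField.restrict h),
      ← IsGalois.fixedField_fixingSubgroup (IntermediateField.restrict h')]
    exact IntermediateField.fixedField_antitone hle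
  intro x hx
  exact (IntermediateField.mem_restrict h' ⟨x, h hx⟩).1
    (h1 ((IntermediateField.mem_restrict h ⟨x, h hx⟩).2 hx))

instance sub_normal {E L : IntermediateField K Ω} (h : E ≤ L) [Normal K E] :
    (sub h).Normal := by
  rw [← ker_res h]
  infer_instance

theorem classNumber_restrict {E N : IntermediateField K Ω} [FiniteDimensional K E]
    [FiniteDimensional K N] (h : E ≤ N) :
    classNumber (IntermediateField.restrict h) = classNumber E :=
  (classNumber_eq_of_ringEquiv (IntermediateField.restrictAlgEquiv h).toRingEquiv).symm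

variable (p : ℕ) [hp : Fact p.Prime]

/-- `L` is the `p`-class field of `E`. -/
structure IsClassField (E L : IntermediateField K Ω) [FiniteDimensional K E]
    [FiniteDimensional K L] [IsGalois K L] : Prop where
  le : E ≤ L
  good : Good p (sub le) ⊥
  card : Nat.card (sub le) = p ^ (classNumber E).factorization p

variable {p}

/-- **The `p`-class field exists.** -/
theorem exists_isClassField (E : IntermediateField K Ω) [FiniteDimensional K E] [IsGalois K E] :
    ∃ (L : IntermediateField K Ω) (_ : FiniteDimensional K L) (_ : IsGalois K L),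
      IsClassField p E L := by
  obtain ⟨X, _, _, _, hX⟩ := exists_isHilbertClassField E
  letI : Algebra K X := ((algebraMap E X).comp (algebraMap K E)).toAlgebra
  haveI : IsScalarTower K E X := IsScalarTower.of_algebraMap_eq fun _ => rfl
  haveI : FiniteDimensional K X := Module.Finite.trans E X
  let f : X →ₐ[E] Ω := IsAlgClosed.lift
  let fK : X →ₐ[K] Ω := f.restrictScalars K
  haveI : FiniteDimensional K fK.fieldRange :=
    (AlgEquiv.ofInjectiveField fK).toLinearEquiv.finiteDimensional
  set N := IntermediateField.normalClosure K (↥fK.fieldRange) Ω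
  haveI : FiniteDimensional K N := normalClosure.is_finiteDimensional K (↥fK.fieldRange) Ω
  haveI : Normal K N := inferInstance
  haveI : IsGalois K N := ⟨⟩
  have hMN : fK.fieldRange ≤ N := fK.fieldRange.le_normalClosure
  have hEN : E ≤ N := fun x hx => hMN ⟨algebraMap E X ⟨x, hx⟩, f.commutes ⟨x, hx⟩⟩
  letI : Algebra E N := (IntermediateField.inclusion hEN).toRingHom.toAlgebra
  haveI : IsScalarTower K E N := IsScalarTower.of_algebraMap_eq fun _ => rfl
  let fN : X →ₐ[E] N :=
    { toRingHom := (IntermediateField.inclusion hMN).toRingHom.comp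
        (fK.rangeRestrict : X →ₐ[K] fK.fieldRange).toRingHom
      commutes' := fun x => Subtype.ext (f.commutes x) }
  obtain ⟨V, hV, hidx⟩ := exists_good_of_algHom (p := p) (K := K) hX fN
  rw [show (IsScalarTower.toAlgHom K E N).fieldRange = IntermediateField.restrict hEN from rfl]
    at hV hidx
  change Good p (sub hEN) V at hV
  change V.relIndex (sub hEN) = _ at hidx
  haveI hVn : V.Normal := ⟨fun v hv g => by
    have h := hV.le_of_relIndex (IntermediateField.restrict hEN)
      (by rw [classNumber_restrict hEN]; exact hidx)
      (hV.conj g⁻¹) hv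
    obtain ⟨w, hw, hwv⟩ := h
    rw [← hwv]
    show g * (g⁻¹ * w * g⁻¹⁻¹) * g⁻¹ ∈ V
    rwa [inv_inv, mul_assoc g⁻¹ w g, mul_inv_cancel_left, mul_inv_cancel_right]⟩
  haveI : IsGalois K (IntermediateField.fixedField V) := IsGalois.of_fixedField_normal_subgroup V
  set L := IntermediateField.lift (IntermediateField.fixedField V)
  let eL : IntermediateField.fixedField V ≃ₐ[K] L := IntermediateField.liftAlgEquiv _
  haveI : FiniteDimensional K L := eL.toLinearEquiv.finiteDimensional
  haveI : IsGalois K L := IsGalois.of_algEquiv eL
  have hLN : L ≤ N := IntermediateField.lift_le _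
  have hsub : sub hLN = V := by
    rw [sub, show IntermediateField.restrict hLN = IntermediateField.fixedField V from
      IntermediateField.lift_injective N (IntermediateField.lift_restrict hLN),
      IntermediateField.fixingSubgroup_fixedField]
  have hEL : E ≤ L := le_of_sub_le hEN hLN (hsub.symm ▸ hV.le)
  letI : Algebra L N := (IntermediateField.inclusion hLN).toRingHom.toAlgebra
  haveI : IsScalarTower K L N := IsScalarTower.of_algebraMap_eq fun _ => rfl
  have hker : (AlgEquiv.restrictNormalHom (F := K) (K₁ := N) L).ker = V :=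
    (ker_res hLN).trans hsub
  obtain ⟨hgood, hcard⟩ := (hker.symm ▸ hV :
    Good p (sub hEN) (AlgEquiv.restrictNormalHom (F := K) (K₁ := N) L).ker).map_restrict
  have hmap : (sub hEN).map (AlgEquiv.restrictNormalHom (F := K) (K₁ := N) L) = sub hEL :=
    map_sub_eq hEL hLN
  rw [hmap] at hgood hcard
  exact ⟨L, inferInstance, inferInstance, hEL, hgood, hcard.trans (by rw [hker, hidx])⟩

/-- A class field seen inside a larger Galois extension. -/
theorem IsClassField.good_comap {E L N : IntermediateField K Ω} [FiniteDimensional K E]
    [FiniteDimensional K L] [IsGalois K L] [FiniteDimensional K N] [IsGalois K N]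
    (h : IsClassField p E L) (hLN : L ≤ N) :
    Good p (sub (h.le.trans hLN)) (sub hLN) ∧
      (sub hLN).relIndex (sub (h.le.trans hLN)) =
        p ^ (classNumber (IntermediateField.restrict (h.le.trans hLN))).factorization p := by
  letI : Algebra L N := (IntermediateField.inclusion hLN).toRingHom.toAlgebra
  haveI : IsScalarTower K L N := IsScalarTower.of_algebraMap_eq fun _ => rfl
  obtain ⟨h1, h2⟩ := h.good.comap_restrict (N := N)
  change Good p ((sub h.le).comap (res hLN)) ((⊥ : Subgroup _).comap (res hLN)) at h1
  change ((⊥ : Subgroup _).comap (res hLN)).relIndex ((sub h.le).comap (res hLN)) = _ at h2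
  rw [MonoidHom.comap_bot, ker_res, comap_sub h.le hLN] at h1 h2
  rw [classNumber_restrict (h.le.trans hLN), h2, Subgroup.relIndex_bot_left, h.card]
  exact ⟨h1, rfl⟩

/-- A class field lies below the class field of a larger field. -/
theorem IsClassField.mono {E E' L L' : IntermediateField K Ω} [FiniteDimensional K E]
    [FiniteDimensional K E'] [FiniteDimensional K L] [IsGalois K L] [FiniteDimensional K L']
    [IsGalois K L'] (h : IsClassField p E L) (h' : IsClassField p E' L') (hle : E ≤ E') :
    L ≤ L' := by
  set N := L ⊔ L'
  haveI : Normal K N := inferInstanceAs (Normal K ↥(L ⊔ L'))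
  haveI : IsGalois K N := ⟨⟩
  obtain ⟨h1, -⟩ := h.good_comap (le_sup_left : L ≤ N)
  obtain ⟨h2, h2'⟩ := h'.good_comap (le_sup_right : L' ≤ N)
  have hEE : sub (h'.le.trans (le_sup_right : L' ≤ N)) ≤
      sub (h.le.trans (le_sup_left : L ≤ N)) := sub_le_sub hle (h'.le.trans le_sup_right)
  exact le_of_sub_le (le_sup_left : L ≤ N) (le_sup_right : L' ≤ N)
    ((h2.le_of_relIndex _ h2' (h1.inf_subgroup hEE)).trans inf_le_left)

end FA.IwasawaGrowth
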