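import Mathlib

/-!
# The series `ν_(n,e)` of Iwasawa

In `Λ = ℤ_p⟦X⟧`, `wS p n = (1 + X) ^ (p ^ n) - 1`, `nuS p e k = wS p (e + k) / wS p e` and
`phiS p n = wS p (n + 1) / wS p n`. Modulo `p` the series `nuS p e k` is `X ^ degS p e k`
(`exists_nuS_eq`), and it divides no nonzero constant for `k > 0`
(`not_nuS_dvd_natCast`).
-/

set_option autoImplicit false

noncomputable section

open PowerSeries

namespace FA.IwasawaGrowth

variable (p : ℕ) [hp : Fact p.Prime]

/-- `ℤ_p⟦X⟧`. -/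
abbrev Lam : Type := PowerSeries ℤ_[p]

/-- `1 + X`. -/
def uS : Lam p := 1 + X

/-- `(1 + X) ^ (p ^ n) - 1`. -/
def wS (n : ℕ) : Lam p := uS p ^ p ^ n - 1

/-- `ω_(e+k) / ω_e`. -/
def nuS (e k : ℕ) : Lam p := ∑ i ∈ Finset.range (p ^ k), uS p ^ (i * p ^ e)

/-- `ω_(n+1) / ω_n`. -/
def phiS (n : ℕ) : Lam p := ∑ j ∈ Finset.range p, uS p ^ (j * p ^ n)

/-- Its degree modulo `p`. -/
def degS (e k : ℕ) : ℕ := p ^ (e + k) - p ^ e

/-- The reduction modulo `p`. -/
def redS : Lam p →+* PowerSeries (ZMod p) := PowerSeries.map PadicInt.toZMod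

variable {p}

theorem nuS_mul_wS (e k : ℕ) : nuS p e k * wS p e = wS p (e + k) := by
  have h := geom_sum_mul (uS p ^ p ^ e) (p ^ k)
  simp only [← pow_mul] at h
  rw [nuS, wS, wS, pow_add, ← h]
  congr 1
  exact Finset.sum_congr rfl fun i _ => by rw [mul_comm]

theorem phiS_mul_wS (n : ℕ) : phiS p n * wS p n = wS p (n + 1) := by
  have h := nuS_mul_wS (p := p) n 1
  rwa [nuS, pow_one, ← phiS] at h

theorem constantCoeff_uS : constantCoeff (uS p) = 1 := by simp [uS]

theorem constantCoeff_nuS (e k : ℕ) : constantCoeff (nuS p e k) = (p : ℤ_[p]) ^ k := by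
  rw [nuS, map_sum]
  simp [constantCoeff_uS]

theorem wS_ne_zero (n : ℕ) : wS p n ≠ 0 := fun h => by
  have h1 := congrArg (coeff 1) h
  rw [wS, uS, map_sub, ← Polynomial.coe_X, ← Polynomial.coe_one, ← Polynomial.coe_add,
    ← Polynomial.coe_pow, Polynomial.coeff_coe, Polynomial.coeff_one_add_X_pow,
    Nat.choose_one_right,
    Polynomial.coe_one, coeff_one, if_neg one_ne_zero, sub_zero, map_zero] at h1
  exact (pow_ne_zero n hp.out.ne_zero) (by exact_mod_cast h1)

theorem nuS_succ (e k : ℕ) : nuS p e (k + 1) = nuS p e k * phiS p (e + k) := by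
  refine mul_right_cancel₀ (wS_ne_zero e) ?_
  rw [nuS_mul_wS, mul_right_comm, nuS_mul_wS, mul_comm, phiS_mul_wS, add_assoc]

theorem exists_eq_natCast_mul {f : Lam p} (h : redS p f = 0) :
    ∃ g : Lam p, f = (p : Lam p) * g := by
  have hd : ∀ j, (p : ℤ_[p]) ∣ coeff j f := fun j => by
    rw [← Ideal.mem_span_singleton, ← PadicInt.maximalIdeal_eq_span_p, ← PadicInt.ker_toZMod,
      RingHom.mem_ker, ← coeff_map, show PowerSeries.map PadicInt.toZMod f = 0 from h, map_zero]
  choose c hc using hd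
  refine ⟨PowerSeries.mk c, PowerSeries.ext fun j => ?_⟩
  rw [← map_natCast (C : ℤ_[p] →+* Lam p), coeff_C_mul, coeff_mk, ← hc]

instance charP_series : CharP (PowerSeries (ZMod p)) p :=
  charP_of_injective_ringHom (C_injective (R := ZMod p)) p

theorem redS_wS (n : ℕ) : redS p (wS p n) = X ^ p ^ n := by
  rw [wS, uS, map_sub, map_pow, map_add, map_one, redS, map_X, add_pow_char_pow, one_pow,
    add_sub_cancel_left]

theorem redS_nuS (e k : ℕ) : redS p (nuS p e k) = X ^ degS p e k := by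
  haveI : IsDomain (PowerSeries (ZMod p)) := inferInstance
  refine mul_right_cancel₀ (pow_ne_zero (p ^ e) X_ne_zero) ?_
  rw [← pow_add, degS, Nat.sub_add_cancel (Nat.pow_le_pow_right hp.out.pos (Nat.le_add_right e k)),
    ← redS_wS, ← map_mul, nuS_mul_wS, redS_wS]

/-- **`ν ≡ X ^ d` modulo `p`.** -/
theorem exists_nuS_eq (e k : ℕ) :
    ∃ g : Lam p, nuS p e k = X ^ degS p e k + (p : Lam p) * g := by
  obtain ⟨g, hg⟩ := exists_eq_natCast_mul (f := nuS p e k - X ^ degS p e k)
    (by rw [map_sub, redS_nuS, map_pow, redS, map_X, sub_self])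
  exact ⟨g, by rw [← hg, add_sub_cancel]⟩

/-- `p ^ j` is not a multiple of `ν`. -/
theorem not_nuS_dvd_pow (e k : ℕ) (hk : 0 < k) (j : ℕ) :
    ¬ nuS p e k ∣ (p : Lam p) ^ j := by
  induction j with
  | zero =>
    rintro ⟨q, hq⟩
    have h := congrArg constantCoeff hq
    rw [pow_zero, map_one, map_mul, constantCoeff_nuS] at h
    exact PadicInt.prime_p.not_isUnit (isUnit_of_dvd_one
      ((dvd_pow_self _ hk.ne').trans ⟨_, h⟩))
  | succ j ih =>
    rintro ⟨q, hq⟩
    have h0 : redS p q = 0 := by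
      have h := congrArg (redS p) hq
      rw [map_mul, redS_nuS, map_pow, map_natCast, CharP.cast_eq_zero, zero_pow j.succ_ne_zero,
        eq_comm, mul_eq_zero] at h
      exact h.resolve_left (pow_ne_zero _ X_ne_zero)
    obtain ⟨r, rfl⟩ := exists_eq_natCast_mul h0
    have hp0 : (p : Lam p) ≠ 0 := fun h => hp.out.ne_zero (by
      have h1 := congrArg constantCoeff h
      rw [map_natCast, map_zero] at h1
      exact_mod_cast h1)
    exact ih ⟨r, mul_left_cancel₀ hp0 (by rw [← pow_succ', hq, mul_left_comm])⟩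

/-- **A nonzero natural number is not a multiple of `ν`.** -/
theorem not_nuS_dvd_natCast (e k : ℕ) (hk : 0 < k) {c : ℕ} (hc : c ≠ 0) :
    ¬ nuS p e k ∣ (c : Lam p) := by
  obtain ⟨a, m, hm, rfl⟩ := Nat.exists_eq_pow_mul_and_not_dvd hc p hp.out.ne_one
  intro h
  have hu : IsUnit (m : Lam p) := by
    rw [isUnit_iff_constantCoeff, map_natCast, PadicInt.isUnit_iff]
    exact le_antisymm (PadicInt.norm_le_one _) (not_lt.1 fun hlt => hm (by
      rw [← ZMod.natCast_eq_zero_iff, ← map_natCast (PadicInt.toZMod (p := p)), ← RingHom.mem_ker,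
        PadicInt.ker_toZMod, IsLocalRing.mem_maximalIdeal, PadicInt.mem_nonunits]
      exact hlt))
  rw [Nat.cast_mul, Nat.cast_pow, hu.dvd_mul_right] at h
  exact not_nuS_dvd_pow e k hk a h

/-- `p` lies in the radical of Jacobson. -/
theorem span_natCast_le_jacobson : Ideal.span {(p : Lam p)} ≤ (⊥ : Ideal (Lam p)).jacobson := by
  rw [IsLocalRing.jacobson_eq_maximalIdeal _ bot_ne_top, Ideal.span_le, Set.singleton_subset_iff,
    SetLike.mem_coe, IsLocalRing.mem_maximalIdeal, mem_nonunits_iff, isUnit_iff_constantCoeff,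
    map_natCast]
  exact PadicInt.prime_p.not_isUnit

end FA.IwasawaGrowth
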