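import Fermat.Agent.IwasawaGrowth.Quotient
import Fermat.Agent.IwasawaGrowth.Series

/-!
# Growth of the quotients of a module over `ℤ_p⟦X⟧`

`M` is a finitely generated module with all `M / ν_(e+k,e) M`, `k ≥ 1`, finite. Then the exponent of
`p` in the order of the quotient is `μ p ^ (e + k) + λ k + ν` for large `k` (`growth`), with `μ`
the sum of the ranks of the layers of the `p`-power torsion `T` over `𝔽_p⟦X⟧` and
`p ^ λ = [M/T : p]`.

No structure theorem is used: `qv` is additive, so on `T` it is a multiple of the degree, and on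
the torsion free `M / T` each further `ω_(n+1) / ω_n` acts as `p` up to a unit.
-/

set_option autoImplicit false
set_option linter.unusedSectionVars false
set_option linter.style.haveILetI false

noncomputable section

open PowerSeries
open scoped Classical

namespace FA.IwasawaGrowth

variable {p : ℕ} [hp : Fact p.Prime] {M : Type*} [AddCommGroup M] [Module (Lam p) M]
  [Module.Finite (Lam p) M]

/-- A finitely generated module killed by a power of `p` and of `X` is finite. -/
theorem finite_of_killed {c N : ℕ} (hc : ∀ x : M, (p : Lam p) ^ c • x = 0)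
    (hN : ∀ x : M, (X : Lam p) ^ N • x = 0) : Finite M := by
  haveI : NeZero (p ^ c) := ⟨pow_ne_zero _ hp.out.ne_zero⟩
  obtain ⟨r, g, hg⟩ := Module.Finite.exists_fin (R := Lam p) (M := M)
  refine Finite.of_surjective (fun a : Fin r → Fin N → ZMod (p ^ c) =>
    ∑ i, ∑ j : Fin N, ((a i j).val : Lam p) • (X : Lam p) ^ (j : ℕ) • g i) fun x => ?_
  obtain ⟨h, rfl⟩ := (Submodule.mem_span_range_iff_exists_fun (Lam p)).1
    (hg ▸ Submodule.mem_top : x ∈ Submodule.span (Lam p) (Set.range g))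
  refine ⟨fun i j => PadicInt.toZModPow c (coeff (j : ℕ) (h i)), Finset.sum_congr rfl fun i _ => ?_⟩
  have hC : ∀ (a : ℤ_[p]) (y : M),
      ((PadicInt.toZModPow c a).val : Lam p) • y = C a • y := fun a y => by
    obtain ⟨t, ht⟩ : (p : ℤ_[p]) ^ c ∣ a - ((PadicInt.toZModPow c a).val : ℤ_[p]) := by
      rw [← Ideal.mem_span_singleton, ← PadicInt.ker_toZModPow, RingHom.mem_ker, map_sub,
        map_natCast, ZMod.natCast_zmod_val, sub_self]
    rw [sub_eq_iff_eq_add'] at ht
    conv_rhs => rw [ht, map_add, map_natCast, map_mul, map_pow, map_natCast, add_smul, mul_smul,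
      hc, add_zero]
  simp only [hC, ← mul_smul, ← Finset.sum_smul]
  rw [← sub_eq_zero, ← sub_smul]
  obtain ⟨q, hq⟩ : (X : Lam p) ^ N ∣ (∑ j : Fin N, C (coeff (j : ℕ) (h i)) * X ^ (j : ℕ)) - h i :=
    X_pow_dvd_iff.2 fun m hm => by
      rw [map_sub, map_sum, Finset.sum_eq_single ⟨m, hm⟩ (fun j _ hj => ?_)
        fun h => absurd (Finset.mem_univ _) h]
      · rw [coeff_C_mul_X_pow, if_pos rfl, sub_self]
      · rw [coeff_C_mul_X_pow, if_neg fun h => hj (Fin.ext h.symm)]
  rw [hq, mul_comm, mul_smul, hN, smul_zero]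

/-- A scalar which is a power of `X` modulo `p` is finite on `p`-power torsion. -/
theorem fin2_of_killed {c d : ℕ} {a u w : Lam p} (hc : ∀ x : M, (p : Lam p) ^ c • x = 0)
    (h : (X : Lam p) ^ d = a * u + (p : Lam p) * w) : Fin2 M a := by
  obtain ⟨v, hv⟩ : a ∣ ((X : Lam p) ^ d) ^ c - ((p : Lam p) * w) ^ c :=
    (dvd_trans ⟨u, by rw [h, add_sub_cancel_right]⟩ (sub_dvd_pow_sub_pow _ _ c))
  rw [sub_eq_iff_eq_add, ← pow_mul, mul_pow] at hv
  have hX : ∀ (V : Type _) [AddCommGroup V] [Module (Lam p) V],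
      (∀ x : V, (p : Lam p) ^ c • x = 0) → (∀ x : V, a • x = 0) →
        ∀ x : V, (X : Lam p) ^ (d * c) • x = 0 := fun V _ _ hVc hVa x => by
    rw [hv, add_smul, mul_comm a, mul_smul, hVa, smul_zero, zero_add, mul_comm, mul_smul, hVc,
      smul_zero]
  refine ⟨?_, ?_⟩
  · set S := LinearMap.range (LinearMap.lsmul (Lam p) M a)
    haveI : Finite (M ⧸ S) := finite_of_killed (c := c) (N := d * c)
      (fun x => by
        obtain ⟨y, rfl⟩ := S.mkQ_surjective x
        rw [← map_smul, hc, map_zero])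
      (hX _ (fun x => by
        obtain ⟨y, rfl⟩ := S.mkQ_surjective x
        rw [← map_smul, hc, map_zero]) fun x => by
        obtain ⟨y, rfl⟩ := S.mkQ_surjective x
        rw [← map_smul]
        exact (Submodule.Quotient.mk_eq_zero S).2 ⟨y, rfl⟩)
    rw [cokCard, show (smulHom M a).range = S.toAddSubgroup from AddSubgroup.ext fun _ => Iff.rfl]
    haveI : Finite (M ⧸ S.toAddSubgroup) := ‹Finite (M ⧸ S)›
    exact AddSubgroup.index_ne_zero_of_finite
  · set S := LinearMap.ker (LinearMap.lsmul (Lam p) M a)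
    haveI : Finite S := finite_of_killed (c := c) (N := d * c)
      (fun x => Subtype.ext (hc x.1))
      (hX _ (fun x => Subtype.ext (hc x.1)) fun x => Subtype.ext x.2)
    rw [kerCard, show (smulHom M a).ker = S.toAddSubgroup from AddSubgroup.ext fun _ => Iff.rfl]
    haveI : Finite S.toAddSubgroup := ‹Finite S›
    exact Nat.card_pos.ne'

theorem fin2_nuS_of_killed {c : ℕ} (hc : ∀ x : M, (p : Lam p) ^ c • x = 0) (e k : ℕ) :
    Fin2 M (nuS p e k) := by
  obtain ⟨g, hg⟩ := exists_nuS_eq (p := p) e k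
  exact fin2_of_killed hc (d := degS p e k) (u := 1) (w := -g) (by rw [hg]; ring)

theorem fin2_X_pow_of_killed {c : ℕ} (hc : ∀ x : M, (p : Lam p) ^ c • x = 0) (j : ℕ) :
    Fin2 M ((X : Lam p) ^ j) :=
  fin2_of_killed hc (u := 1) (w := 0) (d := j) (by ring)

/-- On a module killed by `p` the valuation is a multiple of the degree. -/
theorem qv_X_pow (hc : ∀ x : M, (p : Lam p) ^ 1 • x = 0) (j : ℕ) :
    qv M p ((X : Lam p) ^ j) = j * qv M p (X : Lam p) := by
  have hX : Fin2 M (X : Lam p) := by simpa using fin2_X_pow_of_killed hc 1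
  induction j with
  | zero =>
    rw [pow_zero, Nat.cast_zero, zero_mul]
    have h1 : (smulHom M (1 : Lam p)).range = ⊤ :=
      AddSubgroup.ext fun x => iff_of_true ⟨x, one_smul _ x⟩ trivial
    have h2 : (smulHom M (1 : Lam p)).ker = ⊥ := AddSubgroup.ext fun x => by
      rw [AddMonoidHom.mem_ker, smulHom_apply, one_smul, AddSubgroup.mem_bot]
    simp [qv, cokCard, kerCard, h1, h2]
  | succ j ih =>
    rw [pow_succ, qv_mul (fin2_X_pow_of_killed hc j) hX
      (by rw [← pow_succ]; exact fin2_X_pow_of_killed hc _), ih]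
    push_cast
    ring

/-- **On `p`-power torsion `qv` is a multiple of the degree.** -/
theorem exists_qv_eq_of_killed (c : ℕ) : ∀ (U : Type _) [AddCommGroup U] [Module (Lam p) U]
    [Module.Finite (Lam p) U], (∀ x : U, (p : Lam p) ^ c • x = 0) →
      ∀ e : ℕ, ∃ r : ℤ, ∀ k, qv U p (nuS p e k) = r * degS p e k := by
  induction c with
  | zero =>
    intro U _ _ _ hc e
    haveI : Subsingleton U :=
      ⟨fun x y => by rw [← one_smul (Lam p) x, ← one_smul (Lam p) y, ← pow_zero, hc, hc]⟩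
    exact ⟨0, fun k => by simp [qv, cokCard, kerCard, AddSubgroup.index, Subsingleton.elim _ ⊤]⟩
  | succ c ih =>
    intro U _ _ _ hc e
    set P := LinearMap.ker (LinearMap.lsmul (Lam p) U (p : Lam p))
    haveI : IsNoetherian (Lam p) U := inferInstance
    haveI : Module.Finite (Lam p) P := Module.Finite.of_fg (IsNoetherian.noetherian P)
    have hP : ∀ x : P, (p : Lam p) ^ 1 • x = 0 := fun x =>
      Subtype.ext (by rw [pow_one]; exact x.2)
    have hQ : ∀ x : U ⧸ P, (p : Lam p) ^ c • x = 0 := fun x => by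
      obtain ⟨y, rfl⟩ := P.mkQ_surjective x
      rw [← map_smul]
      refine (Submodule.Quotient.mk_eq_zero P).2 ?_
      show (p : Lam p) • (p : Lam p) ^ c • y = 0
      rw [← mul_smul, ← pow_succ', hc]
    obtain ⟨r', hr'⟩ := ih (U ⧸ P) hQ e
    refine ⟨qv P p (X : Lam p) + r', fun k => ?_⟩
    have heq : smulHom P (nuS p e k) = smulHom P ((X : Lam p) ^ degS p e k) :=
      AddMonoidHom.ext fun x => by
        obtain ⟨g, hg⟩ := exists_nuS_eq (p := p) e k
        rw [smulHom_apply, smulHom_apply, hg, add_smul, mul_comm, mul_smul, ← pow_one (p : Lam p),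
          hP, smul_zero, add_zero]
    rw [qv_submodule P (fin2_nuS_of_killed hP e k) (fin2_nuS_of_killed hQ e k)
      (fin2_nuS_of_killed hc e k), hr', add_mul]
    simp only [qv, cokCard, kerCard, heq]
    congr 1
    exact (qv_X_pow hP _).trans (mul_comm _ _)

/-- The `p`-power torsion is killed by one power of `p`. -/
theorem exists_torsion_exponent :
    ∃ c : ℕ, ∀ (j : ℕ) (x : M), (p : Lam p) ^ j • x = 0 → (p : Lam p) ^ c • x = 0 := by
  let K : ℕ →o Submodule (Lam p) M :=
    ⟨fun j => LinearMap.ker (LinearMap.lsmul (Lam p) M ((p : Lam p) ^ j)), fun i j hij x hx => by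
      obtain ⟨t, rfl⟩ := Nat.exists_eq_add_of_le hij
      show (p : Lam p) ^ (i + t) • x = 0
      rw [add_comm, pow_add, mul_smul, show (p : Lam p) ^ i • x = 0 from hx, smul_zero]⟩
  obtain ⟨c, hc⟩ := monotone_stabilizes_iff_noetherian.mpr inferInstance K
  refine ⟨c, fun j x hx => ?_⟩
  rcases le_total j c with h | h
  · exact K.mono h hx
  · show x ∈ K c
    rw [hc j h]
    exact hx

/-- The kernels of `ν_(e+k,e)` stabilise. -/
theorem exists_kerCard_const (e : ℕ) :
    ∃ k₀ : ℕ, ∀ k, k₀ ≤ k → kerCard M (nuS p e k) = kerCard M (nuS p e k₀) := by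
  let K : ℕ →o Submodule (Lam p) M :=
    ⟨fun k => LinearMap.ker (LinearMap.lsmul (Lam p) M (nuS p e k)),
      monotone_nat_of_le_succ fun k x hx => by
        show nuS p e (k + 1) • x = 0
        rw [nuS_succ, mul_comm, mul_smul, show nuS p e k • x = 0 from hx, smul_zero]⟩
  obtain ⟨c, hc⟩ := monotone_stabilizes_iff_noetherian.mpr inferInstance K
  refine ⟨c, fun k hk => Nat.card_congr (Equiv.subtypeEquivRight fun x => ?_)⟩
  show x ∈ K k ↔ x ∈ K c
  rw [hc k hk]

/-- **A torsion free quotient**: `ν` is injective and each step multiplies the index by `p ^ λ`. -/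
theorem exists_lambda (htf : ∀ x : M, (p : Lam p) • x = 0 → x = 0) (e : ℕ)
    (hfin : ∀ k, 1 ≤ k → cokCard M (nuS p e k) ≠ 0) :
    (∀ k, 1 ≤ k → kerCard M (nuS p e k) = 1) ∧
    ∃ (lam k₀ : ℕ), 1 ≤ k₀ ∧ ∀ k, k₀ ≤ k →
      qv M p (nuS p e k) = qv M p (nuS p e k₀) + lam * ((k : ℤ) - k₀) := by
  -- no nonzero natural number kills a nonzero element
  have hnat : ∀ (c : ℕ), c ≠ 0 → ∀ x : M, (c : Lam p) • x = 0 → x = 0 := fun c hc x hx => by
    obtain ⟨a, m, hm, rfl⟩ := Nat.exists_eq_pow_mul_and_not_dvd hc p hp.out.ne_one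
    have hu : IsUnit (m : Lam p) := by
      rw [isUnit_iff_constantCoeff, map_natCast, PadicInt.isUnit_iff]
      exact le_antisymm (PadicInt.norm_le_one _) (not_lt.1 fun hlt => hm (by
        rw [← ZMod.natCast_eq_zero_iff, ← map_natCast (PadicInt.toZMod (p := p)), ← RingHom.mem_ker,
          PadicInt.ker_toZMod, IsLocalRing.mem_maximalIdeal, PadicInt.mem_nonunits]
        exact hlt))
    rw [Nat.cast_mul, Nat.cast_pow, mul_comm, mul_smul, hu.smul_eq_zero] at hx
    clear hc
    induction a generalizing x with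
    | zero => rwa [pow_zero, one_smul] at hx
    | succ a ih =>
      rw [pow_succ', mul_smul] at hx
      exact ih x (htf _ hx)
  have hQ : ∀ k, 1 ≤ k → ∀ x : M, ∃ y, nuS p e k • y = (cokCard M (nuS p e k) : Lam p) • x :=
    fun k hk x => by
      haveI : (smulHom M (nuS p e k)).range.FiniteIndex := ⟨hfin k hk⟩
      obtain ⟨y, hy⟩ := AddSubgroup.nsmul_index_mem (smulHom M (nuS p e k)).range x
      exact ⟨y, hy.trans (Nat.cast_smul_eq_nsmul _ _ _).symm⟩
  -- injectivity
  have hinj : ∀ k, 1 ≤ k → kerCard M (nuS p e k) = 1 := fun k hk => by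
    set a := nuS p e k
    set Q := cokCard M a
    let K : ℕ →o Submodule (Lam p) M :=
      ⟨fun j => LinearMap.ker (LinearMap.lsmul (Lam p) M (a ^ j)),
        monotone_nat_of_le_succ fun j x hx => by
          show a ^ (j + 1) • x = 0
          rw [pow_succ', mul_smul, show a ^ j • x = 0 from hx, smul_zero]⟩
    obtain ⟨c, hc⟩ := monotone_stabilizes_iff_noetherian.mpr inferInstance K
    have hpow : ∀ j (x : M), ∃ y, a ^ j • y = (Q : Lam p) ^ j • x := fun j => by
      induction j with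
      | zero => exact fun x => ⟨x, by rw [pow_zero, pow_zero]⟩
      | succ j ih =>
        intro x
        obtain ⟨y, hy⟩ := ih x
        obtain ⟨z, hz⟩ := hQ k hk y
        exact ⟨z, by rw [pow_succ, mul_smul, hz, smul_comm, hy, ← mul_smul, ← pow_succ']⟩
    rw [kerCard, Nat.card_eq_one_iff_unique]
    refine ⟨⟨fun x y => Subtype.ext (sub_eq_zero.1 ?_)⟩, ⟨0⟩⟩
    have hker : a • ((x : M) - y) = 0 := by
      rw [smul_sub, show a • (x : M) = 0 from x.2, show a • (y : M) = 0 from y.2, sub_zero]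
    obtain ⟨z, hz⟩ := hpow c ((x : M) - y)
    have h1 : z ∈ K (c + 1) := by
      show a ^ (c + 1) • z = 0
      rw [pow_succ', mul_smul, hz, smul_comm, hker, smul_zero]
    rw [← hc (c + 1) c.le_succ] at h1
    refine hnat (Q ^ c) (pow_ne_zero _ (hfin k hk)) _ ?_
    rw [Nat.cast_pow, ← hz]
    exact h1
  refine ⟨hinj, ?_⟩
  -- an annihilator which is not divisible by `p`
  obtain ⟨f, hf0, hf⟩ : ∃ f : Lam p, redS p f ≠ 0 ∧ ∀ x : M, f • x = 0 := by
    set a := nuS p e 1
    set Q := (cokCard M a : Lam p)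
    obtain ⟨P, hP, -, hco, haev⟩ :=
      LinearMap.exists_monic_and_natDegree_eq_and_coeff_mem_pow_and_aeval_eq_zero (Lam p)
        (algebraMap (Lam p) (Module.End (Lam p) M) Q) (Ideal.span {a}) (by
        rintro _ ⟨x, rfl⟩
        obtain ⟨y, hy⟩ := hQ 1 le_rfl x
        rw [Module.algebraMap_end_apply, ← hy]
        exact Submodule.smul_mem_smul (Ideal.mem_span_singleton_self a) trivial)
    rw [Polynomial.aeval_algebraMap_apply_eq_algebraMap_eval] at haev
    set f₀ := P.eval Q
    have hf₀ : f₀ ≠ 0 := fun h0 => by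
      have hmem : P.eval Q - Q ^ P.natDegree ∈ Ideal.span {a} := by
        rw [Polynomial.eval_eq_sum_range, Finset.sum_range_succ, hP.coeff_natDegree, one_mul,
          add_sub_cancel_right]
        refine Ideal.sum_mem _ fun j hj => Ideal.mul_mem_right _ _ ?_
        exact Ideal.pow_le_self (Nat.sub_ne_zero_of_lt (Finset.mem_range.1 hj)) (hco j)
      rw [show P.eval Q = 0 from h0, zero_sub, neg_mem_iff, Ideal.mem_span_singleton] at hmem
      refine not_nuS_dvd_natCast (p := p) e 1 one_pos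
        (pow_ne_zero P.natDegree (hfin 1 le_rfl)) ?_
      rw [Nat.cast_pow]
      exact hmem
    have hkill : ∀ x : M, f₀ • x = 0 := fun x => by
      have h := LinearMap.congr_fun haev x
      rwa [Module.algebraMap_end_apply, LinearMap.zero_apply] at h
    obtain ⟨i₀, hi₀⟩ : ∃ i, coeff i f₀ ≠ 0 := by
      by_contra h
      push Not at h
      exact hf₀ (PowerSeries.ext fun i => by rw [h, map_zero])
    obtain ⟨j, hj⟩ : ∃ j, ¬ (p : ℤ_[p]) ^ j ∣ coeff i₀ f₀ :=
      ⟨(coeff i₀ f₀).valuation + 1, fun h => by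
        rw [← Ideal.mem_span_singleton, PadicInt.mem_span_pow_iff_le_valuation _ hi₀] at h
        omega⟩
    -- divide by `p` fewer than `j` times
    clear haev hP hco hf₀ hi₀
    clear_value f₀
    induction j generalizing f₀ with
    | zero => exact absurd (by rw [pow_zero]; exact one_dvd _) hj
    | succ j ih =>
      by_cases hr : redS p f₀ = 0
      · obtain ⟨g', hg'⟩ := exists_eq_natCast_mul hr
        refine ih g' (fun x => htf _ (by rw [← mul_smul, ← hg', hkill])) fun hd => hj ?_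
        rw [hg', ← map_natCast (C : ℤ_[p] →+* Lam p), coeff_C_mul, pow_succ']
        exact mul_dvd_mul_left _ hd
      · exact ⟨f₀, hr, hkill⟩
  -- a power of `X` maps `M` into `p M`
  obtain ⟨d, hd⟩ : ∃ d : ℕ, ∀ x : M, ∃ y, (p : Lam p) • y = (X : Lam p) ^ d • x := by
    obtain ⟨d, hdd⟩ : ∃ d, (redS p f).order.toNat = d := ⟨_, rfl⟩
    obtain ⟨v, hv⟩ : ∃ v, redS p f = PowerSeries.X ^ d * v ∧ IsUnit v := by
      obtain ⟨v, hv⟩ := PowerSeries.X_pow_order_dvd (φ := redS p f)
      rw [hdd] at hv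
      refine ⟨v, hv, PowerSeries.isUnit_iff_constantCoeff.2 (isUnit_iff_ne_zero.2 fun h0 => ?_)⟩
      have h1 := PowerSeries.coeff_order hf0
      rw [hdd, hv, PowerSeries.coeff_X_pow_mul', if_pos le_rfl, Nat.sub_self,
        PowerSeries.coeff_zero_eq_constantCoeff] at h1
      exact h1 h0
    obtain ⟨hv, hvu⟩ := hv
    obtain ⟨v', hv'⟩ := PowerSeries.map_surjective (PadicInt.toZMod (p := p))
      (ZMod.ringHom_surjective _) v
    have hu : IsUnit v' := by
      rw [isUnit_iff_constantCoeff]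
      refine (IsLocalRing.notMem_maximalIdeal).1 fun hm => ?_
      rw [← PadicInt.ker_toZMod, RingHom.mem_ker, ← coeff_zero_eq_constantCoeff_apply,
        ← coeff_map, hv', coeff_zero_eq_constantCoeff_apply] at hm
      exact (PowerSeries.isUnit_iff_constantCoeff.1 hvu).ne_zero hm
    obtain ⟨g, hg⟩ := exists_eq_natCast_mul (f := f - X ^ d * v') (by
      rw [map_sub, hv, map_mul, map_pow]
      show _ - PowerSeries.map PadicInt.toZMod X ^ d * PowerSeries.map PadicInt.toZMod v' = 0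
      rw [map_X, hv', sub_self])
    refine ⟨d, fun x => ?_⟩
    obtain ⟨u, rfl⟩ := hu
    refine ⟨-(g • (↑u⁻¹ : Lam p) • x), ?_⟩
    rw [smul_neg, ← mul_smul, ← hg, sub_smul, hf, zero_sub, neg_neg, ← mul_smul, mul_assoc,
      Units.mul_inv, mul_one]
  -- `(ω_n)` maps into `p ^ 2 M` for large `n`
  set S₁ := LinearMap.range (LinearMap.lsmul (Lam p) M (p : Lam p))
  set S₂ := LinearMap.range (LinearMap.lsmul (Lam p) M ((p : Lam p) ^ 2))
  obtain ⟨n₁, hn₁⟩ : ∃ n₁ : ℕ, ∀ n, n₁ ≤ n → ∀ x : M, wS p n • x ∈ S₁ := by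
    refine ⟨d, fun n hn x => ?_⟩
    obtain ⟨g, hg⟩ := exists_eq_natCast_mul (f := wS p n - X ^ p ^ n) (by
      rw [map_sub, redS_wS, map_pow]
      show _ - PowerSeries.map PadicInt.toZMod X ^ p ^ n = 0
      rw [map_X, sub_self])
    obtain ⟨t, ht⟩ := Nat.exists_eq_add_of_le
      (hn.trans (Nat.lt_pow_self hp.out.one_lt).le : d ≤ p ^ n)
    obtain ⟨y, hy⟩ := hd ((X : Lam p) ^ t • x)
    refine ⟨y + g • x, ?_⟩
    rw [LinearMap.lsmul_apply, smul_add, hy, ← mul_smul, ← mul_smul, ← pow_add, ← ht, ← hg,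
      sub_smul, add_sub_cancel]
  have hgeom : ∀ n, ∃ h : Lam p, phiS p n = (p : Lam p) + wS p n * h := fun n => by
    obtain ⟨h, hh⟩ : wS p n ∣ phiS p n - (p : Lam p) := by
      rw [phiS, show (p : Lam p) = ∑ _j ∈ Finset.range p, (1 : Lam p) by simp,
        ← Finset.sum_sub_distrib]
      refine Finset.dvd_sum fun j _ => ?_
      rw [mul_comm, pow_mul, wS]
      exact sub_one_dvd_pow_sub_one _ j
    exact ⟨h, by rw [← hh, add_sub_cancel]⟩
  have hphi1 : ∀ n, n₁ ≤ n → ∀ x : M, phiS p n • x ∈ S₁ := fun n hn x => by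
    obtain ⟨h, hh⟩ := hgeom n
    rw [hh, add_smul, mul_smul]
    exact S₁.add_mem ⟨x, rfl⟩ (hn₁ n hn _)
  have hw2 : ∀ n, n₁ ≤ n → ∀ x : M, wS p (n + 1) • x ∈ S₂ := fun n hn x => by
    rw [← phiS_mul_wS, mul_smul]
    obtain ⟨y, hy⟩ := hn₁ n hn x
    obtain ⟨z, hz⟩ := hphi1 n hn y
    refine ⟨z, ?_⟩
    simp only [LinearMap.lsmul_apply] at hy hz ⊢
    rw [pow_two, mul_smul, hz, smul_comm, hy]
  have hrange : ∀ n, n₁ + 1 ≤ n →
      LinearMap.range (LinearMap.lsmul (Lam p) M (phiS p n)) = S₁ := fun n hn => by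
    obtain ⟨m, rfl⟩ : ∃ m, n = m + 1 := ⟨n - 1, by omega⟩
    refine le_antisymm ?_ ?_
    · rintro _ ⟨x, rfl⟩
      exact hphi1 _ (by omega) x
    · refine Submodule.le_of_le_smul_of_le_jacobson_bot (I := Ideal.span {(p : Lam p)})
        (IsNoetherian.noetherian _) span_natCast_le_jacobson ?_
      rintro _ ⟨x, rfl⟩
      obtain ⟨h, hh⟩ := hgeom (m + 1)
      obtain ⟨z, hz⟩ := hw2 m (by omega) (h • x)
      refine Submodule.mem_sup.2 ⟨_, ⟨x, rfl⟩, -((p : Lam p) • (p : Lam p) • z),
        neg_mem (Submodule.smul_mem_smul (Ideal.mem_span_singleton_self _) ⟨z, rfl⟩), ?_⟩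
      simp only [LinearMap.lsmul_apply] at hz ⊢
      rw [hh, add_smul, mul_smul, ← hz, pow_two, mul_smul, add_neg_cancel_right]
  refine ⟨padicValNat p (cokCard M (p : Lam p)), n₁ + 1, by omega, fun k hk => ?_⟩
  induction k, hk using Nat.le_induction with
  | base => simp
  | succ k hk ih =>
    have hrangeA : (smulHom M (phiS p (e + k))).range = (smulHom M (p : Lam p)).range :=
      AddSubgroup.ext fun x => SetLike.ext_iff.1 (hrange (e + k) (by omega)) x
    have hcok : cokCard M (phiS p (e + k)) = cokCard M (p : Lam p) := by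
      rw [cokCard, cokCard, hrangeA]
    have hk1 : kerCard M (phiS p (e + k)) = 1 := by
      rw [kerCard, Nat.card_eq_one_iff_unique]
      refine ⟨⟨fun x y => Subtype.ext ?_⟩, ⟨0⟩⟩
      have h1 : ∀ z : M, phiS p (e + k) • z = 0 → z = 0 := fun z hz => by
        have h2 := hinj (k + 1) (by omega)
        rw [kerCard, Nat.card_eq_one_iff_unique] at h2
        haveI := h2.1
        exact congrArg Subtype.val (Subsingleton.elim
          (⟨z, by show nuS p e (k + 1) • z = 0; rw [nuS_succ, mul_smul, hz, smul_zero]⟩ :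
            (smulHom M (nuS p e (k + 1))).ker) 0)
      rw [h1 x x.2, h1 y y.2]
    have hfk : Fin2 M (nuS p e k) :=
      ⟨hfin k (by omega), by rw [hinj k (by omega)]; exact one_ne_zero⟩
    have hf1 : Fin2 M (nuS p e (k + 1)) :=
      ⟨hfin _ (by omega), by rw [hinj _ (by omega)]; exact one_ne_zero⟩
    have hfp : Fin2 M (phiS p (e + k)) := by
      refine ⟨fun h0 => hf1.1 ?_, by rw [hk1]; exact one_ne_zero⟩
      have h := cok_mul_ker_mul (M := M) (nuS p e k) (phiS p (e + k))
      rw [← nuS_succ, h0, hinj k (by omega), hk1, hinj (k + 1) (by omega)] at h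
      simpa using h
    rw [nuS_succ, qv_mul hfk hfp (by rw [← nuS_succ]; exact hf1), ih]
    simp only [qv, hcok, hk1, padicValNat_one_right]
    push_cast
    ring

/-- **The growth theorem for modules.** -/
theorem growth (e : ℕ) (hfin : ∀ k, 1 ≤ k → cokCard M (nuS p e k) ≠ 0) :
    ∃ (mu lam : ℕ) (nu : ℤ) (k₀ : ℕ), ∀ k, k₀ ≤ k →
      (padicValNat p (cokCard M (nuS p e k)) : ℤ) = mu * p ^ (e + k) + lam * k + nu := by
  obtain ⟨c, hc⟩ := exists_torsion_exponent (p := p) (M := M)
  set T := LinearMap.ker (LinearMap.lsmul (Lam p) M ((p : Lam p) ^ c))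
  haveI : Module.Finite (Lam p) T := Module.Finite.of_fg (IsNoetherian.noetherian T)
  have hT : ∀ x : T, (p : Lam p) ^ c • x = 0 := fun x => Subtype.ext x.2
  obtain ⟨r, hr⟩ := exists_qv_eq_of_killed c T hT e
  have htf : ∀ x : M ⧸ T, (p : Lam p) • x = 0 → x = 0 := fun x hx => by
    obtain ⟨y, rfl⟩ := T.mkQ_surjective x
    rw [← map_smul] at hx
    refine (Submodule.Quotient.mk_eq_zero T).2 (hc (c + 1) y ?_)
    rw [pow_succ, mul_smul]
    exact (Submodule.Quotient.mk_eq_zero T).1 hx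
  have hfinQ : ∀ k, 1 ≤ k → cokCard (M ⧸ T) (nuS p e k) ≠ 0 := fun k hk h0 => hfin k hk (by
    have hle : (smulHom M (nuS p e k)).range ≤
        (smulHom (M ⧸ T) (nuS p e k)).range.comap T.mkQ.toAddMonoidHom := by
      rintro _ ⟨y, rfl⟩
      exact ⟨T.mkQ y, (T.mkQ.map_smul _ _).symm⟩
    have hd := AddSubgroup.index_dvd_of_le hle
    rw [AddSubgroup.index_comap_of_surjective _ T.mkQ_surjective] at hd
    exact Nat.eq_zero_of_zero_dvd (h0 ▸ hd))
  obtain ⟨hinjQ, lam, k₁, hk₁, hlam⟩ := exists_lambda htf e hfinQ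
  obtain ⟨k₂, hk₂⟩ := exists_kerCard_const (p := p) (M := T) e
  have hkerT : ∀ k, 1 ≤ k → kerCard M (nuS p e k) = kerCard T (nuS p e k) := fun k hk => by
    refine Nat.card_congr
      { toFun := fun x => ⟨⟨x.1, ?_⟩, Subtype.ext x.2⟩
        invFun := fun x => ⟨x.1.1, congrArg Subtype.val x.2⟩
        left_inv := fun x => rfl
        right_inv := fun x => rfl }
    have h2 := hinjQ k hk
    rw [kerCard, Nat.card_eq_one_iff_unique] at h2
    haveI := h2.1
    refine (Submodule.Quotient.mk_eq_zero T).1 (congrArg Subtype.val (Subsingleton.elim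
      (⟨T.mkQ x.1, by
        show nuS p e k • T.mkQ x.1 = 0
        rw [← map_smul, show nuS p e k • x.1 = 0 from x.2, map_zero]⟩ :
        (smulHom (M ⧸ T) (nuS p e k)).ker) 0))
  have hv : ∀ k, max k₁ k₂ ≤ k → (padicValNat p (cokCard M (nuS p e k)) : ℤ) =
      r * p ^ (e + k) + lam * k + (qv (M ⧸ T) p (nuS p e k₁) - lam * k₁ - r * p ^ e +
        padicValNat p (kerCard T (nuS p e k₂))) := fun k hk => by
    have h1 : 1 ≤ k := hk₁.trans ((le_max_left _ _).trans hk)
    have hTk := fin2_nuS_of_killed (p := p) (M := T) hT e k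
    have h := qv_submodule (p := p) T hTk ⟨hfinQ k h1, by rw [hinjQ k h1]; exact one_ne_zero⟩
      ⟨hfin k h1, by rw [hkerT k h1]; exact hTk.2⟩
    have hd : ((degS p e k : ℕ) : ℤ) = (p : ℤ) ^ (e + k) - (p : ℤ) ^ e := by
      rw [degS, Nat.cast_sub (Nat.pow_le_pow_right hp.out.pos (Nat.le_add_right e k))]
      push_cast
      ring
    rw [hr, hlam k ((le_max_left _ _).trans hk), qv, hkerT k h1,
      hk₂ k ((le_max_right _ _).trans hk), hd] at h
    linear_combination h
  set C₀ := qv (M ⧸ T) p (nuS p e k₁) - lam * k₁ - r * p ^ e +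
    padicValNat p (kerCard T (nuS p e k₂))
  have hr0 : 0 ≤ r := by
    by_contra hneg
    push Not at hneg
    set B := 2 * lam + C₀.natAbs + max k₁ k₂ + 1
    have h1 := hv (2 * B) (by omega)
    have h2 : ((B : ℤ) + 1) * (B + 1) ≤ (p : ℤ) ^ (e + 2 * B) := by
      have : (B + 1) * (B + 1) ≤ p ^ (e + 2 * B) := by
        refine le_trans (Nat.mul_le_mul B.lt_two_pow_self B.lt_two_pow_self) ?_
        rw [← pow_add, ← two_mul]
        exact (Nat.pow_le_pow_left hp.out.two_le _).trans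
          (Nat.pow_le_pow_right hp.out.pos (Nat.le_add_left _ _))
      exact_mod_cast this
    have h3 : C₀ ≤ C₀.natAbs := Int.le_natAbs
    simp only [Nat.cast_mul, Nat.cast_ofNat] at h1
    have h4 : r * (p : ℤ) ^ (e + 2 * B) ≤ -((p : ℤ) ^ (e + 2 * B)) := by
      nlinarith [show r ≤ -1 by omega, show (0 : ℤ) ≤ (p : ℤ) ^ (e + 2 * B) by positivity]
    have h5 : (2 * (lam : ℤ) + C₀.natAbs + 1) ≤ (B : ℤ) := by omega
    have h6 : (0 : ℤ) ≤ (C₀.natAbs : ℤ) := by positivity
    have h7 : (0 : ℤ) ≤ (padicValNat p (cokCard M (nuS p e (2 * B))) : ℤ) := by positivity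
    nlinarith [mul_nonneg (show (0 : ℤ) ≤ (B : ℤ) - 2 * lam by omega)
      (show (0 : ℤ) ≤ (B : ℤ) by omega)]
  obtain ⟨mu, rfl⟩ := Int.eq_ofNat_of_zero_le hr0
  exact ⟨mu, lam, C₀, max k₁ k₂, hv⟩

end FA.IwasawaGrowth
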