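import Fermat.Agent.IwasawaGrowth.Module

/-!
# Iwasawa's criterion for `μ = 0`

For a module as in `growth` let `M₁ = M / p M`. If `μ = 0` the quotients `M₁ / ν M₁` are bounded,
otherwise their order is at least `p ^ deg ν` (`growth_mu`).
-/

set_option autoImplicit false
set_option linter.unusedSectionVars false
set_option linter.style.haveILetI false

noncomputable section

open PowerSeries

namespace FA.IwasawaGrowth

variable {p : ℕ} [hp : Fact p.Prime]

/-- `p ^ (2 N) ≥ (N + 1) ^ 2`. -/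
theorem succ_sq_le_pow (N : ℕ) : (N + 1) * (N + 1) ≤ p ^ (2 * N) := by
  refine le_trans (Nat.mul_le_mul N.lt_two_pow_self N.lt_two_pow_self) ?_
  rw [← pow_add, ← two_mul]
  exact Nat.pow_le_pow_left hp.out.two_le _

/-- An exponential below a linear function has no positive coefficient. -/
theorem nonpos_of_exp_le {r A B : ℤ} {k₀ : ℕ}
    (h : ∀ k, k₀ ≤ k → r * (p : ℤ) ^ k ≤ A * k + B) : r ≤ 0 := by
  by_contra hr
  push Not at hr
  set N := 2 * A.natAbs + B.natAbs + k₀ + 1
  have h1 := h (2 * N) (by omega)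
  have h2 : ((N : ℤ) + 1) * (N + 1) ≤ (p : ℤ) ^ (2 * N) := by exact_mod_cast succ_sq_le_pow N
  have h3 : (p : ℤ) ^ (2 * N) ≤ r * (p : ℤ) ^ (2 * N) :=
    le_mul_of_one_le_left (by positivity) (by omega)
  have hA : A ≤ (A.natAbs : ℤ) := Int.le_natAbs
  have hB : B ≤ (B.natAbs : ℤ) := Int.le_natAbs
  have hN : 2 * (A.natAbs : ℤ) + B.natAbs + 1 ≤ N := by omega
  simp only [Nat.cast_mul, Nat.cast_ofNat] at h1
  have h4 : A * (2 * (N : ℤ)) ≤ 2 * (A.natAbs : ℤ) * N := by nlinarith
  nlinarith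

/-- A linear function is no exponential. -/
theorem eq_zero_of_exp_eq {a b c : ℤ} {k₀ : ℕ}
    (h : ∀ k, k₀ ≤ k → a * (p : ℤ) ^ k = b * k + c) : a = 0 :=
  le_antisymm (nonpos_of_exp_le fun k hk => (h k hk).le)
    (neg_nonpos.1 (nonpos_of_exp_le (r := -a) (A := -b) (B := -c) fun k hk => le_of_eq (by
      linear_combination -(h k hk))))

/-- The value of `qv` at `ν` in the degree. -/
abbrev dInt (p e k : ℕ) : ℤ := (degS p e k : ℤ)

theorem dInt_eq (e k : ℕ) : dInt p e k = (p : ℤ) ^ e * ((p : ℤ) ^ k - 1) := by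
  rw [dInt, degS, Nat.cast_sub (Nat.pow_le_pow_right hp.out.pos (Nat.le_add_right e k)), pow_add]
  push_cast
  ring

theorem dInt_one_ne_zero (e : ℕ) : dInt p e 1 ≠ 0 := by
  rw [dInt_eq, pow_one]
  refine mul_ne_zero (pow_ne_zero _ (Nat.cast_ne_zero.2 hp.out.ne_zero)) ?_
  have := hp.out.two_le
  omega

variable {U : Type*} [AddCommGroup U] [Module (Lam p) U] [Module.Finite (Lam p) U]

/-- A coefficient of `qv` is nonnegative. -/
theorem coeff_nonneg {e : ℕ} {r : ℤ} (hr : ∀ k, qv U p (nuS p e k) = r * degS p e k) : 0 ≤ r := by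
  obtain ⟨k₀, hk⟩ := exists_kerCard_const (p := p) (M := U) e
  set C := (padicValNat p (kerCard U (nuS p e k₀)) : ℤ)
  have h := nonpos_of_exp_le (r := -r * (p : ℤ) ^ e) (A := 0) (B := C - r * (p : ℤ) ^ e)
    (k₀ := k₀) fun k hk' => by
      have h1 : qv U p (nuS p e k) = r * dInt p e k := hr k
      rw [dInt_eq, qv, hk k hk'] at h1
      have h2 : (0 : ℤ) ≤ (padicValNat p (cokCard U (nuS p e k)) : ℤ) := by positivity
      change _ - C = _ at h1
      nlinarith
  have hpe : (0 : ℤ) < (p : ℤ) ^ e := pow_pos (by exact_mod_cast hp.out.pos) e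
  nlinarith

variable {c e : ℕ}

/-- Additivity of the coefficient. -/
theorem coeff_add (hU : ∀ x : U, (p : Lam p) ^ c • x = 0) (P : Submodule (Lam p) U)
    [Module.Finite (Lam p) P] {r r₁ r₂ : ℤ} (hr : ∀ k, qv U p (nuS p e k) = r * degS p e k)
    (hr₁ : ∀ k, qv P p (nuS p e k) = r₁ * degS p e k)
    (hr₂ : ∀ k, qv (U ⧸ P) p (nuS p e k) = r₂ * degS p e k) : r = r₁ + r₂ := by
  have hP : ∀ x : P, (p : Lam p) ^ c • x = 0 := fun x => Subtype.ext (hU x.1)
  have hQ : ∀ x : U ⧸ P, (p : Lam p) ^ c • x = 0 := fun x => by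
    obtain ⟨y, rfl⟩ := P.mkQ_surjective x
    rw [← map_smul, hU, map_zero]
  have h := qv_submodule (p := p) P (fin2_nuS_of_killed hP e 1) (fin2_nuS_of_killed hQ e 1)
    (fin2_nuS_of_killed hU e 1)
  rw [hr, hr₁, hr₂, ← add_mul] at h
  exact mul_right_cancel₀ (dInt_one_ne_zero e) h

theorem cokCard_congr {R : Type*} [CommRing R] {V W : Type*} [AddCommGroup V] [Module R V]
    [AddCommGroup W] [Module R W] (f : V ≃ₗ[R] W) (a : R) : cokCard V a = cokCard W a := by
  have h : (smulHom V a).range = (smulHom W a).range.comap f.toAddEquiv.toAddMonoidHom :=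
    AddSubgroup.ext fun x => ⟨fun ⟨y, hy⟩ => ⟨f y, by rw [smulHom_apply, ← map_smul]
                                                      exact congrArg f hy⟩,
      fun ⟨z, hz⟩ => ⟨f.symm z, f.injective (by
        rw [smulHom_apply, map_smul, LinearEquiv.apply_symm_apply]
        exact hz)⟩⟩
  rw [cokCard, cokCard, h]
  exact AddSubgroup.index_comap_of_surjective _ f.surjective

theorem kerCard_congr {R : Type*} [CommRing R] {V W : Type*} [AddCommGroup V] [Module R V]
    [AddCommGroup W] [Module R W] (f : V ≃ₗ[R] W) (a : R) : kerCard V a = kerCard W a :=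
  Nat.card_congr (f.toEquiv.subtypeEquiv fun x => by
    rw [AddMonoidHom.mem_ker, AddMonoidHom.mem_ker, smulHom_apply, smulHom_apply]
    show a • x = 0 ↔ a • f x = 0
    rw [← map_smul, LinearEquiv.map_eq_zero_iff])

theorem qv_congr {R : Type*} [CommRing R] {V W : Type*} [AddCommGroup V] [Module R V]
    [AddCommGroup W] [Module R W] (f : V ≃ₗ[R] W) (q : ℕ) (a : R) : qv V q a = qv W q a := by
  rw [qv, qv, cokCard_congr f, kerCard_congr f]

/-- If the elements killed by `p` carry no coefficient nothing does. -/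
theorem coeff_eq_zero_of_bottom (c : ℕ) : ∀ (U : Type _) [AddCommGroup U] [Module (Lam p) U]
    [Module.Finite (Lam p) U], (∀ x : U, (p : Lam p) ^ c • x = 0) → ∀ {r : ℤ},
      (∀ k, qv U p (nuS p e k) = r * degS p e k) →
      (∀ k, qv (LinearMap.ker (LinearMap.lsmul (Lam p) U (p : Lam p))) p (nuS p e k) = 0) →
        r = 0 := by
  induction c with
  | zero =>
    intro U _ _ _ hc r hr _
    haveI : Subsingleton U :=
      ⟨fun x y => by rw [← one_smul (Lam p) x, ← one_smul (Lam p) y, ← pow_zero, hc, hc]⟩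
    have h := hr 1
    simp [qv, cokCard, kerCard, AddSubgroup.index, Subsingleton.elim _ ⊤] at h
    exact h.resolve_right (fun h0 => dInt_one_ne_zero (p := p) e (by
      show (degS p e 1 : ℤ) = 0
      exact_mod_cast h0))
  | succ c ih =>
    intro U _ _ _ hc r hr hbot
    set P := LinearMap.ker (LinearMap.lsmul (Lam p) U (p : Lam p))
    haveI : Module.Finite (Lam p) P := Module.Finite.of_fg (IsNoetherian.noetherian P)
    have hQ : ∀ x : U ⧸ P, (p : Lam p) ^ c • x = 0 := fun x => by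
      obtain ⟨y, rfl⟩ := P.mkQ_surjective x
      rw [← map_smul]
      refine (Submodule.Quotient.mk_eq_zero P).2 ?_
      show (p : Lam p) • (p : Lam p) ^ c • y = 0
      rw [← mul_smul, ← pow_succ', hc]
    obtain ⟨r', hr'⟩ := exists_qv_eq_of_killed c (U ⧸ P) hQ e
    have h := coeff_add (c := c + 1) hc P hr (r₁ := 0) (fun k => by rw [hbot, zero_mul]) hr'
    rw [zero_add] at h
    subst h
    refine ih (U ⧸ P) hQ hr' ?_
    -- multiplication by `p` embeds the bottom of `U / P` into that of `U`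
    set P' := LinearMap.ker (LinearMap.lsmul (Lam p) (U ⧸ P) (p : Lam p))
    haveI : Module.Finite (Lam p) P' := Module.Finite.of_fg (IsNoetherian.noetherian P')
    have hP'1 : ∀ x : P', (p : Lam p) ^ 1 • x = 0 := fun x =>
      Subtype.ext (by rw [pow_one]; exact x.2)
    obtain ⟨s, hs⟩ := exists_qv_eq_of_killed 1 P' hP'1 e
    let μ : (U ⧸ P) →ₗ[Lam p] U := P.liftQ (LinearMap.lsmul (Lam p) U (p : Lam p)) le_rfl
    have hμ : Function.Injective μ := LinearMap.ker_eq_bot.1
      (Submodule.ker_liftQ_eq_bot _ _ _ le_rfl)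
    let ν' : P' →ₗ[Lam p] P := (μ.comp P'.subtype).codRestrict P fun x => by
      show (p : Lam p) • μ x.1 = 0
      rw [← map_smul, show (p : Lam p) • x.1 = 0 from x.2, map_zero]
    have hν : Function.Injective ν' := fun x y h =>
      Subtype.ext (hμ (congrArg Subtype.val h))
    have hP1 : ∀ x : P, (p : Lam p) ^ 1 • x = 0 := fun x =>
      Subtype.ext (by rw [pow_one]; exact x.2)
    haveI : Module.Finite (Lam p) (LinearMap.range ν') :=
      Module.Finite.of_fg (IsNoetherian.noetherian _)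
    have hQ1 : ∀ x : P ⧸ LinearMap.range ν', (p : Lam p) ^ 1 • x = 0 := fun x => by
      obtain ⟨y, rfl⟩ := (LinearMap.range ν').mkQ_surjective x
      rw [← map_smul, hP1, map_zero]
    obtain ⟨t, ht⟩ := exists_qv_eq_of_killed 1 _ hQ1 e
    have hs' : ∀ k, qv (LinearMap.range ν') p (nuS p e k) = s * degS p e k := fun k => by
      rw [← qv_congr (LinearEquiv.ofInjective ν' hν), hs]
    have h0 := coeff_add hP1 (LinearMap.range ν') (r := 0) (fun k => by rw [hbot, zero_mul]) hs' ht
    have := coeff_nonneg hs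
    have := coeff_nonneg ht
    intro k
    rw [hs, show s = 0 by omega, zero_mul]

variable {M : Type*} [AddCommGroup M] [Module (Lam p) M] [Module.Finite (Lam p) M]

/-- **Growth with Iwasawa's criterion.** -/
theorem growth_mu (e : ℕ) (hfin : ∀ k, 1 ≤ k → cokCard M (nuS p e k) ≠ 0) :
    ∃ (mu lam : ℕ) (nu : ℤ) (k₀ : ℕ),
      (∀ k, k₀ ≤ k →
        (padicValNat p (cokCard M (nuS p e k)) : ℤ) = mu * p ^ (e + k) + lam * k + nu) ∧
      (mu = 0 → ∃ (C k₁ : ℕ), ∀ k, k₁ ≤ k → cokCard
        (M ⧸ LinearMap.range (LinearMap.lsmul (Lam p) M (p : Lam p))) (nuS p e k) ≤ C) ∧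
      (mu ≠ 0 → ∀ k, p ^ degS p e k ≤ cokCard
        (M ⧸ LinearMap.range (LinearMap.lsmul (Lam p) M (p : Lam p))) (nuS p e k)) := by
  obtain ⟨mu, lam, nu, k₀, hgr⟩ := growth (p := p) (M := M) e hfin
  obtain ⟨c, hc⟩ := exists_torsion_exponent (p := p) (M := M)
  set pM := LinearMap.range (LinearMap.lsmul (Lam p) M (p : Lam p)) with hpM
  set T := LinearMap.ker (LinearMap.lsmul (Lam p) M ((p : Lam p) ^ c))
  haveI : Module.Finite (Lam p) T := Module.Finite.of_fg (IsNoetherian.noetherian T)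
  have hT : ∀ x : T, (p : Lam p) ^ c • x = 0 := fun x => Subtype.ext x.2
  obtain ⟨r, hr⟩ := exists_qv_eq_of_killed c T hT e
  have htf : ∀ x : M ⧸ T, (p : Lam p) • x = 0 → x = 0 := fun x hx => by
    obtain ⟨y, rfl⟩ := T.mkQ_surjective x
    rw [← map_smul] at hx
    refine (Submodule.Quotient.mk_eq_zero T).2 (hc (c + 1) y ?_)
    rw [pow_succ, mul_smul]
    exact (Submodule.Quotient.mk_eq_zero T).1 hx
  -- the quotient by `p`
  have hM₁ : ∀ x : M ⧸ pM, (p : Lam p) ^ 1 • x = 0 := fun x => by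
    obtain ⟨y, rfl⟩ := pM.mkQ_surjective x
    rw [pow_one, ← map_smul]
    exact (Submodule.Quotient.mk_eq_zero pM).2 ⟨y, rfl⟩
  obtain ⟨r₁, hr₁⟩ := exists_qv_eq_of_killed 1 (M ⧸ pM) hM₁ e
  -- it has the coefficient of the bottom of the torsion
  set B := LinearMap.ker (LinearMap.lsmul (Lam p) M (p : Lam p))
  haveI : Module.Finite (Lam p) B := Module.Finite.of_fg (IsNoetherian.noetherian B)
  have hB : ∀ x : B, (p : Lam p) ^ 1 • x = 0 := fun x => Subtype.ext (by rw [pow_one]; exact x.2)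
  obtain ⟨r₀, hr₀⟩ := exists_qv_eq_of_killed 1 B hB e
  obtain ⟨hinjQ, lamQ, kQ, hkQ, hlamQ⟩ := exists_lambda htf e fun k hk h0 => hfin k hk (by
    have hle : (smulHom M (nuS p e k)).range ≤
        (smulHom (M ⧸ T) (nuS p e k)).range.comap T.mkQ.toAddMonoidHom := by
      rintro _ ⟨y, rfl⟩
      exact ⟨T.mkQ y, (T.mkQ.map_smul _ _).symm⟩
    have hd := AddSubgroup.index_dvd_of_le hle
    rw [AddSubgroup.index_comap_of_surjective _ T.mkQ_surjective] at hd
    exact Nat.eq_zero_of_zero_dvd (h0 ▸ hd))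
  have hkerM : ∀ k, 1 ≤ k → kerCard M (nuS p e k) ≠ 0 := fun k hk => by
    have hT2 := (fin2_nuS_of_killed (p := p) (M := T) hT e k).2
    suffices h : kerCard M (nuS p e k) = kerCard T (nuS p e k) by rw [h]; exact hT2
    refine Nat.card_congr
      { toFun := fun x => ⟨⟨x.1, ?_⟩, Subtype.ext x.2⟩
        invFun := fun x => ⟨x.1.1, congrArg Subtype.val x.2⟩
        left_inv := fun x => rfl
        right_inv := fun x => rfl }
    have h2 := hinjQ k hk
    rw [kerCard, Nat.card_eq_one_iff_unique] at h2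
    haveI := h2.1
    refine (Submodule.Quotient.mk_eq_zero T).1 (congrArg Subtype.val (Subsingleton.elim
      (⟨T.mkQ x.1, by
        show nuS p e k • T.mkQ x.1 = 0
        rw [← map_smul, show nuS p e k • x.1 = 0 from x.2, map_zero]⟩ :
        (smulHom (M ⧸ T) (nuS p e k)).ker) 0))
  -- additivity on the two sequences of multiplication by `p`
  have hMk : ∀ k, 1 ≤ k → Fin2 M (nuS p e k) := fun k hk => ⟨hfin k hk, hkerM k hk⟩
  have hr01 : r₀ = r₁ := by
    let iso : (M ⧸ B) ≃ₗ[Lam p] pM :=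
      LinearMap.quotKerEquivRange (LinearMap.lsmul (Lam p) M (p : Lam p))
    haveI : Module.Finite (Lam p) pM := Module.Finite.of_fg (IsNoetherian.noetherian pM)
    have hMB : Fin2 (M ⧸ B) (nuS p e 1) := by
      refine ⟨fun h0 => hfin 1 le_rfl ?_, ?_⟩
      · have hle : (smulHom M (nuS p e 1)).range ≤
            (smulHom (M ⧸ B) (nuS p e 1)).range.comap B.mkQ.toAddMonoidHom := by
          rintro _ ⟨y, rfl⟩
          exact ⟨B.mkQ y, (B.mkQ.map_smul _ _).symm⟩
        have hd := AddSubgroup.index_dvd_of_le hle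
        rw [AddSubgroup.index_comap_of_surjective _ B.mkQ_surjective] at hd
        exact Nat.eq_zero_of_zero_dvd (h0 ▸ hd)
      · rw [kerCard_congr iso]
        haveI : Finite (smulHom M (nuS p e 1)).ker :=
          Nat.finite_of_card_ne_zero (hkerM 1 le_rfl)
        haveI : Finite (smulHom pM (nuS p e 1)).ker :=
          Finite.of_injective (β := (smulHom M (nuS p e 1)).ker)
            (fun x => ⟨x.1.1, congrArg Subtype.val x.2⟩)
            fun x y h => Subtype.ext (Subtype.ext (congrArg (fun z => z.1) h))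
        exact Nat.card_pos.ne'
    have h1 := qv_submodule (p := p) B (fin2_nuS_of_killed hB e 1) hMB (hMk 1 le_rfl)
    have hpM2 : Fin2 pM (nuS p e 1) :=
      ⟨cokCard_congr iso _ ▸ hMB.1, kerCard_congr iso _ ▸ hMB.2⟩
    have h2 := qv_submodule (p := p) pM hpM2 (fin2_nuS_of_killed hM₁ e 1) (hMk 1 le_rfl)
    rw [qv_congr iso] at h1
    rw [hr₀] at h1
    rw [hr₁] at h2
    exact mul_right_cancel₀ (dInt_one_ne_zero (p := p) e) (show r₀ * dInt p e 1 = r₁ * dInt p e 1 by
      rw [dInt]; linarith)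
  -- `μ = 0` as soon as the bottom has no coefficient
  have hmu : r₁ = 0 → mu = 0 := fun h0 => by
    have hr00 : r = 0 := by
      refine coeff_eq_zero_of_bottom c T hT hr fun k => ?_
      let j : LinearMap.ker (LinearMap.lsmul (Lam p) T (p : Lam p)) →ₗ[Lam p] B :=
        (T.subtype.comp (Submodule.subtype _)).codRestrict B fun x => congrArg Subtype.val x.2
      have hjinj : Function.Injective j := fun x y h =>
        Subtype.ext (Subtype.ext (congrArg (fun z : B => z.1) h))
      have hjs : Function.Surjective j := fun x => ⟨⟨⟨x.1, hc 1 x.1 (by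
        rw [pow_one]; exact x.2)⟩, Subtype.ext x.2⟩, rfl⟩
      rw [qv_congr (LinearEquiv.ofBijective j ⟨hjinj, hjs⟩), hr₀, hr01, h0, zero_mul]
    obtain ⟨kT, hkT⟩ := exists_kerCard_const (p := p) (M := M) e
    set K₁ := max (max k₀ kQ) (max kT 1)
    have key : ∀ k, K₁ ≤ k → (mu : ℤ) * p ^ e * (p : ℤ) ^ k =
        ((lamQ : ℤ) - lam) * k + (qv (M ⧸ T) p (nuS p e kQ) - lamQ * kQ +
          padicValNat p (kerCard M (nuS p e kT)) - nu) := fun k hk => by
      have h1 : 1 ≤ k := by omega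
      have hd := qv_submodule (p := p) T (fin2_nuS_of_killed hT e k)
        ⟨fun h0 => by
          have hle : (smulHom M (nuS p e k)).range ≤
              (smulHom (M ⧸ T) (nuS p e k)).range.comap T.mkQ.toAddMonoidHom := by
            rintro _ ⟨y, rfl⟩
            exact ⟨T.mkQ y, (T.mkQ.map_smul _ _).symm⟩
          have hd := AddSubgroup.index_dvd_of_le hle
          rw [AddSubgroup.index_comap_of_surjective _ T.mkQ_surjective] at hd
          exact hfin k h1 (Nat.eq_zero_of_zero_dvd (h0 ▸ hd)),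
        by rw [hinjQ k h1]; exact one_ne_zero⟩ (hMk k h1)
      rw [hr k, hr00, zero_mul, zero_add, hlamQ k (by omega), qv, hgr k (by omega),
        hkT k (by omega)] at hd
      rw [mul_assoc, ← pow_add]
      linear_combination hd
    have h := eq_zero_of_exp_eq key
    rw [mul_eq_zero] at h
    exact_mod_cast h.resolve_right (pow_ne_zero _ (Nat.cast_ne_zero.2 hp.out.ne_zero))
  have hr1 := coeff_nonneg hr₁
  have hppow : ∀ k, ∃ a, cokCard (M ⧸ pM) (nuS p e k) = p ^ a := fun k => by
    set R := (smulHom (M ⧸ pM) (nuS p e k)).range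
    haveI : R.FiniteIndex := ⟨(fin2_nuS_of_killed hM₁ e k).1⟩
    haveI : Finite ((M ⧸ pM) ⧸ R) := AddSubgroup.finite_quotient_of_finiteIndex
    have h : IsPGroup p (Multiplicative ((M ⧸ pM) ⧸ R)) := fun x => ⟨1, by
      obtain ⟨y, hy⟩ := QuotientAddGroup.mk_surjective x.toAdd
      refine Multiplicative.toAdd.injective ?_
      rw [pow_one, toAdd_pow, toAdd_one, ← hy, ← QuotientAddGroup.mk_nsmul,
        ← Nat.cast_smul_eq_nsmul (Lam p)]
      have := hM₁ y
      rw [pow_one] at this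
      rw [this]
      rfl⟩
    obtain ⟨a, ha⟩ := IsPGroup.iff_card.1 h
    refine ⟨a, ?_⟩
    rw [cokCard, AddSubgroup.index]
    exact (Nat.card_congr Multiplicative.ofAdd).trans ha
  refine ⟨mu, lam, nu, k₀, hgr, fun h0 => ?_, fun hne k => ?_⟩
  · obtain ⟨k₁, hk₁⟩ := exists_kerCard_const (p := p) (M := M ⧸ pM) e
    suffices hz : r₁ = 0 by
      refine ⟨p ^ padicValNat p (kerCard (M ⧸ pM) (nuS p e k₁)), k₁, fun k hk => ?_⟩
      obtain ⟨a, ha⟩ := hppow k
      have h := hr₁ k
      rw [hz, zero_mul, qv, sub_eq_zero, ha, padicValNat.prime_pow, hk₁ k hk] at h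
      rw [ha]
      exact Nat.pow_le_pow_right hp.out.pos (le_of_eq (by exact_mod_cast h))
    refine le_antisymm ?_ hr1
    have hq : r₁ * (p : ℤ) ^ e ≤ 0 := by
      refine nonpos_of_exp_le (p := p) (r := r₁ * (p : ℤ) ^ e) (A := (lam : ℤ))
        (B := nu + r₁ * (p : ℤ) ^ e) (k₀ := max k₀ 1) fun k hk => ?_
      have h1 : qv (M ⧸ pM) p (nuS p e k) = r₁ * dInt p e k := hr₁ k
      rw [dInt_eq, qv] at h1
      have h2 := hgr k (by omega)
      rw [h0, Nat.cast_zero, zero_mul, zero_add] at h2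
      have hle : cokCard (M ⧸ pM) (nuS p e k) ∣ cokCard M (nuS p e k) := by
        have hle : (smulHom M (nuS p e k)).range ≤
            (smulHom (M ⧸ pM) (nuS p e k)).range.comap pM.mkQ.toAddMonoidHom := by
          rintro _ ⟨y, rfl⟩
          exact ⟨pM.mkQ y, (pM.mkQ.map_smul _ _).symm⟩
        have hd := AddSubgroup.index_dvd_of_le hle
        rwa [AddSubgroup.index_comap_of_surjective _ pM.mkQ_surjective] at hd
      have h3 : padicValNat p (cokCard (M ⧸ pM) (nuS p e k)) ≤
          padicValNat p (cokCard M (nuS p e k)) :=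
        (padicValNat_dvd_iff_le (hfin k (by omega))).1 (pow_padicValNat_dvd.trans hle)
      have h4 : (0 : ℤ) ≤ padicValNat p (kerCard (M ⧸ pM) (nuS p e k)) := by positivity
      have h5 : (padicValNat p (cokCard (M ⧸ pM) (nuS p e k)) : ℤ) ≤
          padicValNat p (cokCard M (nuS p e k)) := by exact_mod_cast h3
      nlinarith
    have hpe : (0 : ℤ) < (p : ℤ) ^ e := pow_pos (by exact_mod_cast hp.out.pos) e
    nlinarith
  · have hpos : 1 ≤ r₁ := by
      rcases hr1.lt_or_eq with h | h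
      · omega
      · exact absurd (hmu h.symm) hne
    obtain ⟨a, ha⟩ := hppow k
    rw [ha]
    refine Nat.pow_le_pow_right hp.out.pos ?_
    have h := hr₁ k
    rw [qv, ha, padicValNat.prime_pow] at h
    have h2 : (0 : ℤ) ≤ padicValNat p (kerCard (M ⧸ pM) (nuS p e k)) := by positivity
    have h3 : (degS p e k : ℤ) ≤ r₁ * degS p e k := le_mul_of_one_le_left (by positivity) hpos
    omega

end FA.IwasawaGrowth
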