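import Mathlib

/-!
# Cokernel against kernel of a multiplication

For a module `M` and a scalar `a`, `cokCard M a = [M : a M]` and `kerCard M a = |M[a]|`. Their
ratio is multiplicative in short exact sequences (`cok_mul_ker_submodule`) and in `a`
(`cok_mul_ker_mul`); `qv p M a` is its valuation at `p`.

Classical (the Herbrand quotient).
-/

set_option autoImplicit false

noncomputable section

namespace FA.IwasawaGrowth

variable {R : Type*} [CommRing R] {M : Type*} [AddCommGroup M] [Module R M]

variable (M) in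
/-- The multiplication by `a`. -/
def smulHom (a : R) : M →+ M := DistribSMul.toAddMonoidHom M a

@[simp] theorem smulHom_apply (a : R) (x : M) : smulHom M a x = a • x := rfl

variable (M) in
/-- The index of `a M`. -/
def cokCard (a : R) : ℕ := (smulHom M a).range.index

variable (M) in
/-- The order of `M[a]`. -/
def kerCard (a : R) : ℕ := Nat.card (smulHom M a).ker

variable (M) in
/-- Both are finite. -/
def Fin2 (a : R) : Prop := cokCard M a ≠ 0 ∧ kerCard M a ≠ 0

variable (M) in
/-- The valuation of their ratio. -/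
def qv (p : ℕ) (a : R) : ℤ := (padicValNat p (cokCard M a) : ℤ) - padicValNat p (kerCard M a)

/-- **Multiplicativity in short exact sequences.** -/
theorem cok_mul_ker_submodule (N : Submodule R M) (a : R) :
    cokCard M a * kerCard N a * kerCard (M ⧸ N) a =
      kerCard M a * cokCard N a * cokCard (M ⧸ N) a := by
  set f := smulHom M a
  set π : M →+ M ⧸ N := N.mkQ.toAddMonoidHom
  set B : AddSubgroup M := N.toAddSubgroup
  set ι : N →+ M := N.subtype.toAddMonoidHom
  have hπ : Function.Surjective π := N.mkQ_surjective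
  have hπB : π.ker = B := AddSubgroup.ext fun x => (Submodule.Quotient.mk_eq_zero N)
  have hι : ι.range = B :=
    AddSubgroup.ext fun x => ⟨fun ⟨y, hy⟩ => hy ▸ y.2, fun h => ⟨⟨x, h⟩, rfl⟩⟩
  have hcomm : ∀ x, π (f x) = smulHom (M ⧸ N) a (π x) := fun x => N.mkQ.map_smul a x
  -- the image and the preimage of `N`
  set A' := B.comap f
  have hBA : B ⊔ f.ker ≤ A' := sup_le (fun x hx => N.smul_mem a hx) fun x hx => by
    show f x ∈ B
    rw [hx]; exact B.zero_mem
  have hRB : f.range ⊔ B = (smulHom (M ⧸ N) a).range.comap π := by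
    refine le_antisymm (sup_le ?_ ?_) fun x hx => ?_
    · rintro _ ⟨y, rfl⟩
      exact ⟨π y, (hcomm y).symm⟩
    · exact fun x hx => ⟨0, by rw [map_zero]; exact ((Submodule.Quotient.mk_eq_zero N).2 hx).symm⟩
    · obtain ⟨c, hc⟩ := hx
      obtain ⟨y, rfl⟩ := hπ c
      rw [← hcomm] at hc
      exact AddSubgroup.mem_sup.2 ⟨f y, ⟨y, rfl⟩, x - f y,
        (Submodule.Quotient.eq N).1 hc.symm, add_sub_cancel _ _⟩
  have hA' : A' = (smulHom (M ⧸ N) a).ker.comap π := AddSubgroup.ext fun x => by
    show f x ∈ B ↔ smulHom (M ⧸ N) a (π x) = 0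
    rw [← hcomm]
    exact (Submodule.Quotient.mk_eq_zero N).symm
  have hmap : A'.map f = f.range ⊓ B := by
    rw [AddMonoidHom.range_eq_map]
    exact le_antisymm (fun x ⟨y, hy, e⟩ => ⟨⟨y, trivial, e⟩, e ▸ hy⟩)
      fun x ⟨⟨y, _, e⟩, hx⟩ => ⟨y, by show f y ∈ B; rw [e]; exact hx, e⟩
  have hBf : B.map f ≤ f.range ⊓ B := hmap ▸ AddSubgroup.map_mono (le_sup_left.trans hBA)
  -- the six cardinalities
  set x := (f.range ⊓ B).relIndex B
  set w := (B ⊔ f.ker).relIndex A'
  set z := B.relIndex (B ⊔ f.ker)
  have h1 : cokCard M a = x * cokCard (M ⧸ N) a := by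
    have e1 : f.range.relIndex (f.range ⊔ B) = x := by
      rw [sup_comm, AddSubgroup.relIndex_sup_right, ← AddSubgroup.inf_relIndex_right]
    have e2 : (f.range ⊔ B).index = cokCard (M ⧸ N) a := by
      rw [hRB, AddSubgroup.index_comap_of_surjective _ hπ, cokCard]
    rw [cokCard, ← AddSubgroup.relIndex_mul_index (H := f.range) (K := f.range ⊔ B) le_sup_left,
      e1, e2]
  have h2 : cokCard N a = w * x := by
    have e1 : (B.map f).relIndex (f.range ⊓ B) = w := by
      rw [← hmap, AddSubgroup.relIndex_map_map, sup_eq_left.2 (le_sup_right.trans hBA)]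
    have e2 : (smulHom N a).range.map ι = B.map f := by
      refine le_antisymm (fun m hm => ?_) fun m hm => ?_
      · obtain ⟨_, ⟨y, rfl⟩, rfl⟩ := hm
        exact ⟨y.1, y.2, rfl⟩
      · obtain ⟨y, hy, rfl⟩ := hm
        exact ⟨_, ⟨⟨y, hy⟩, rfl⟩, rfl⟩
    rw [cokCard, ← AddSubgroup.relIndex_top_right,
      ← AddSubgroup.relIndex_map_map_of_injective (f := ι) _ _ Subtype.val_injective, e2,
      ← AddMonoidHom.range_eq_map, hι, ← AddSubgroup.relIndex_mul_relIndex _ _ _ hBf inf_le_right,
      e1]
  have h3 : kerCard (M ⧸ N) a = z * w := by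
    rw [AddSubgroup.relIndex_mul_relIndex _ _ _ le_sup_left hBA, ← hπB, hA',
      ← AddMonoidHom.comap_bot, AddSubgroup.relIndex_comap,
      AddSubgroup.map_comap_eq_self_of_surjective hπ, AddSubgroup.relIndex_bot_left, kerCard]
  have h4 : kerCard M a = z * kerCard N a := by
    have e : Nat.card (B ⊓ f.ker : AddSubgroup M) = kerCard N a := by
      refine Nat.card_congr
        { toFun := fun y => ⟨⟨y.1, y.2.1⟩, Subtype.ext (show a • y.1 = 0 from y.2.2)⟩
          invFun := fun y => ⟨y.1.1, y.1.2, (congrArg Subtype.val y.2 : a • y.1.1 = 0)⟩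
          left_inv := fun y => rfl
          right_inv := fun y => rfl }
    have e1 : (B ⊓ f.ker).relIndex f.ker = z := by
      rw [AddSubgroup.inf_relIndex_right]
      exact (sup_comm B f.ker ▸ AddSubgroup.relIndex_sup_right (H := f.ker) (K := B)).symm
    rw [kerCard, ← AddSubgroup.relIndex_bot_left (H := f.ker),
      ← AddSubgroup.relIndex_mul_relIndex _ (B ⊓ f.ker) _ bot_le inf_le_right,
      AddSubgroup.relIndex_bot_left, e, e1, mul_comm]
  rw [h1, h2, h3, h4]
  ring

/-- **Multiplicativity in the scalar.** -/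
theorem cok_mul_ker_mul (a b : R) :
    cokCard M (a * b) * kerCard M a * kerCard M b =
      cokCard M a * cokCard M b * kerCard M (a * b) := by
  set fa := smulHom M a
  set fb := smulHom M b
  have hab : smulHom M (a * b) = fa.comp fb := AddMonoidHom.ext fun x => mul_smul a b x
  set u := (fb.range ⊔ fa.ker).index
  set t := fb.range.relIndex (fb.range ⊔ fa.ker)
  set s := Nat.card (fa.ker ⊓ fb.range : AddSubgroup M)
  have h1 : cokCard M (a * b) = cokCard M a * u := by
    have e : (fa.comp fb).range = fb.range.map fa := AddMonoidHom.range_comp fa fb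
    have e1 : (fb.range.map fa).relIndex fa.range = u := by
      rw [AddMonoidHom.range_eq_map fa, AddSubgroup.relIndex_map_map, top_sup_eq,
        AddSubgroup.relIndex_top_right]
    rw [cokCard, hab, e, ← AddSubgroup.relIndex_mul_index (AddSubgroup.map_le_range fa fb.range),
      e1, mul_comm]
    rfl
  have h2 : cokCard M b = t * u :=
    (AddSubgroup.relIndex_mul_index le_sup_left).symm
  have h3 : kerCard M (a * b) = kerCard M b * s := by
    have e : (fb.ker).relIndex ((fa.comp fb).ker) = s := by
      rw [← AddMonoidHom.comap_bot, ← AddMonoidHom.comap_ker, AddSubgroup.relIndex_comap,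
        AddSubgroup.map_comap_eq, AddSubgroup.relIndex_bot_left, inf_comm]
    have hle : fb.ker ≤ (fa.comp fb).ker := fun x hx => by
      show fa (fb x) = 0
      rw [hx, map_zero]
    rw [kerCard, hab, ← AddSubgroup.relIndex_bot_left,
      ← AddSubgroup.relIndex_mul_relIndex _ fb.ker _ bot_le hle, AddSubgroup.relIndex_bot_left, e]
    rfl
  have h4 : kerCard M a = s * t := by
    have e : (fa.ker ⊓ fb.range).relIndex fa.ker = t := by
      rw [inf_comm, AddSubgroup.inf_relIndex_right]
      exact (sup_comm fa.ker fb.range ▸ AddSubgroup.relIndex_sup_right (H := fa.ker)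
        (K := fb.range)).symm
    rw [kerCard, ← AddSubgroup.relIndex_bot_left,
      ← AddSubgroup.relIndex_mul_relIndex _ (fa.ker ⊓ fb.range) _ bot_le inf_le_left,
      AddSubgroup.relIndex_bot_left, e]
  rw [h1, h2, h3, h4]
  ring

variable {p : ℕ} [hp : Fact p.Prime]

/-- Finiteness and valuation in short exact sequences. -/
theorem qv_submodule (N : Submodule R M) {a : R} (hN : Fin2 N a) (hQ : Fin2 (M ⧸ N) a)
    (hM : Fin2 M a) : qv M p a = qv N p a + qv (M ⧸ N) p a := by
  have h := congrArg (padicValNat p) (cok_mul_ker_submodule N a)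
  rw [padicValNat.mul (mul_ne_zero hM.1 hN.2) hQ.2, padicValNat.mul hM.1 hN.2,
    padicValNat.mul (mul_ne_zero hM.2 hN.1) hQ.1, padicValNat.mul hM.2 hN.1] at h
  simp only [qv]
  omega

/-- The valuation is additive in the scalar. -/
theorem qv_mul {a b : R} (ha : Fin2 M a) (hb : Fin2 M b) (hab : Fin2 M (a * b)) :
    qv M p (a * b) = qv M p a + qv M p b := by
  have h := congrArg (padicValNat p) (cok_mul_ker_mul (M := M) a b)
  rw [padicValNat.mul (mul_ne_zero hab.1 ha.2) hb.2, padicValNat.mul hab.1 ha.2,
    padicValNat.mul (mul_ne_zero ha.1 hb.1) hab.2, padicValNat.mul ha.1 hb.1] at h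
  simp only [qv]
  omega

end FA.IwasawaGrowth
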