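import Fermat.Agent.ArtinReciprocity.Frobenius

/-!
# Tame inertia in an abelian extension

In an abelian extension `L/K` an inertia element at `Q` killed by a number `m` prime to `Q` is
killed by `N(Q ∩ K) - 1` (`inertia_pow_eq_one`): it acts on `Q / Q²` by a scalar fixed by
Frobenius, and an element trivial modulo `Q²` killed by such a number is trivial.
-/

set_option autoImplicit false
set_option linter.unusedSectionVars false
set_option linter.style.haveILetI false

noncomputable section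

open NumberField IsDedekindDomain

namespace FA.IwasawaGrowth

variable {K L : Type*} [Field K] [NumberField K] [Field L] [NumberField L] [Algebra K L]

/-- An automorphism keeping an ideal keeps its square. -/
theorem smul_mem_sq {I : Ideal (𝓞 L)} {g : L ≃ₐ[K] L} (h : ∀ x ∈ I, g • x ∈ I) {x : 𝓞 L}
    (hx : x ∈ I ^ 2) : g • x ∈ I ^ 2 := by
  rw [pow_two] at hx ⊢
  induction hx using Submodule.mul_induction_on' with
  | mem_mul_mem a ha b hb =>
    rw [smul_mul']
    exact Ideal.mul_mem_mul (h a ha) (h b hb)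
  | add a _ b _ hia hib =>
    rw [smul_add]
    exact add_mem hia hib

/-- An element which is trivial modulo `Q²` and killed by a number prime to `Q` is trivial. -/
theorem eq_one_of_trivial_mod_sq {Q : Ideal (𝓞 L)} [hQ : Q.IsMaximal] {m : ℕ}
    (hm : (m : 𝓞 L) ∉ Q) {g : L ≃ₐ[K] L} (hgm : g ^ m = 1)
    (h : ∀ x : 𝓞 L, g • x - x ∈ Q ^ 2) : g = 1 := by
  have hall : ∀ n, ∀ x : 𝓞 L, g • x - x ∈ Q ^ (n + 2) := fun n => by
    induction n with
    | zero => exact h
    | succ n ih =>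
      intro x
      have hQmem : ∀ a ∈ Q, g • a ∈ Q := fun a ha => by
        simpa using Q.add_mem (Ideal.pow_le_self two_ne_zero (h a)) ha
      -- trivial one step further on `Q²`
      have hsq : ∀ y ∈ Q ^ 2, g • y - y ∈ Q ^ (n + 3) := by
        intro y hy
        rw [pow_two] at hy
        induction hy using Submodule.mul_induction_on' with
        | mem_mul_mem a ha b hb =>
          rw [smul_mul', show g • a * g • b - a * b = (g • a - a) * g • b + a * (g • b - b) by ring]
          refine add_mem ?_ ?_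
          · rw [pow_succ]
            exact Ideal.mul_mem_mul (ih a) (hQmem b hb)
          · rw [pow_succ']
            exact Ideal.mul_mem_mul ha (ih b)
        | add a _ b _ hia hib =>
          rw [smul_add, add_sub_add_comm]
          exact add_mem hia hib
      have hpow : ∀ j : ℕ, g ^ j • x - x - (j : 𝓞 L) * (g • x - x) ∈ Q ^ (n + 3) := fun j => by
        induction j with
        | zero => simp
        | succ j ihj =>
          have hg : g • (g ^ j • x - x) - (g ^ j • x - x) ∈ Q ^ (n + 3) := by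
            refine hsq _ ?_
            have h1 := Ideal.add_mem _ (Ideal.pow_le_pow_right (show 2 ≤ n + 3 by omega) ihj)
              (Ideal.mul_mem_left _ (j : 𝓞 L) (h x))
            simpa using h1
          have h2 := add_mem hg ihj
          convert h2 using 1
          rw [pow_succ', mul_smul, smul_sub]
          push_cast
          ring
      have hm' := hpow m
      rw [hgm, one_smul, sub_self, zero_sub, neg_mem_iff] at hm'
      obtain ⟨b, z, hz, hbz⟩ := hQ.exists_inv hm
      rw [← one_mul (g • x - x), ← hbz, add_mul, mul_assoc]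
      refine add_mem (Ideal.mul_mem_left _ b hm') ?_
      rw [show n + 1 + 2 = n + 2 + 1 from rfl, pow_succ']
      exact Ideal.mul_mem_mul hz (ih x)
  refine eq_of_smul_eq_smul fun x : L => ?_
  rw [one_smul]
  obtain ⟨a, b, hb, rfl⟩ := IsFractionRing.div_surjective (A := 𝓞 L) x
  have hfix : ∀ c : 𝓞 L, g (c : L) = c := fun c => by
    have h0 : g • c - c ∈ (⊥ : Ideal (𝓞 L)) := by
      rw [← Ideal.iInf_pow_eq_bot_of_isDomain Q hQ.ne_top, Submodule.mem_iInf]
      exact fun n => Ideal.pow_le_pow_right (Nat.le_add_right n 2) (hall n c)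
    rw [Ideal.mem_bot, sub_eq_zero] at h0
    exact congrArg (fun z : 𝓞 L => (z : L)) h0
  show g ((a : L) / (b : L)) = _
  rw [map_div₀, hfix, hfix]

variable [IsGalois K L]

/-- **Tame inertia.** -/
theorem inertia_pow_eq_one (hcomm : ∀ g h : L ≃ₐ[K] L, g * h = h * g)
    (Q : HeightOneSpectrum (𝓞 L)) {m : ℕ} (hm : (m : 𝓞 L) ∉ Q.asIdeal) {σ : L ≃ₐ[K] L}
    (hσ : σ ∈ Q.asIdeal.inertia (L ≃ₐ[K] L)) (hσm : σ ^ m = 1) :
    σ ^ (Nat.card (𝓞 K ⧸ Q.asIdeal.under (𝓞 K)) - 1) = 1 := by
  set P := Q.asIdeal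
  haveI : P.IsMaximal := Q.isMaximal
  obtain ⟨τ, hτ⟩ := FA.ArtinRec.exists_frob (K := K) Q
  set q := Nat.card (𝓞 K ⧸ P.under (𝓞 K))
  have hq0 : q ≠ 0 := by
    haveI : Finite (𝓞 K ⧸ P.under (𝓞 K)) :=
      Ideal.finiteQuotientOfFreeOfNeBot _ (Ideal.under_ne_bot _ Q.ne_bot)
    exact Nat.card_pos.ne'
  have hτ' : ∀ x : 𝓞 L, τ • x - x ^ q ∈ P := hτ
  have hτmem : ∀ x ∈ P, τ • x ∈ P := fun x hx => by
    simpa using P.add_mem (hτ' x) (P.pow_mem_of_mem hx q (Nat.pos_of_ne_zero hq0))
  have hτinv : ∀ x ∈ P, τ⁻¹ • x ∈ P := fun x hx => by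
    have h := P.sub_mem (show τ • τ⁻¹ • x ∈ P by rwa [smul_inv_smul]) (hτ' (τ⁻¹ • x))
    rw [sub_sub_cancel] at h
    exact Q.isPrime.mem_of_pow_mem q h
  obtain ⟨π, hπ, hπ2⟩ := Ideal.exists_mem_pow_notMem_pow_succ P Q.ne_bot Q.isPrime.ne_top 1
  rw [pow_one] at hπ
  have hdiv : ∀ x ∈ P, ∃ d : 𝓞 L, x - π * d ∈ P ^ 2 := fun x hx => by
    obtain ⟨d, e, he, hde⟩ := Ideal.exists_mul_add_mem_pow_succ (P := P) Q.ne_bot (i := 1)
      π x (by rwa [pow_one]) hπ2 (by rwa [pow_one])
    exact ⟨d, by rw [← hde, add_sub_cancel_left]; exact he⟩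
  have hmul : ∀ {a b : 𝓞 L}, a ∈ P → b ∈ P → a * b ∈ P ^ 2 := fun ha hb => by
    rw [pow_two]; exact Ideal.mul_mem_mul ha hb
  have hσmem : ∀ x ∈ P, σ • x ∈ P := fun x hx => by simpa using P.add_mem (hσ x) hx
  -- inertia acts on `P / P²` by a scalar
  obtain ⟨c, hc⟩ := hdiv (σ • π) (hσmem π hπ)
  have hscal : ∀ x ∈ P, σ • x - c * x ∈ P ^ 2 := fun x hx => by
    obtain ⟨d, hd⟩ := hdiv x hx
    have h1 : σ • (x - π * d) ∈ P ^ 2 := smul_mem_sq hσmem hd
    have h2 := add_mem (add_mem h1 (Ideal.mul_mem_right (σ • d) _ hc))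
      (sub_mem (hmul (Ideal.mul_mem_right c _ hπ) (hσ d)) (Ideal.mul_mem_left _ c hd))
    convert h2 using 1
    rw [smul_sub, smul_mul']
    ring
  -- the scalar is fixed by Frobenius
  have hπτ : τ • π ∉ P ^ 2 := fun h => hπ2 (by simpa using smul_mem_sq hτinv h)
  have hcq : c ^ q - c ∈ P := by
    by_contra hne
    refine hπτ ?_
    have hk : (c ^ q - c) * τ • π ∈ P ^ 2 := by
      have h1 := hscal _ (hτmem π hπ)
      have h2 : τ • (σ • π - c * π) ∈ P ^ 2 := smul_mem_sq hτmem (hscal π hπ)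
      have h3 := hmul (hτ' c) (hτmem π hπ)
      have h4 := sub_mem (sub_mem h1 h2) h3
      convert h4 using 1
      rw [smul_sub, smul_mul', ← mul_smul τ σ, hcomm, mul_smul]
      ring
    obtain ⟨b, z, hz, hbz⟩ := (Q.isMaximal).exists_inv hne
    rw [← one_mul (τ • π), ← hbz, add_mul, mul_assoc]
    exact add_mem (Ideal.mul_mem_left _ b hk) (hmul hz (hτmem π hπ))
  have hcP : c ∉ P := fun hcP => hπ2 (by
    have h1 : σ • π ∈ P ^ 2 := by
      simpa using add_mem hc (hmul hπ hcP)
    have hinv : ∀ x ∈ P, σ⁻¹ • x ∈ P := fun x hx => by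
      simpa using P.add_mem ((P.inertia (L ≃ₐ[K] L)).inv_mem hσ x) hx
    simpa using smul_mem_sq hinv h1)
  have hc1 : c ^ (q - 1) - 1 ∈ P := by
    refine (Q.isPrime.mem_or_mem (show c * (c ^ (q - 1) - 1) ∈ P from ?_)).resolve_left hcP
    rwa [mul_sub, ← pow_succ', Nat.sub_add_cancel (Nat.one_le_iff_ne_zero.2 hq0), mul_one]
  -- so the power acts trivially on `P / P²`, hence modulo `P²`
  have hpow : ∀ j : ℕ, ∀ x ∈ P, σ ^ j • x - c ^ j * x ∈ P ^ 2 := fun j => by
    induction j with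
    | zero => intro x _; simp
    | succ j ih =>
      intro x hx
      have h1 := hscal (σ ^ j • x) (by simpa using P.add_mem (pow_mem hσ j x) hx)
      have h2 := Ideal.mul_mem_left _ c (ih x hx)
      convert add_mem h1 h2 using 1
      rw [pow_succ', mul_smul, pow_succ']
      ring
  set ρ := σ ^ (q - 1)
  have hρI : ρ ∈ P.inertia (L ≃ₐ[K] L) := pow_mem hσ _
  have hρ1 : ∀ x ∈ P, ρ • x - x ∈ P ^ 2 := fun x hx => by
    have h := add_mem (hpow (q - 1) x hx) (hmul hc1 hx)
    convert h using 1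
    ring
  have hρ2 : ∀ x : 𝓞 L, ρ • x - x ∈ P ^ 2 := fun x => by
    haveI : Finite (𝓞 L ⧸ P) := Ideal.finiteQuotientOfFreeOfNeBot _ Q.ne_bot
    set N := Nat.card (𝓞 L ⧸ P) with hN
    have hxN : x - x ^ N ∈ P := by
      rw [← Ideal.Quotient.eq, map_pow]
      letI := Ideal.Quotient.field P
      letI := Fintype.ofFinite (𝓞 L ⧸ P)
      rw [hN, Nat.card_eq_fintype_card, FiniteField.pow_card]
    have hNP : (N : 𝓞 L) ∈ P := by
      rw [← Ideal.Quotient.eq_zero_iff_mem, map_natCast, hN]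
      letI := Fintype.ofFinite (𝓞 L ⧸ P)
      rw [Nat.card_eq_fintype_card, Nat.cast_card_eq_zero]
    have hd : ρ • x - x ∈ P := hρI x
    have hpowd : (x + (ρ • x - x)) ^ N - x ^ N ∈ P ^ 2 := by
      obtain ⟨k, hk⟩ := Polynomial.binomExpansion ((Polynomial.X : Polynomial (𝓞 L)) ^ N) x
        (ρ • x - x)
      simp only [Polynomial.eval_pow, Polynomial.eval_X, Polynomial.derivative_X_pow,
        Polynomial.eval_mul, Polynomial.eval_C] at hk
      rw [hk, add_assoc, add_sub_cancel_left, pow_two (ρ • x - x)]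
      exact add_mem (by
        rw [mul_assoc]
        exact hmul hNP (Ideal.mul_mem_left _ _ hd)) (Ideal.mul_mem_left _ _ (hmul hd hd))
    rw [show x + (ρ • x - x) = ρ • x by ring, ← smul_pow'] at hpowd
    have h := add_mem (hρ1 _ hxN) hpowd
    convert h using 1
    rw [smul_sub]
    ring
  refine eq_one_of_trivial_mod_sq hm ?_ hρ2
  show (σ ^ (q - 1)) ^ m = 1
  rw [← pow_mul, mul_comm, pow_mul, hσm, one_pow]

end FA.IwasawaGrowth
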