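import Fermat.Agent.IwasawaGrowth.Tame
import Fermat.Agent.IwasawaGrowth.Fields

/-!
# Ramification in a `ℤ_p`-extension

A `ℤ_p`-extension (`ZpTower`) is unramified outside `p` and at infinite places, some prime
ramifies, and above some level every ramified prime is totally ramified
(`ZpTower.exists_ramification`).
-/

set_option autoImplicit false
set_option linter.unusedSectionVars false
set_option linter.style.haveILetI false

noncomputable section

open NumberField IsDedekindDomain
open FA.ArtinRec (belowP exists_belowP galPrime)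
open Fermat.Agent.ClassFieldTower
open scoped Pointwise

namespace FA.IwasawaGrowth

/-- A `ℤ_p`-extension as a tower of cyclic extensions of degrees `p ^ n`. -/
structure ZpTower (p : ℕ) (K : Type) [Field K] [NumberField K] where
  /-- The level `n`. -/
  field : ℕ → IntermediateField K (AlgebraicClosure K)
  isGalois : ∀ n, IsGalois K (field n)
  isCyclic : ∀ n, IsCyclic (field n ≃ₐ[K] field n)
  finrank_eq : ∀ n, Module.finrank K (field n) = p ^ n
  mono : Monotone field

/-- In a finite cyclic group divisibility of orders gives inclusion. -/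
theorem le_of_card_dvd {G : Type*} [Group G] [Finite G] [IsCyclic G] {A B : Subgroup G}
    (h : Nat.card A ∣ Nat.card B) : A ≤ B := by
  classical
  haveI := Fintype.ofFinite G
  intro x hx
  have hsub : (B : Set G).toFinset ⊆ Finset.univ.filter fun g : G => g ^ Nat.card B = 1 :=
    fun g hg => Finset.mem_filter.2 ⟨Finset.mem_univ g,
      congrArg Subtype.val (pow_card_eq_one' (x := (⟨g, Set.mem_toFinset.1 hg⟩ : B)))⟩
  have heq := Finset.eq_of_subset_of_card_le hsub (by
    refine (IsCyclic.card_pow_eq_one_le Nat.card_pos).trans (le_of_eq ?_)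
    rw [Set.toFinset_card, Nat.card_eq_fintype_card]
    rfl)
  have hxB : x ∈ Finset.univ.filter fun g : G => g ^ Nat.card B = 1 := by
    refine Finset.mem_filter.2 ⟨Finset.mem_univ x, ?_⟩
    obtain ⟨c, hc⟩ := h
    rw [hc, pow_mul, show x ^ Nat.card A = 1 from
      congrArg Subtype.val (pow_card_eq_one' (x := (⟨x, hx⟩ : A))), one_pow]
  rw [← heq] at hxB
  exact Set.mem_toFinset.1 hxB

variable {K : Type} [Field K] [NumberField K]

attribute [local instance] numberField_sub

section restriction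

variable {L N : IntermediateField K (AlgebraicClosure K)} [FiniteDimensional K L]
  [FiniteDimensional K N]

/-- The prime of the lower field. -/
def under' (h : L ≤ N) (Q : HeightOneSpectrum (𝓞 N)) : HeightOneSpectrum (𝓞 L) :=
  letI : Algebra L N := (IntermediateField.inclusion h).toRingHom.toAlgebra
  belowP L Q

variable [IsGalois K L] [IsGalois K N]

theorem belowP_under' (h : L ≤ N) (Q : HeightOneSpectrum (𝓞 N)) :
    belowP K (under' h Q) = belowP K Q := by
  letI : Algebra L N := (IntermediateField.inclusion h).toRingHom.toAlgebra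
  haveI : IsScalarTower K L N := IsScalarTower.of_algebraMap_eq fun _ => rfl
  exact FA.ArtinRec.belowP_belowP Q

theorem exists_under'_eq (h : L ≤ N) (Q : HeightOneSpectrum (𝓞 L)) :
    ∃ Q', under' h Q' = Q := by
  letI : Algebra L N := (IntermediateField.inclusion h).toRingHom.toAlgebra
  haveI : IsScalarTower K L N := IsScalarTower.of_algebraMap_eq fun _ => rfl
  exact exists_belowP L N Q

theorem res_mem_inertia (h : L ≤ N) {Q : HeightOneSpectrum (𝓞 N)} {s : N ≃ₐ[K] N}
    (hs : s ∈ Q.asIdeal.inertia (N ≃ₐ[K] N)) :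
    res h s ∈ (under' h Q).asIdeal.inertia (L ≃ₐ[K] L) := by
  letI : Algebra L N := (IntermediateField.inclusion h).toRingHom.toAlgebra
  haveI : IsScalarTower K L N := IsScalarTower.of_algebraMap_eq fun _ => rfl
  exact restrict_mem_inertia hs

theorem exists_res_inertia (h : L ≤ N) {Q : HeightOneSpectrum (𝓞 N)} {t : L ≃ₐ[K] L}
    (ht : t ∈ (under' h Q).asIdeal.inertia (L ≃ₐ[K] L)) :
    ∃ s ∈ Q.asIdeal.inertia (N ≃ₐ[K] N), res h s = t := by
  letI : Algebra L N := (IntermediateField.inclusion h).toRingHom.toAlgebra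
  haveI : IsScalarTower K L N := IsScalarTower.of_algebraMap_eq fun _ => rfl
  haveI := Q.isMaximal
  exact FA.ArtinL.exists_inertia_lift (K := K) Q.asIdeal ht

theorem res_mem_stabilizer (h : L ≤ N) {u : InfinitePlace N} {s : N ≃ₐ[K] N}
    (hs : s ∈ MulAction.stabilizer (N ≃ₐ[K] N) u) :
    ∃ w : InfinitePlace L, res h s ∈ MulAction.stabilizer (L ≃ₐ[K] L) w := by
  letI : Algebra L N := (IntermediateField.inclusion h).toRingHom.toAlgebra
  haveI : IsScalarTower K L N := IsScalarTower.of_algebraMap_eq fun _ => rfl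
  exact ⟨_, restrict_mem_stabilizer_place hs⟩

theorem exists_res_stabilizer (h : L ≤ N) {u : InfinitePlace L} {t : L ≃ₐ[K] L}
    (ht : t ∈ MulAction.stabilizer (L ≃ₐ[K] L) u) :
    ∃ (w : InfinitePlace N) (s : N ≃ₐ[K] N),
      s ∈ MulAction.stabilizer (N ≃ₐ[K] N) w ∧ res h s = t := by
  letI : Algebra L N := (IntermediateField.inclusion h).toRingHom.toAlgebra
  haveI : IsScalarTower K L N := IsScalarTower.of_algebraMap_eq fun _ => rfl
  obtain ⟨w, rfl⟩ := InfinitePlace.comap_surjective (K := N) u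
  obtain ⟨s, hs, hst⟩ := exists_stabilizer_lift (K := K) w ht
  exact ⟨w, s, hs, hst⟩

end restriction

namespace ZpTower

variable {p : ℕ} [hp : Fact p.Prime] (T : ZpTower p K)

theorem finite_level (n : ℕ) : FiniteDimensional K (T.field n) :=
  Module.finite_of_finrank_pos (by rw [T.finrank_eq]; exact pow_pos hp.out.pos n)

attribute [local instance] ZpTower.finite_level ZpTower.isGalois ZpTower.isCyclic

theorem card_gal (n : ℕ) : Nat.card (T.field n ≃ₐ[K] T.field n) = p ^ n := by
  rw [IsGalois.card_aut_eq_finrank, T.finrank_eq]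

theorem comm (n : ℕ) (a b : T.field n ≃ₐ[K] T.field n) : a * b = b * a :=
  @mul_comm' _ _ IsCyclic.isMulCommutative a b

/-- `Gal(F_n/F_j)`. -/
abbrev step {j n : ℕ} (h : j ≤ n) : Subgroup (T.field n ≃ₐ[K] T.field n) := sub (T.mono h)

theorem card_step {j n : ℕ} (h : j ≤ n) : Nat.card (T.step h) = p ^ (n - j) := by
  have h1 := Subgroup.card_mul_index (T.step h)
  rw [T.card_gal, step, ← ker_res, Subgroup.index_ker, MonoidHom.range_eq_top.2
    (res_surjective (T.mono h)), Subgroup.card_top, T.card_gal] at h1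
  rw [step, ← ker_res]
  refine Nat.eq_of_mul_eq_mul_right (pow_pos hp.out.pos j) ?_
  rw [h1, ← pow_add, Nat.sub_add_cancel h]

/-- A subgroup not below a step contains it. -/
theorem step_le_of_not_le {j n : ℕ} (h : j ≤ n) {J : Subgroup (T.field n ≃ₐ[K] T.field n)}
    (hJ : ¬ J ≤ T.step h) : T.step h ≤ J := by
  obtain ⟨i, -, hi⟩ := (Nat.dvd_prime_pow hp.out).1
    (T.card_gal n ▸ Subgroup.card_subgroup_dvd_card J)
  refine le_of_card_dvd ?_
  rw [T.card_step h, hi]
  refine pow_dvd_pow p (not_lt.1 fun hlt => hJ (le_of_card_dvd ?_))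
  rw [T.card_step h, hi]
  exact pow_dvd_pow p hlt.le

/-- **Infinite places are unramified.** -/
theorem stabilizer_eq_bot (n : ℕ) (u : InfinitePlace (T.field n)) :
    MulAction.stabilizer (T.field n ≃ₐ[K] T.field n) u = ⊥ := by
  rw [Subgroup.eq_bot_iff_forall]
  intro t ht
  obtain ⟨w, s, hs, rfl⟩ := exists_res_stabilizer (T.mono n.le_succ) ht
  have h2 : s ^ 2 = 1 := by
    have h1 := congrArg Subtype.val (pow_card_eq_one'
      (x := (⟨s, hs⟩ : MulAction.stabilizer (T.field (n + 1) ≃ₐ[K] T.field (n + 1)) w)))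
    rcases InfinitePlace.nat_card_stabilizer_eq_one_or_two K w with h | h
    · rw [h] at h1
      rw [show s = 1 from (pow_one s).symm.trans h1, one_pow]
    · rw [h] at h1
      exact h1
  suffices h : Subgroup.zpowers s ≤ T.step n.le_succ by
    have := h (Subgroup.mem_zpowers s)
    rwa [step, ← ker_res, MonoidHom.mem_ker] at this
  obtain ⟨i, -, hi⟩ := (Nat.dvd_prime_pow hp.out).1
    (T.card_gal (n + 1) ▸ orderOf_dvd_natCard s)
  refine le_of_card_dvd ?_
  rw [T.card_step, Nat.card_zpowers, hi, show n.succ - n = 1 by omega, pow_one]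
  have h3 : p ^ i ∣ 2 := hi ▸ orderOf_dvd_of_pow_eq_one h2
  have h4 : i ≤ 1 := by
    by_contra hlt
    push Not at hlt
    have := Nat.le_of_dvd two_pos ((pow_dvd_pow p hlt).trans h3)
    nlinarith [hp.out.two_le]
  simpa using pow_dvd_pow p h4

/-- The inertia group of a prime only depends on the prime below. -/
theorem inertia_congr {n : ℕ} {Q Q' : HeightOneSpectrum (𝓞 (T.field n))}
    (h : belowP K Q = belowP K Q') :
    Q.asIdeal.inertia (T.field n ≃ₐ[K] T.field n) =
      Q'.asIdeal.inertia (T.field n ≃ₐ[K] T.field n) := by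
  have key : ∀ {Q Q' : HeightOneSpectrum (𝓞 (T.field n))}, belowP K Q = belowP K Q' →
      Q.asIdeal.inertia (T.field n ≃ₐ[K] T.field n) ≤
        Q'.asIdeal.inertia (T.field n ≃ₐ[K] T.field n) := fun {Q Q'} h s hs => by
    obtain ⟨g, hg⟩ := Algebra.IsInvariant.exists_smul_of_under_eq (𝓞 K) (𝓞 (T.field n))
      (T.field n ≃ₐ[K] T.field n) Q.asIdeal Q'.asIdeal (congrArg HeightOneSpectrum.asIdeal h)
    have h1 := inertia_conj hs g
    rw [show galPrime g Q = Q' from HeightOneSpectrum.ext hg.symm, T.comm n g s,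
      mul_inv_cancel_right] at h1
    exact h1
  exact le_antisymm (key h) (key h.symm)

/-- Ramification persists and grows. -/
theorem step_le_inertia {m M : ℕ} (h : m ≤ M) {Q : HeightOneSpectrum (𝓞 (T.field m))}
    (hQ : Q.asIdeal.inertia (T.field m ≃ₐ[K] T.field m) ≠ ⊥)
    {Q' : HeightOneSpectrum (𝓞 (T.field M))} (hQ' : belowP K Q' = belowP K Q) :
    ¬ Q'.asIdeal.inertia (T.field M ≃ₐ[K] T.field M) ≤ T.step h ∧
      T.step h ≤ Q'.asIdeal.inertia (T.field M ≃ₐ[K] T.field M) := by
  have h1 : ¬ Q'.asIdeal.inertia (T.field M ≃ₐ[K] T.field M) ≤ T.step h := fun hle => by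
    refine hQ ((Subgroup.eq_bot_iff_forall _).2 fun t ht => ?_)
    rw [T.inertia_congr (show belowP K Q = belowP K (under' (T.mono h) Q') by
      rw [belowP_under', hQ'])] at ht
    obtain ⟨s, hs, rfl⟩ := exists_res_inertia (T.mono h) ht
    have := hle hs
    rwa [step, ← ker_res, MonoidHom.mem_ker] at this
  exact ⟨h1, T.step_le_of_not_le h h1⟩

/-- **No prime outside `p` ramifies.** -/
theorem inertia_eq_bot_of_not_mem {m : ℕ} {Q : HeightOneSpectrum (𝓞 (T.field m))}
    (hQ : (p : 𝓞 (T.field m)) ∉ Q.asIdeal) :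
    Q.asIdeal.inertia (T.field m ≃ₐ[K] T.field m) = ⊥ := by
  by_contra hne
  set v := belowP K Q with hv
  haveI : Finite (𝓞 K ⧸ v.asIdeal) := Ideal.finiteQuotientOfFreeOfNeBot _ v.ne_bot
  set q := Nat.card (𝓞 K ⧸ v.asIdeal) with hq
  have hq2 : 2 ≤ q := Finite.one_lt_card_iff_nontrivial.2
    (Ideal.Quotient.nontrivial_iff.2 v.isPrime.ne_top)
  set M := m + q
  obtain ⟨Q', hQ'⟩ := exists_under'_eq (T.mono (Nat.le_add_right m q)) Q
  have hb : belowP K Q' = v := by rw [← belowP_under' (T.mono (Nat.le_add_right m q)) Q', hQ']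
  obtain ⟨-, hle⟩ := T.step_le_inertia (Nat.le_add_right m q) hne hb
  haveI : IsCyclic (T.step (Nat.le_add_right m q)) := inferInstance
  obtain ⟨g, hg⟩ := IsCyclic.exists_generator (α := T.step (Nat.le_add_right m q))
  have hord : orderOf (g : T.field M ≃ₐ[K] T.field M) = p ^ q := by
    rw [Subgroup.orderOf_coe, orderOf_eq_card_of_forall_mem_zpowers hg, T.card_step,
      Nat.add_sub_cancel_left]
  have hpQ' : ((p ^ M : ℕ) : 𝓞 (T.field M)) ∉ Q'.asIdeal := fun hmem => hQ (by
    rw [Nat.cast_pow] at hmem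
    have h1 : (p : 𝓞 K) ∈ v.asIdeal := by
      rw [← hb]
      show (p : 𝓞 K) ∈ Q'.asIdeal.under (𝓞 K)
      rw [Ideal.mem_comap, map_natCast]
      exact Q'.isPrime.mem_of_pow_mem _ hmem
    rw [hv] at h1
    change (p : 𝓞 K) ∈ Q.asIdeal.under (𝓞 K) at h1
    rwa [Ideal.mem_comap, map_natCast] at h1)
  have h1 := inertia_pow_eq_one (T.comm M) Q' hpQ' (hle g.2) (by
    rw [← T.card_gal M, pow_card_eq_one'])
  rw [← orderOf_dvd_iff_pow_eq_one, hord, show Q'.asIdeal.under (𝓞 K) = v.asIdeal from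
    congrArg HeightOneSpectrum.asIdeal hb, ← hq] at h1
  have h3 : p ^ q ≤ q - 1 := Nat.le_of_dvd (by omega) h1
  have h4 : q < p ^ q := Nat.lt_pow_self hp.out.one_lt
  omega

/-- **Some prime ramifies.** -/
theorem exists_ramified : ∃ (m : ℕ) (Q : HeightOneSpectrum (𝓞 (T.field m))),
    Q.asIdeal.inertia (T.field m ≃ₐ[K] T.field m) ≠ ⊥ := by
  by_contra hno
  push Not at hno
  set m := classNumber K
  have hu : UnrEverywhere K (T.field m) :=
    ⟨unramifiedPrimes_of_inertia_eq_bot fun P hP hP0 => hno m ⟨P, hP, hP0⟩,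
      ⟨fun w => InfinitePlace.isUnramified_iff_stabilizer_eq_bot.2 (T.stabilizer_eq_bot m w)⟩⟩
  obtain ⟨f, hf⟩ := exists_classGroup_surjective (T.comm m) hu
  have h := Subgroup.card_dvd_of_surjective f hf
  rw [T.card_gal, Nat.card_eq_fintype_card, ← classNumber] at h
  exact absurd (Nat.le_of_dvd (Nat.pos_of_ne_zero (classNumber_ne_zero K)) h)
    (not_le.2 (Nat.lt_pow_self hp.out.one_lt))

/-- **Above some level every ramified prime is totally ramified and divides `p`.** -/
theorem exists_ramification : ∃ e : ℕ,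
    (∀ m (h : e ≤ m) (Q : HeightOneSpectrum (𝓞 (T.field m))),
      Q.asIdeal.inertia (T.field m ≃ₐ[K] T.field m) = ⊥ ∨
        T.step h ≤ Q.asIdeal.inertia (T.field m ≃ₐ[K] T.field m)) ∧
    ∀ m, e ≤ m → ∃ Q : HeightOneSpectrum (𝓞 (T.field m)),
      Q.asIdeal.inertia (T.field m ≃ₐ[K] T.field m) ≠ ⊥ := by
  classical
  have hfin : {v : HeightOneSpectrum (𝓞 K) | (p : 𝓞 K) ∈ v.asIdeal}.Finite := by
    refine (Ideal.finite_factors (I := Ideal.span {(p : 𝓞 K)}) (by simp [hp.out.ne_zero])).subset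
      fun v hv => ?_
    show v.asIdeal ∣ Ideal.span {(p : 𝓞 K)}
    rw [Ideal.dvd_iff_le, Ideal.span_singleton_le_iff_mem]
    exact hv
  let R : HeightOneSpectrum (𝓞 K) → ℕ → Prop := fun v m =>
    ∃ Q : HeightOneSpectrum (𝓞 (T.field m)),
      Q.asIdeal.inertia (T.field m ≃ₐ[K] T.field m) ≠ ⊥ ∧ belowP K Q = v
  let f : HeightOneSpectrum (𝓞 K) → ℕ := fun v => if h : ∃ m, R v m then Nat.find h else 0
  obtain ⟨m₀, Q₀, hQ₀⟩ := T.exists_ramified
  refine ⟨max m₀ (hfin.toFinset.sup f), fun m hm Q => ?_, fun m hm => ?_⟩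
  · refine or_iff_not_imp_left.2 fun hQ => ?_
    set v := belowP K Q with hv
    have hpv : (p : 𝓞 K) ∈ v.asIdeal := by
      show (p : 𝓞 K) ∈ Q.asIdeal.under (𝓞 K)
      rw [Ideal.mem_comap, map_natCast]
      by_contra hpQ
      exact hQ (T.inertia_eq_bot_of_not_mem hpQ)
    have hex : ∃ m, R v m := ⟨m, Q, hQ, rfl⟩
    obtain ⟨Q₁, hQ₁, hv₁⟩ := Nat.find_spec hex
    have hle : Nat.find hex ≤ max m₀ (hfin.toFinset.sup f) := by
      refine le_trans ?_ (le_max_right _ _)
      have h1 := Finset.le_sup (f := f) (hfin.mem_toFinset.2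
        (show v ∈ {v : HeightOneSpectrum (𝓞 K) | (p : 𝓞 K) ∈ v.asIdeal} from hpv))
      simpa only [f, dif_pos hex] using h1
    obtain ⟨-, h1⟩ := T.step_le_inertia (hle.trans hm) hQ₁ (hv.symm.trans hv₁.symm)
    refine le_trans ?_ h1
    exact sub_le_sub (T.mono hle) (T.mono hm)
  · obtain ⟨Q, hQ⟩ := exists_under'_eq (T.mono ((le_max_left _ _).trans hm)) Q₀
    refine ⟨Q, fun hbot => (T.step_le_inertia ((le_max_left _ _).trans hm) hQ₀ (Q' := Q) ?_).1 ?_⟩
    · rw [← belowP_under' (T.mono ((le_max_left _ _).trans hm)) Q, hQ]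
    · rw [hbot]
      exact bot_le

end ZpTower

end FA.IwasawaGrowth
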